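import Mathlib.NumberTheory.Bernoulli

/-!
# The Bernoulli numbers up to `B₁₄`
-/

set_option autoImplicit false

namespace Fermat.Agent.Cor.Tau

theorem bernoulli_2 : bernoulli 2 = 1 / 6 := by
  rw [bernoulli_two, one_div]

theorem bernoulli_3 : bernoulli 3 = 0 := bernoulli_eq_zero_of_odd (by decide) (by decide)
theorem bernoulli_5 : bernoulli 5 = 0 := bernoulli_eq_zero_of_odd (by decide) (by decide)
theorem bernoulli_7 : bernoulli 7 = 0 := bernoulli_eq_zero_of_odd (by decide) (by decide)
theorem bernoulli_9 : bernoulli 9 = 0 := bernoulli_eq_zero_of_odd (by decide) (by decide)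
theorem bernoulli_11 : bernoulli 11 = 0 := bernoulli_eq_zero_of_odd (by decide) (by decide)
theorem bernoulli_13 : bernoulli 13 = 0 := bernoulli_eq_zero_of_odd (by decide) (by decide)

theorem bernoulli_4 : bernoulli 4 = -1 / 30 := by
  have h := sum_bernoulli 5
  norm_num [Finset.sum_range_succ, Nat.choose, bernoulli_2, bernoulli_3] at h
  linarith

theorem bernoulli_6 : bernoulli 6 = 1 / 42 := by
  have h := sum_bernoulli 7
  norm_num [Finset.sum_range_succ, Nat.choose, bernoulli_2, bernoulli_3, bernoulli_4,
    bernoulli_5] at h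
  linarith

theorem bernoulli_8 : bernoulli 8 = -1 / 30 := by
  have h := sum_bernoulli 9
  norm_num [Finset.sum_range_succ, Nat.choose, bernoulli_2, bernoulli_3, bernoulli_4,
    bernoulli_5, bernoulli_6, bernoulli_7] at h
  linarith

theorem bernoulli_10 : bernoulli 10 = 5 / 66 := by
  have h := sum_bernoulli 11
  norm_num [Finset.sum_range_succ, Nat.choose, bernoulli_2, bernoulli_3, bernoulli_4,
    bernoulli_5, bernoulli_6, bernoulli_7, bernoulli_8, bernoulli_9] at h
  linarith

theorem bernoulli_12 : bernoulli 12 = -691 / 2730 := by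
  have h := sum_bernoulli 13
  norm_num [Finset.sum_range_succ, Nat.choose, bernoulli_2, bernoulli_3, bernoulli_4,
    bernoulli_5, bernoulli_6, bernoulli_7, bernoulli_8, bernoulli_9, bernoulli_10,
    bernoulli_11] at h
  linarith

theorem bernoulli_14 : bernoulli 14 = 7 / 6 := by
  have h := sum_bernoulli 15
  norm_num [Finset.sum_range_succ, Nat.choose, bernoulli_2, bernoulli_3, bernoulli_4,
    bernoulli_5, bernoulli_6, bernoulli_7, bernoulli_8, bernoulli_9, bernoulli_10,
    bernoulli_11, bernoulli_12, bernoulli_13] at h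
  linarith

end Fermat.Agent.Cor.Tau
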