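import Fermat.Agent.Corollaries.Tau.Defs
import Fermat.Agent.Corollaries.Tau.Bernoulli
import Mathlib.NumberTheory.ModularForms.LevelOne.GradedRing

/-!
# Eisenstein series of level one and weights 4, 6, 8, 10, 12, 14

The spaces of modular forms of level one and weights 8, 10, 14 are one-dimensional, and that of weight 12 is
spanned by `E₄³` and `E₆²`. This file has the identities between the expansions.
-/

set_option autoImplicit false

noncomputable section

open UpperHalfPlane ModularForm ModularFormClass MatrixGroups EisensteinSeries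
open scoped ArithmeticFunction.sigma

namespace Fermat.Agent.Cor.Tau

/-- the coefficients of a product of two power series without constant terms -/
theorem coeff_mul_of_zero {R : Type*} [CommSemiring R] (f g : PowerSeries R) (hf : f.coeff 0 = 0)
    (hg : g.coeff 0 = 0) (n : ℕ) :
    (f * g).coeff n = ∑ m ∈ Finset.Ico 1 n, f.coeff m * g.coeff (n - m) := by
  rw [PowerSeries.coeff_mul, Finset.Nat.sum_antidiagonal_eq_sum_range_succ_mk]
  symm
  refine Finset.sum_subset (fun m hm => ?_) fun m hm hm' => ?_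
  · rw [Finset.mem_Ico] at hm
    rw [Finset.mem_range]
    omega
  · rw [Finset.mem_range] at hm
    rw [Finset.mem_Ico] at hm'
    rcases Nat.eq_zero_or_pos m with rfl | h0
    · simp only [hf, zero_mul]
    · obtain rfl : m = n := by omega
      simp only [Nat.sub_self, hg, mul_zero]

/-- Sturm's bound as a criterion for the equality of two expansions -/
theorem qExpansion_congr {k : ℕ} (f g : ModularForm 𝒮ℒ (k : ℤ))
    (h : ∀ n ≤ k / 12, (qExpansion 1 f).coeff n = (qExpansion 1 g).coeff n) :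
    qExpansion 1 f = qExpansion 1 g := by
  have h1 : f - g = 0 := by
    refine sturm_bound_levelOne_nat ?_
    have h2 : ((k / 12 + 1 : ℕ) : ℕ∞) ≤ (qExpansion 1 ⇑(f - g)).order := by
      refine PowerSeries.nat_le_order _ _ fun n hn => ?_
      rw [FunLike.coe_sub, ModularForm.qExpansion_sub one_pos one_mem_strictPeriods_SL, map_sub,
        h n (by omega), sub_self]
    exact lt_of_lt_of_le (by exact_mod_cast Nat.lt_succ_self _) h2
  rw [sub_eq_zero.mp h1]

/-- the power series `∑ σ_k(n) Xⁿ` -/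
def sig (k : ℕ) : PowerSeries ℂ := PowerSeries.mk fun n => (σ k n : ℂ)

theorem coeff_sig (k n : ℕ) : (sig k).coeff n = (σ k n : ℂ) := PowerSeries.coeff_mk _ _

theorem coeff_sig_zero (k : ℕ) : (sig k).coeff 0 = 0 := by
  rw [coeff_sig, ArithmeticFunction.map_zero, Nat.cast_zero]

theorem coeff_sig_mul (a b n : ℕ) : (sig a * sig b).coeff n =
    ((∑ m ∈ Finset.Ico 1 n, σ a m * σ b (n - m) : ℕ) : ℂ) := by
  rw [coeff_mul_of_zero _ _ (coeff_sig_zero a) (coeff_sig_zero b)]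
  push_cast
  exact Finset.sum_congr rfl fun p _ => by rw [coeff_sig, coeff_sig]

/-- the power series `∑ τ(n) Xⁿ` -/
def tauSer : PowerSeries ℂ := PowerSeries.mk fun n => (tau n : ℂ)

theorem coeff_tauSer (n : ℕ) : tauSer.coeff n = (tau n : ℂ) := PowerSeries.coeff_mk _ _

theorem qExpansion_discriminant : qExpansion 1 CuspForm.discriminant = tauSer := by
  ext n
  rw [coeff_discriminant, coeff_tauSer]

theorem qExpansion_E {k : ℕ} (hk : 3 ≤ k) (hk2 : Even k) (c : ℂ)
    (hc : -(2 * k / bernoulli k : ℂ) = c) :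
    qExpansion 1 (E hk) = 1 + c • sig (k - 1) := by
  ext n
  rw [E_qExpansion_coeff hk hk2, hc, map_add, PowerSeries.coeff_smul, coeff_sig]
  rcases eq_or_ne n 0 with rfl | hn
  · simp
  · rw [if_neg hn, PowerSeries.coeff_one, if_neg hn, zero_add, smul_eq_mul]

theorem qExpansion_E₄ : qExpansion 1 E₄ = 1 + (240 : ℂ) • sig 3 :=
  qExpansion_E _ ⟨2, rfl⟩ _ (by norm_num [bernoulli_4])

theorem qExpansion_E₆ : qExpansion 1 E₆ = 1 + (-504 : ℂ) • sig 5 :=
  qExpansion_E _ ⟨3, rfl⟩ _ (by norm_num [bernoulli_6])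

/-- the Eisenstein series of weight `8`, normalised -/
abbrev E₈ : ModularForm 𝒮ℒ ((8 : ℕ) : ℤ) := E (by norm_num : 3 ≤ 8)
/-- the Eisenstein series of weight `10`, normalised -/
abbrev E₁₀ : ModularForm 𝒮ℒ ((10 : ℕ) : ℤ) := E (by norm_num : 3 ≤ 10)
/-- the Eisenstein series of weight `12`, normalised -/
abbrev E₁₂ : ModularForm 𝒮ℒ ((12 : ℕ) : ℤ) := E (by norm_num : 3 ≤ 12)
/-- the Eisenstein series of weight `14`, normalised -/
abbrev E₁₄ : ModularForm 𝒮ℒ ((14 : ℕ) : ℤ) := E (by norm_num : 3 ≤ 14)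

theorem qExpansion_E₈ : qExpansion 1 E₈ = 1 + (480 : ℂ) • sig 7 :=
  qExpansion_E _ ⟨4, rfl⟩ _ (by norm_num [bernoulli_8])

theorem qExpansion_E₁₀ : qExpansion 1 E₁₀ = 1 + (-264 : ℂ) • sig 9 :=
  qExpansion_E _ ⟨5, rfl⟩ _ (by norm_num [bernoulli_10])

theorem qExpansion_E₁₂ : qExpansion 1 E₁₂ = 1 + (65520 / 691 : ℂ) • sig 11 :=
  qExpansion_E _ ⟨6, rfl⟩ _ (by norm_num [bernoulli_12])

theorem qExpansion_E₁₄ : qExpansion 1 E₁₄ = 1 + (-24 : ℂ) • sig 13 :=
  qExpansion_E _ ⟨7, rfl⟩ _ (by norm_num [bernoulli_14])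

theorem constCoeff_E {k : ℕ} (c : ℂ) : (1 + c • sig k).coeff 0 = 1 := by
  rw [map_add, PowerSeries.coeff_smul, coeff_sig_zero, smul_zero, add_zero,
    PowerSeries.coeff_zero_one]

theorem coeff_one_E {k : ℕ} (c : ℂ) : (1 + c • sig k).coeff 1 = c := by
  rw [map_add, PowerSeries.coeff_smul, coeff_sig, PowerSeries.coeff_one, if_neg one_ne_zero,
    ArithmeticFunction.sigma_one, Nat.cast_one, smul_eq_mul, mul_one, zero_add]

theorem coeff_zero_mul (f g : PowerSeries ℂ) : (f * g).coeff 0 = f.coeff 0 * g.coeff 0 := by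
  rw [PowerSeries.coeff_mul, Finset.Nat.sum_antidiagonal_eq_sum_range_succ_mk,
    Finset.sum_range_succ, Finset.sum_range_zero, zero_add]

theorem coeff_one_mul (f g : PowerSeries ℂ) :
    (f * g).coeff 1 = f.coeff 0 * g.coeff 1 + f.coeff 1 * g.coeff 0 := by
  rw [PowerSeries.coeff_mul, Finset.Nat.sum_antidiagonal_eq_sum_range_succ_mk,
    Finset.sum_range_succ, Finset.sum_range_succ, Finset.sum_range_zero, zero_add]

/-- the product of two forms is a third one, if the first coefficients agree -/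
theorem mul_eq {a b k : ℕ} (hk : (a : ℤ) + b = k) (f : ModularForm 𝒮ℒ (a : ℤ))
    (g : ModularForm 𝒮ℒ (b : ℤ)) (e : ModularForm 𝒮ℒ (k : ℤ))
    (h : ∀ n ≤ k / 12, (qExpansion 1 f * qExpansion 1 g).coeff n = (qExpansion 1 e).coeff n) :
    qExpansion 1 f * qExpansion 1 g = qExpansion 1 e := by
  have h1 : qExpansion 1 (ModularForm.mcast hk (f.mul g)) = qExpansion 1 f * qExpansion 1 g := by
    rw [coe_mcast, ModularForm.qExpansion_mul one_pos one_mem_strictPeriods_SL]
  rw [← h1] at h ⊢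
  exact qExpansion_congr _ _ h

theorem mul_E {a b c : ℕ} {x y z : ℂ} (h : x + y = z) : ∀ n ≤ 1,
    ((1 + x • sig a) * (1 + y • sig b)).coeff n = (1 + z • sig c).coeff n := by
  intro n hn
  interval_cases n
  · rw [coeff_zero_mul, constCoeff_E, constCoeff_E, constCoeff_E, one_mul]
  · rw [coeff_one_mul, constCoeff_E, constCoeff_E, coeff_one_E, coeff_one_E, coeff_one_E, one_mul,
      mul_one, add_comm, h]

theorem smul_ofNat (n : ℕ) [n.AtLeastTwo] (f : PowerSeries ℂ) :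
    (OfNat.ofNat n : ℂ) • f = OfNat.ofNat n * f := by
  rw [PowerSeries.smul_eq_C_mul, map_ofNat]

theorem Q_eq : qExpansion 1 E₄ = 1 + 240 * sig 3 := by rw [qExpansion_E₄, smul_ofNat]

theorem R_eq : qExpansion 1 E₆ = 1 - 504 * sig 5 := by
  rw [qExpansion_E₆, _root_.neg_smul, smul_ofNat, sub_eq_add_neg]

theorem E₈_eq : qExpansion 1 E₈ = 1 + 480 * sig 7 := by rw [qExpansion_E₈, smul_ofNat]

theorem E₁₀_eq : qExpansion 1 E₁₀ = 1 - 264 * sig 9 := by
  rw [qExpansion_E₁₀, _root_.neg_smul, smul_ofNat, sub_eq_add_neg]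

theorem E₁₂_eq : 691 * qExpansion 1 E₁₂ = 691 + 65520 * sig 11 := by
  rw [qExpansion_E₁₂, ← smul_ofNat, ← smul_ofNat, smul_add, smul_smul]
  norm_num
  rw [← map_ofNat (PowerSeries.C (R := ℂ)), ← mul_one (PowerSeries.C (R := ℂ) _),
    ← PowerSeries.smul_eq_C_mul]

theorem E₁₄_eq : qExpansion 1 E₁₄ = 1 - 24 * sig 13 := by
  rw [qExpansion_E₁₄, _root_.neg_smul, smul_ofNat, sub_eq_add_neg]

/-- `E₄² = E₈` -/
theorem E₄_mul_E₄ : qExpansion 1 E₄ * qExpansion 1 E₄ = qExpansion 1 E₈ := by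
  refine mul_eq (a := 4) (b := 4) (k := 8) (by norm_num) E₄ E₄ E₈ fun n hn => ?_
  rw [qExpansion_E₄, qExpansion_E₈]
  exact mul_E (by norm_num) n (by omega)

/-- `E₄ E₆ = E₁₀` -/
theorem E₄_mul_E₆ : qExpansion 1 E₄ * qExpansion 1 E₆ = qExpansion 1 E₁₀ := by
  refine mul_eq (a := 4) (b := 6) (k := 10) (by norm_num) E₄ E₆ E₁₀ fun n hn => ?_
  rw [qExpansion_E₄, qExpansion_E₆, qExpansion_E₁₀]
  exact mul_E (by norm_num) n (by omega)

/-- `E₄ E₁₀ = E₁₄` -/
theorem E₄_mul_E₁₀ : qExpansion 1 E₄ * qExpansion 1 E₁₀ = qExpansion 1 E₁₄ := by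
  refine mul_eq (a := 4) (b := 10) (k := 14) (by norm_num) E₄ E₁₀ E₁₄ fun n hn => ?_
  rw [qExpansion_E₄, qExpansion_E₁₀, qExpansion_E₁₄]
  exact mul_E (by norm_num) n (by omega)

/-- `E₆ E₈ = E₁₄` -/
theorem E₆_mul_E₈ : qExpansion 1 E₆ * qExpansion 1 E₈ = qExpansion 1 E₁₄ := by
  rw [← E₄_mul_E₁₀, ← E₄_mul_E₆, ← E₄_mul_E₄]
  ring

/-- `1728 Δ = E₄³ - E₆²` -/
theorem discriminant_eq : 1728 * tauSer = qExpansion 1 E₄ ^ 3 - qExpansion 1 E₆ ^ 2 := by
  have h1 : ((1728 : ℂ) • ⇑CuspForm.discriminant : ℍ → ℂ) =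
      ⇑(ModularForm.mcast (by decide) (E₄.pow 3) - ModularForm.mcast (by decide) (E₆.pow 2) :
        ModularForm 𝒮ℒ 12) := by
    funext z
    rw [Pi.smul_apply, CuspForm.coe_discriminant, discriminant_eq_E₄_cube_sub_E₆_sq,
      FunLike.coe_sub, coe_mcast, coe_mcast, coe_pow, coe_pow, Pi.sub_apply, Pi.pow_apply,
      Pi.pow_apply, smul_eq_mul]
    ring
  have h2 := congrArg (qExpansion 1) h1
  rwa [ModularForm.qExpansion_smul one_pos one_mem_strictPeriods_SL, qExpansion_discriminant,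
    smul_ofNat, FunLike.coe_sub, ModularForm.qExpansion_sub one_pos one_mem_strictPeriods_SL,
    coe_mcast, coe_mcast, ModularForm.qExpansion_pow one_pos one_mem_strictPeriods_SL,
    ModularForm.qExpansion_pow one_pos one_mem_strictPeriods_SL] at h2

/-- `691 E₁₂ = 441 E₄³ + 250 E₆²` -/
theorem E₁₂_eq_E₄_E₆ :
    691 * qExpansion 1 E₁₂ = 441 * qExpansion 1 E₄ ^ 3 + 250 * qExpansion 1 E₆ ^ 2 := by
  have h0 : ((691 : ℂ) • ⇑E₁₂ : ℍ → ℂ) = ⇑((691 : ℂ) • E₁₂) := rfl
  set G : ModularForm 𝒮ℒ ((12 : ℕ) : ℤ) :=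
    (441 : ℂ) • ModularForm.mcast (by decide) (E₄.pow 3) +
      (250 : ℂ) • ModularForm.mcast (by decide) (E₆.pow 2) with hG
  have h1 : qExpansion 1 G = 441 * qExpansion 1 E₄ ^ 3 + 250 * qExpansion 1 E₆ ^ 2 := by
    rw [hG, FunLike.coe_add, ModularForm.qExpansion_add one_pos one_mem_strictPeriods_SL,
      FunLike.coe_smul, FunLike.coe_smul,
      ModularForm.qExpansion_smul one_pos one_mem_strictPeriods_SL,
      ModularForm.qExpansion_smul one_pos one_mem_strictPeriods_SL, coe_mcast, coe_mcast,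
      ModularForm.qExpansion_pow one_pos one_mem_strictPeriods_SL,
      ModularForm.qExpansion_pow one_pos one_mem_strictPeriods_SL, smul_ofNat, smul_ofNat]
  have h2 : qExpansion 1 ⇑((691 : ℂ) • E₁₂) = 691 * qExpansion 1 E₁₂ := by
    rw [FunLike.coe_smul, ModularForm.qExpansion_smul one_pos one_mem_strictPeriods_SL, smul_ofNat]
  rw [← h1, ← h2]
  refine qExpansion_congr _ _ fun n hn => ?_
  rw [h1, h2, E₁₂_eq, pow_succ, pow_two, pow_two, E₄_mul_E₄]
  have hn : n ≤ 1 := by omega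
  rw [qExpansion_E₄, qExpansion_E₈, qExpansion_E₆, ← smul_ofNat, ← smul_ofNat, ← smul_ofNat]
  have h691 : (691 : PowerSeries ℂ) = PowerSeries.C (R := ℂ) 691 := (map_ofNat _ _).symm
  rw [h691, map_add, map_add, PowerSeries.coeff_smul, PowerSeries.coeff_smul, PowerSeries.coeff_smul]
  interval_cases n
  · rw [coeff_zero_mul, coeff_zero_mul, constCoeff_E, constCoeff_E, constCoeff_E, coeff_sig_zero,
      PowerSeries.coeff_C, if_pos rfl]
    norm_num
  · rw [coeff_one_mul, coeff_one_mul, constCoeff_E, constCoeff_E, constCoeff_E, coeff_one_E,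
      coeff_one_E, coeff_one_E, coeff_sig, PowerSeries.coeff_C, if_neg one_ne_zero,
      ArithmeticFunction.sigma_one]
    norm_num

end Fermat.Agent.Cor.Tau
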