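import Fermat.Agent.Corollaries.Tau.LSeries
import Fermat.Agent.Corollaries.Tau.Eisen

/-!
# The Eisenstein congruences in the weights 12, 16, 18, 20, 22, 26

For these weights `k` the normalised cusp form `∑ a(n) qⁿ` of level one has integral coefficients and
`a(n) ≡ σ_{k-1}(n)` modulo the numerator of `B_k / 2k`.
-/

set_option autoImplicit false

noncomputable section

open UpperHalfPlane ModularForm ModularFormClass MatrixGroups EisensteinSeries
open scoped ArithmeticFunction.sigma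

namespace Fermat.Agent.Cor.Tau

/-! ### The Bernoulli numbers up to `B₂₆` -/

theorem bernoulli_15 : bernoulli 15 = 0 := bernoulli_eq_zero_of_odd (by decide) (by decide)
theorem bernoulli_17 : bernoulli 17 = 0 := bernoulli_eq_zero_of_odd (by decide) (by decide)
theorem bernoulli_19 : bernoulli 19 = 0 := bernoulli_eq_zero_of_odd (by decide) (by decide)
theorem bernoulli_21 : bernoulli 21 = 0 := bernoulli_eq_zero_of_odd (by decide) (by decide)
theorem bernoulli_23 : bernoulli 23 = 0 := bernoulli_eq_zero_of_odd (by decide) (by decide)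
theorem bernoulli_25 : bernoulli 25 = 0 := bernoulli_eq_zero_of_odd (by decide) (by decide)

theorem bernoulli_16 : bernoulli 16 = -3617 / 510 := by
  have h := sum_bernoulli 17
  norm_num [Finset.sum_range_succ, Nat.choose, bernoulli_2, bernoulli_3, bernoulli_4,
    bernoulli_5, bernoulli_6, bernoulli_7, bernoulli_8, bernoulli_9, bernoulli_10,
    bernoulli_11, bernoulli_12, bernoulli_13, bernoulli_14, bernoulli_15] at h
  linarith

theorem bernoulli_18 : bernoulli 18 = 43867 / 798 := by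
  have h := sum_bernoulli 19
  norm_num [Finset.sum_range_succ, Nat.choose, bernoulli_2, bernoulli_3, bernoulli_4,
    bernoulli_5, bernoulli_6, bernoulli_7, bernoulli_8, bernoulli_9, bernoulli_10,
    bernoulli_11, bernoulli_12, bernoulli_13, bernoulli_14, bernoulli_15, bernoulli_16,
    bernoulli_17] at h
  linarith

theorem bernoulli_20 : bernoulli 20 = -174611 / 330 := by
  have h := sum_bernoulli 21
  norm_num [Finset.sum_range_succ, Nat.choose, bernoulli_2, bernoulli_3, bernoulli_4,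
    bernoulli_5, bernoulli_6, bernoulli_7, bernoulli_8, bernoulli_9, bernoulli_10,
    bernoulli_11, bernoulli_12, bernoulli_13, bernoulli_14, bernoulli_15, bernoulli_16,
    bernoulli_17, bernoulli_18, bernoulli_19] at h
  linarith

theorem bernoulli_22 : bernoulli 22 = 854513 / 138 := by
  have h := sum_bernoulli 23
  norm_num [Finset.sum_range_succ, Nat.choose, bernoulli_2, bernoulli_3, bernoulli_4,
    bernoulli_5, bernoulli_6, bernoulli_7, bernoulli_8, bernoulli_9, bernoulli_10,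
    bernoulli_11, bernoulli_12, bernoulli_13, bernoulli_14, bernoulli_15, bernoulli_16,
    bernoulli_17, bernoulli_18, bernoulli_19, bernoulli_20, bernoulli_21] at h
  linarith

theorem bernoulli_24 : bernoulli 24 = -236364091 / 2730 := by
  have h := sum_bernoulli 25
  norm_num [Finset.sum_range_succ, Nat.choose, bernoulli_2, bernoulli_3, bernoulli_4,
    bernoulli_5, bernoulli_6, bernoulli_7, bernoulli_8, bernoulli_9, bernoulli_10,
    bernoulli_11, bernoulli_12, bernoulli_13, bernoulli_14, bernoulli_15, bernoulli_16,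
    bernoulli_17, bernoulli_18, bernoulli_19, bernoulli_20, bernoulli_21, bernoulli_22,
    bernoulli_23] at h
  linarith

theorem bernoulli_26 : bernoulli 26 = 8553103 / 6 := by
  have h := sum_bernoulli 27
  norm_num [Finset.sum_range_succ, Nat.choose, bernoulli_2, bernoulli_3, bernoulli_4,
    bernoulli_5, bernoulli_6, bernoulli_7, bernoulli_8, bernoulli_9, bernoulli_10,
    bernoulli_11, bernoulli_12, bernoulli_13, bernoulli_14, bernoulli_15, bernoulli_16,
    bernoulli_17, bernoulli_18, bernoulli_19, bernoulli_20, bernoulli_21, bernoulli_22,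
    bernoulli_23, bernoulli_24, bernoulli_25] at h
  linarith

/-! ### Integral forms -/

/-- `P` is the expansion of a modular form of level one and weight `k`. -/
def IsExp (k : ℤ) (P : PowerSeries ℂ) : Prop :=
  ∃ g : ModularForm 𝒮ℒ k, qExpansion 1 (⇑g : ℍ → ℂ) = P

theorem IsExp.mul {k l : ℤ} {P Q : PowerSeries ℂ} (hP : IsExp k P) (hQ : IsExp l Q) :
    IsExp (k + l) (P * Q) := by
  obtain ⟨f, rfl⟩ := hP
  obtain ⟨g, rfl⟩ := hQ
  exact ⟨f.mul g, ModularForm.qExpansion_mul one_pos one_mem_strictPeriods_SL f g⟩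

theorem isExp_one : IsExp 0 1 := ⟨1, ModularForm.qExpansion_one⟩

theorem IsExp.pow {k : ℤ} {P : PowerSeries ℂ} (hP : IsExp k P) (n : ℕ) :
    IsExp (n * k) (P ^ n) := by
  induction n with
  | zero => simpa using isExp_one
  | succ n ih =>
    rw [pow_succ]
    have h := ih.mul hP
    rwa [show (n : ℤ) * k + k = ((n + 1 : ℕ) : ℤ) * k by push_cast; ring] at h

/-- the expansion of `E₄` -/
def qFour : PowerSeries ℤ := PowerSeries.mk fun n => if n = 0 then 1 else 240 * (σ 3 n : ℤ)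

/-- the expansion of `E₆` -/
def qSix : PowerSeries ℤ := PowerSeries.mk fun n => if n = 0 then 1 else -504 * (σ 5 n : ℤ)

/-- the expansion of `Δ` -/
def qDelta : PowerSeries ℤ := PowerSeries.mk tau

theorem map_qFour : qFour.map (Int.castRingHom ℂ) = qExpansion 1 E₄ := by
  rw [qExpansion_E₄, qFour]
  ext n
  rw [PowerSeries.coeff_map, PowerSeries.coeff_mk, map_add, PowerSeries.coeff_smul, coeff_sig,
    PowerSeries.coeff_one]
  rcases eq_or_ne n 0 with rfl | hn
  · simp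
  · rw [if_neg hn, if_neg hn]
    simp

theorem map_qSix : qSix.map (Int.castRingHom ℂ) = qExpansion 1 E₆ := by
  rw [qExpansion_E₆, qSix]
  ext n
  rw [PowerSeries.coeff_map, PowerSeries.coeff_mk, map_add, PowerSeries.coeff_smul, coeff_sig,
    PowerSeries.coeff_one]
  rcases eq_or_ne n 0 with rfl | hn
  · simp
  · rw [if_neg hn, if_neg hn]
    simp

theorem map_qDelta : qDelta.map (Int.castRingHom ℂ) = qExpansion 1 CuspForm.discriminant := by
  rw [qExpansion_discriminant, qDelta]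
  ext n
  simp [tauSer]

theorem isExp_qFour_qSix (a b : ℕ) :
    IsExp (4 * a + 6 * b) ((qFour ^ a * qSix ^ b).map (Int.castRingHom ℂ)) := by
  have h4 : IsExp 4 (qFour.map (Int.castRingHom ℂ)) := ⟨E₄, map_qFour.symm⟩
  have h6 : IsExp 6 (qSix.map (Int.castRingHom ℂ)) := ⟨E₆, map_qSix.symm⟩
  rw [map_mul, map_pow, map_pow, mul_comm (4 : ℤ), mul_comm (6 : ℤ)]
  exact (h4.pow a).mul (h6.pow b)

/-- the expansion of `Δ E₄ ^ a E₆ ^ b` -/
def cuspSer (a b : ℕ) : PowerSeries ℤ := qDelta * (qFour ^ a * qSix ^ b)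

theorem constCoeff_qq (a b : ℕ) : (qFour ^ a * qSix ^ b).coeff 0 = 1 := by
  have h4 : PowerSeries.constantCoeff qFour = 1 := by
    rw [← PowerSeries.coeff_zero_eq_constantCoeff_apply, qFour, PowerSeries.coeff_mk, if_pos rfl]
  have h6 : PowerSeries.constantCoeff qSix = 1 := by
    rw [← PowerSeries.coeff_zero_eq_constantCoeff_apply, qSix, PowerSeries.coeff_mk, if_pos rfl]
  rw [PowerSeries.coeff_zero_eq_constantCoeff_apply, map_mul, map_pow, map_pow, h4, h6, one_pow,
    one_pow, one_mul]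

theorem exists_cuspSer (a b : ℕ) {k : ℤ} (hk : k = 12 + (4 * a + 6 * b)) :
    ∃ f : CuspForm 𝒮ℒ k,
      qExpansion 1 (⇑f : ℍ → ℂ) = (cuspSer a b).map (Int.castRingHom ℂ) := by
  subst hk
  obtain ⟨g, hg⟩ := isExp_qFour_qSix a b
  refine ⟨CuspForm.discriminant.mulModularForm g, ?_⟩
  rw [cuspSer, map_mul, ← hg, map_qDelta]
  exact ModularForm.qExpansion_mul_coe one_pos one_mem_strictPeriods_SL CuspForm.discriminant g

theorem coeff_zero_cuspSer (a b : ℕ) : (cuspSer a b).coeff 0 = 0 := by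
  rw [cuspSer, PowerSeries.coeff_zero_eq_constantCoeff_apply, map_mul,
    ← PowerSeries.coeff_zero_eq_constantCoeff_apply, qDelta, PowerSeries.coeff_mk, tau_zero,
    zero_mul]

theorem coeff_one_cuspSer (a b : ℕ) : (cuspSer a b).coeff 1 = 1 := by
  rw [cuspSer, PowerSeries.coeff_mul, Finset.Nat.sum_antidiagonal_eq_sum_range_succ_mk,
    Finset.sum_range_succ, Finset.sum_range_one, Nat.sub_self, constCoeff_qq, qDelta,
    PowerSeries.coeff_mk, PowerSeries.coeff_mk, tau_zero, tau_one, zero_mul, zero_add, one_mul]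

/-! ### The congruence -/

/-- the congruence in every weight where the space of cusp forms has dimension one -/
theorem eis_congr {k a b : ℕ} {M N : ℤ} (hk : (k : ℤ) ∈ ({12, 16, 18, 20, 22, 26} : Set ℤ))
    (hab : k = 12 + (4 * a + 6 * b)) (hB : -(2 * k / bernoulli k : ℂ) = M / N) (hN : N ≠ 0)
    (hMN : IsCoprime N M) (n : ℕ) :
    (cuspSer a b).coeff n ≡ (σ (k - 1) n : ℤ) [ZMOD N] := by
  have hk3 : 3 ≤ k := by omega
  have hke : Even k := ⟨6 + 2 * a + 3 * b, by omega⟩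
  obtain ⟨f, hf⟩ := exists_cuspSer a b (k := (k : ℤ)) (by rw [hab]; push_cast; ring)
  obtain ⟨g, hg⟩ : IsExp (k : ℤ) ((qFour ^ (a + 3) * qSix ^ b).map (Int.castRingHom ℂ)) := by
    have h := isExp_qFour_qSix (a + 3) b
    rwa [show (4 * ((a + 3 : ℕ) : ℤ) + 6 * (b : ℤ)) = (k : ℤ) by rw [hab]; push_cast; ring] at h
  have hfc : ∀ m, (qExpansion 1 (⇑f : ℍ → ℂ)).coeff m = (((cuspSer a b).coeff m : ℤ) : ℂ) := by
    intro m
    rw [hf, PowerSeries.coeff_map]
    rfl
  have hgc : ∀ m, (qExpansion 1 (⇑g : ℍ → ℂ)).coeff m =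
      (((qFour ^ (a + 3) * qSix ^ b).coeff m : ℤ) : ℂ) := by
    intro m
    rw [hg, PowerSeries.coeff_map]
    rfl
  have hf0 : f ≠ 0 := by
    intro h0
    have h1 := hfc 1
    rw [coeff_one_cuspSer, h0] at h1
    have h2 : (qExpansion 1 (⇑(0 : CuspForm 𝒮ℒ (k : ℤ)) : ℍ → ℂ)).coeff 1 = 0 := by
      have h3 : (⇑(0 : CuspForm 𝒮ℒ (k : ℤ)) : ℍ → ℂ) = 0 := rfl
      rw [h3, UpperHalfPlane.qExpansion_zero, map_zero]
    rw [h2] at h1
    norm_num at h1
  have hs : ∀ g : CuspForm 𝒮ℒ (k : ℤ), ∃ c : ℂ, c • f = g :=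
    (finrank_eq_one_iff_of_nonzero' f hf0).mp
      (Module.rank_eq_one_iff_finrank_eq_one.mp ((rank_cuspForm_eq_one_iff k).mpr hk))
  have hE : ∀ m, (qExpansion 1 (⇑(E hk3 - g) : ℍ → ℂ)).coeff m =
      (qExpansion 1 (⇑(E hk3) : ℍ → ℂ)).coeff m - (qExpansion 1 (⇑g : ℍ → ℂ)).coeff m := by
    intro m
    rw [FunLike.coe_sub, ModularForm.qExpansion_sub one_pos one_mem_strictPeriods_SL, map_sub]
  have h0 : (qExpansion 1 (⇑(E hk3 - g) : ℍ → ℂ)).coeff 0 = 0 := by
    rw [hE, hgc, constCoeff_qq, E_qExpansion_coeff hk3 hke, if_pos rfl, Int.cast_one, sub_self]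
  obtain ⟨c, hc⟩ := hs (toCuspForm (E hk3 - g) h0)
  have key : ∀ m, c * (((cuspSer a b).coeff m : ℤ) : ℂ) =
      (qExpansion 1 (⇑(E hk3) : ℍ → ℂ)).coeff m -
        (((qFour ^ (a + 3) * qSix ^ b).coeff m : ℤ) : ℂ) := by
    intro m
    rw [← hgc, ← hE, ← hfc]
    have h1 : (⇑(E hk3 - g) : ℍ → ℂ) = ⇑(c • f) := by rw [hc]; rfl
    rw [h1, FunLike.coe_smul, ModularForm.qExpansion_smul one_pos one_mem_strictPeriods_SL c f]
    simp
  have hN' : (N : ℂ) ≠ 0 := Int.cast_ne_zero.mpr hN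
  have hEm : ∀ m, m ≠ 0 → (qExpansion 1 (⇑(E hk3) : ℍ → ℂ)).coeff m =
      (M : ℂ) / N * (σ (k - 1) m : ℂ) := by
    intro m hm
    rw [E_qExpansion_coeff hk3 hke, if_neg hm, hB]
  set G : ℕ → ℤ := fun m => (qFour ^ (a + 3) * qSix ^ b).coeff m with hG
  have hc1 : (N : ℂ) * c = M - N * G 1 := by
    have h1 := key 1
    rw [coeff_one_cuspSer, hEm 1 one_ne_zero, ArithmeticFunction.sigma_one] at h1
    rw [show c = c * ((1 : ℤ) : ℂ) by rw [Int.cast_one, mul_one], h1]
    simp only [hG]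
    field_simp
    push_cast
    ring
  rcases eq_or_ne n 0 with rfl | hn
  · rw [coeff_zero_cuspSer, ArithmeticFunction.map_zero, Nat.cast_zero]
  have h2 : (M - N * G 1) * (cuspSer a b).coeff n = M * (σ (k - 1) n : ℤ) - N * G n := by
    have h3 := key n
    rw [hEm n hn] at h3
    have h4 : (N : ℂ) * c * (((cuspSer a b).coeff n : ℤ) : ℂ) =
        M * (σ (k - 1) n : ℂ) - N * (G n : ℂ) := by
      rw [mul_assoc, h3]
      simp only [hG]
      field_simp
    rw [hc1] at h4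
    exact_mod_cast h4
  have h5 : N ∣ M * ((σ (k - 1) n : ℤ) - (cuspSer a b).coeff n) :=
    ⟨G n - G 1 * (cuspSer a b).coeff n, by linear_combination -h2⟩
  exact (Int.modEq_iff_dvd).mpr (hMN.dvd_of_dvd_mul_left h5)

/-- a normalised cusp form in a space of dimension one is `Δ E₄ ^ a E₆ ^ b` -/
theorem coeff_eq_cuspSer {k a b : ℕ} (hk : (k : ℤ) ∈ ({12, 16, 18, 20, 22, 26} : Set ℤ))
    (hab : k = 12 + (4 * a + 6 * b)) (f : CuspForm 𝒮ℒ (k : ℤ))
    (hf : (qExpansion 1 (⇑f : ℍ → ℂ)).coeff 1 = 1) (n : ℕ) :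
    (qExpansion 1 (⇑f : ℍ → ℂ)).coeff n = (((cuspSer a b).coeff n : ℤ) : ℂ) := by
  obtain ⟨g, hg⟩ := exists_cuspSer a b (k := (k : ℤ)) (by rw [hab]; push_cast; ring)
  have hf0 : f ≠ 0 := by
    rintro rfl
    have h3 : (⇑(0 : CuspForm 𝒮ℒ (k : ℤ)) : ℍ → ℂ) = 0 := rfl
    rw [h3, UpperHalfPlane.qExpansion_zero, map_zero] at hf
    exact zero_ne_one hf
  have hs : ∀ g : CuspForm 𝒮ℒ (k : ℤ), ∃ c : ℂ, c • f = g :=
    (finrank_eq_one_iff_of_nonzero' f hf0).mp
      (Module.rank_eq_one_iff_finrank_eq_one.mp ((rank_cuspForm_eq_one_iff k).mpr hk))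
  obtain ⟨c, hc⟩ := hs g
  have hcg : ∀ m, (qExpansion 1 (⇑g : ℍ → ℂ)).coeff m =
      c * (qExpansion 1 (⇑f : ℍ → ℂ)).coeff m := by
    intro m
    rw [← hc, FunLike.coe_smul, ModularForm.qExpansion_smul one_pos one_mem_strictPeriods_SL c f]
    simp
  have hgc : ∀ m, (qExpansion 1 (⇑g : ℍ → ℂ)).coeff m = (((cuspSer a b).coeff m : ℤ) : ℂ) := by
    intro m
    rw [hg, PowerSeries.coeff_map]
    rfl
  have hc1 : c = 1 := by
    have h1 := hcg 1
    rw [hgc, coeff_one_cuspSer, hf, mul_one, Int.cast_one] at h1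
    exact h1.symm
  rw [← hgc, hcg, hc1, one_mul]

/-- the relations between the integral coefficients -/
theorem heckeRel_cuspSer {k a b : ℕ} (hk : (k : ℤ) ∈ ({12, 16, 18, 20, 22, 26} : Set ℤ))
    (hab : k = 12 + (4 * a + 6 * b)) :
    HeckeRel (fun n => (cuspSer a b).coeff n) (powHom ℤ (k - 1)) := by
  obtain ⟨f, hf, -⟩ := mordell hk
  have hc := coeff_eq_cuspSer hk hab f hf.one
  refine ⟨coeff_one_cuspSer a b, fun p hp n => ?_⟩
  have h1 := hf.mul_add p hp n
  simp only [hc, powHom_apply] at h1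
  rw [powHom_apply]
  split_ifs at h1 ⊢ with hd
  · exact_mod_cast h1
  · rw [add_zero] at h1 ⊢
    exact_mod_cast h1

/-- **The Eisenstein congruences.** Let `k ∈ {12, 16, 18, 20, 22, 26}` and `N` the numerator of `B_k / 2k`
(`691`, `3617`, `43867`, `174611 = 283 · 617`, `77683 = 131 · 593`, `657931`). The coefficients `a(n)` of the
normalised cusp form of level one and weight `k` are integers, they satisfy all relations of Hecke and
Mordell, `|a(n)| ≤ n ^ (k / 2 - 1) σ₁(n)`, and `a(n) ≡ σ_{k-1}(n)` modulo `N` for all `n`. -/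
theorem eisenstein_congruence {k : ℕ} {N : ℤ}
    (h : (k, N) ∈ ({(12, 691), (16, 3617), (18, 43867), (20, 174611), (22, 77683),
      (26, 657931)} : Set (ℕ × ℤ)))
    (f : CuspForm 𝒮ℒ (k : ℤ)) (hf : (qExpansion 1 (⇑f : ℍ → ℂ)).coeff 1 = 1) :
    ∃ a : ℕ → ℤ, (∀ n, (qExpansion 1 (⇑f : ℍ → ℂ)).coeff n = a n) ∧
      HeckeRel a (powHom ℤ (k - 1)) ∧
      (∀ n, |a n| ≤ (n : ℤ) ^ (k / 2 - 1) * ∑ d ∈ n.divisors, (d : ℤ)) ∧
      ∀ n, a n ≡ (σ (k - 1) n : ℤ) [ZMOD N] := by
  have hk : (k : ℤ) ∈ ({12, 16, 18, 20, 22, 26} : Set ℤ) := by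
    simp only [Set.mem_insert_iff, Set.mem_singleton_iff, Prod.mk.injEq] at h ⊢
    omega
  have main : ∀ a b : ℕ, k = 12 + (4 * a + 6 * b) → (∀ n, (cuspSer a b).coeff n ≡
      (σ (k - 1) n : ℤ) [ZMOD N]) → ∃ a : ℕ → ℤ, (∀ n, (qExpansion 1 (⇑f : ℍ → ℂ)).coeff n = a n) ∧
      HeckeRel a (powHom ℤ (k - 1)) ∧
      (∀ n, |a n| ≤ (n : ℤ) ^ (k / 2 - 1) * ∑ d ∈ n.divisors, (d : ℤ)) ∧
      ∀ n, a n ≡ (σ (k - 1) n : ℤ) [ZMOD N] := by
    intro a b hab hcong
    have hc := coeff_eq_cuspSer hk hab f hf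
    refine ⟨fun n => (cuspSer a b).coeff n, hc, heckeRel_cuspSer hk hab, fun n => ?_, hcong⟩
    rcases eq_or_ne n 0 with rfl | hn
    · simp [coeff_zero_cuspSer]
    obtain ⟨h, hh⟩ : ∃ h, k = 2 * (h + 1) := ⟨5 + 2 * a + 3 * b, by omega⟩
    have hO : (fun n => (qExpansion 1 (⇑f : ℍ → ℂ)).coeff n) =O[Filter.atTop]
        fun n : ℕ => (n : ℝ) ^ (h + 1) := by
      refine (coeff_isBigO f).congr_right fun n => ?_
      rw [← Real.rpow_natCast]
      congr 1
      rw [hh]
      push_cast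
      ring
    have hH : HeckeRel (fun n => (qExpansion 1 (⇑f : ℍ → ℂ)).coeff n) (powHom ℂ (2 * h + 1)) := by
      obtain ⟨g, hg, hu⟩ := mordell hk
      have h2 := coeff_eq_cuspSer hk hab g hg.one
      have h3 : (fun n => (qExpansion 1 (⇑f : ℍ → ℂ)).coeff n) =
          fun n => (qExpansion 1 (⇑g : ℍ → ℂ)).coeff n := funext fun n => (hc n).trans (h2 n).symm
      rw [h3, show 2 * h + 1 = k - 1 by omega]
      exact hg
    have h1 := hH.norm_le hO hn
    have e : ∑ d ∈ n.divisors, (d : ℝ) = ((∑ d ∈ n.divisors, (d : ℤ) : ℤ) : ℝ) := by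
      push_cast
      rfl
    rw [hc n, Complex.norm_intCast, e, ← Int.cast_abs, show h = k / 2 - 1 by omega] at h1
    exact_mod_cast h1
  simp only [Set.mem_insert_iff, Set.mem_singleton_iff, Prod.mk.injEq] at h
  rcases h with ⟨rfl, rfl⟩ | ⟨rfl, rfl⟩ | ⟨rfl, rfl⟩ | ⟨rfl, rfl⟩ | ⟨rfl, rfl⟩ | ⟨rfl, rfl⟩
  · exact main 0 0 rfl (eis_congr (M := 65520) hk rfl (by norm_num [bernoulli_12]) (by norm_num)
      (by norm_num))
  · exact main 1 0 rfl (eis_congr (M := 16320) hk rfl (by norm_num [bernoulli_16]) (by norm_num)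
      (by norm_num))
  · exact main 0 1 rfl (eis_congr (M := -28728) hk rfl (by norm_num [bernoulli_18]) (by norm_num)
      (by norm_num))
  · exact main 2 0 rfl (eis_congr (M := 13200) hk rfl (by norm_num [bernoulli_20]) (by norm_num)
      (by norm_num))
  · exact main 1 1 rfl (eis_congr (M := -552) hk rfl (by norm_num [bernoulli_22]) (by norm_num)
      (by norm_num))
  · exact main 2 1 rfl (eis_congr (M := -24) hk rfl (by norm_num [bernoulli_26]) (by norm_num)
      (by norm_num))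

/-- The numerators of `B_k / 2k`. -/
theorem num_bernoulli_div :
    (bernoulli 12 / 24).num = -691 ∧ (bernoulli 16 / 32).num = -3617 ∧
    (bernoulli 18 / 36).num = 43867 ∧ (bernoulli 20 / 40).num = -174611 ∧
    (bernoulli 22 / 44).num = 77683 ∧ (bernoulli 26 / 52).num = 657931 := by
  rw [bernoulli_12, bernoulli_16, bernoulli_18, bernoulli_20, bernoulli_22, bernoulli_26]
  norm_num

end Fermat.Agent.Cor.Tau
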