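import Fermat.Agent.Corollaries.Eta.Coeff

/-!
# Ramanujan's function `τ(n)`

`tau n` is the coefficient of `q ^ n` in `q ∏ (1 - q ^ m) ^ 24`; it is the `n`-th Fourier coefficient of
the discriminant form `Δ`.
-/

set_option autoImplicit false

noncomputable section

open UpperHalfPlane hiding I
open Complex hiding eta
open ModularForm CongruenceSubgroup Matrix.SpecialLinearGroup Asymptotics Filter
open scoped Real MatrixGroups Topology Manifold

namespace Fermat.Agent.Cor.Tau

open Fermat.Agent.Cor.Eta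

local notation "𝕢" => Function.Periodic.qParam

/-- **Ramanujan's function**: the coefficient of `q ^ n` in `q ∏_{m ≥ 1} (1 - q ^ m) ^ 24` (the factors with
`m ≤ n` suffice). -/
def tau (n : ℕ) : ℤ :=
  (Polynomial.X * (∏ m ∈ Finset.range n, (1 - Polynomial.X ^ (m + 1))) ^ 24 :
    Polynomial ℤ).coeff n

theorem etaPoly_one (M : ℕ) : etaPoly 1 24 M =
    Polynomial.X * (∏ m ∈ Finset.range M, (1 - Polynomial.X ^ (m + 1))) ^ 24 := by
  rw [etaPoly, Nat.divisors_one, Finset.prod_singleton]
  simp only [one_mul]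

theorem etaProd_one (τ : ℍ) : etaProd 1 24 τ = discriminant τ := by
  rw [etaProd, discriminant]
  have h1 := Finset.prod_coe_sort (1 : ℕ).divisors (fun d : ℕ => eta ((d : ℂ) * τ) ^ 24)
  rw [h1, Nat.divisors_one, Finset.prod_singleton, Nat.cast_one, one_mul]

/-- the coefficients of the discriminant form are those of the truncated product -/
theorem coeff_discriminant_aux (M : ℕ) :
    ∀ n ≤ M + 1, (qExpansion 1 CuspForm.discriminant).coeff n =
      ((etaPoly 1 24 M).coeff n : ℂ) := by
  have h24 : 24 * ∑ d ∈ (1 : ℕ).divisors, d = 24 := by decide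
  set P := etaPoly 1 24 M with hP
  set b : ℕ → ℂ := fun n =>
    (qExpansion 1 CuspForm.discriminant).coeff n - (P.coeff n : ℂ) with hb
  set F : ℂ → ℂ := fun q => Polynomial.aeval q P * (tailProd 1 24 M q - 1) with hF
  have hPsum : ∀ q : ℂ, HasSum (fun n => (P.coeff n : ℂ) * q ^ n) (Polynomial.aeval q P) := by
    intro q
    have h1 : Polynomial.aeval q P = ∑ n ∈ Finset.range (P.natDegree + 1),
        (P.coeff n : ℂ) * q ^ n := by
      rw [Polynomial.aeval_eq_sum_range]
      exact Finset.sum_congr rfl fun n _ => by rw [zsmul_eq_mul]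
    have h2 : HasSum (fun n => (P.coeff n : ℂ) * q ^ n)
        (∑ n ∈ Finset.range (P.natDegree + 1), (P.coeff n : ℂ) * q ^ n) := by
      refine hasSum_sum_of_ne_finset_zero fun n hn => ?_
      rw [Finset.mem_range, not_lt] at hn
      rw [Polynomial.coeff_eq_zero_of_natDegree_lt (by omega), Int.cast_zero, zero_mul]
    rw [h1]
    exact h2
  have hs : ∀ q : ℂ, q ≠ 0 → ‖q‖ < 1 → HasSum (fun n => b n * q ^ n) (F q) := by
    intro q hq0 hq1
    let τ : ℍ := ⟨Function.Periodic.invQParam 1 q,
      Function.Periodic.im_invQParam_pos_of_norm_lt_one one_pos hq1 hq0⟩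
    have hτ : 𝕢 1 (τ : ℂ) = q := Function.Periodic.qParam_right_inv one_ne_zero hq0
    have h1 := ModularForm.hasSum_qExpansion CuspForm.discriminant one_pos
      one_mem_strictPeriods_SL τ
    have h0 : CuspForm.discriminant τ = etaProd 1 24 τ := (etaProd_one τ).symm
    rw [hτ, h0, etaProd_eq_aeval h24 M, hτ] at h1
    have h2 := h1.sub (hPsum q)
    have h3 : Polynomial.aeval q (etaPoly 1 24 M) * tailProd 1 24 M q -
        Polynomial.aeval q P = F q := by
      rw [hF, hP]; ring
    rw [h3] at h2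
    refine h2.congr_fun fun n => ?_
    rw [hb]
    ring
  have hO : F =O[𝓝[≠] 0] fun q => q ^ (M + 2) := by
    have h1 : (fun q : ℂ => Polynomial.aeval q P) =O[𝓝 0] fun q => q := by
      have h2 : ∀ q : ℂ, Polynomial.aeval q P =
          (∏ d : (1 : ℕ).divisors,
            (∏ n ∈ Finset.range M, (1 - (q ^ (d : ℕ)) ^ (n + 1))) ^ 24) * q := by
        intro q
        rw [hP, aeval_etaPoly]; ring
      simp_rw [h2]
      have h3 : (fun q : ℂ => ∏ d : (1 : ℕ).divisors,
          (∏ n ∈ Finset.range M, (1 - (q ^ (d : ℕ)) ^ (n + 1))) ^ 24) =O[𝓝 0]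
          fun _ => (1 : ℂ) := by
        have h4 : Continuous (fun q : ℂ => ∏ d : (1 : ℕ).divisors,
            (∏ n ∈ Finset.range M, (1 - (q ^ (d : ℕ)) ^ (n + 1))) ^ 24) := by
          fun_prop
        exact (h4.tendsto 0).isBigO_one ℂ
      simpa using h3.mul (isBigO_refl (fun q : ℂ => q) (𝓝 0))
    have h2 := (h1.mul (tailProd_isBigO 1 24 M)).mono (nhdsWithin_le_nhds (s := {0}ᶜ))
    refine h2.congr_right fun q => ?_
    ring
  have key := coeff_eq_zero_of_isBigO (M + 2) one_pos hs hO
  intro n hn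
  exact sub_eq_zero.mp (key n (by omega))

/-- **`Δ = ∑ τ(n) qⁿ`.** -/
theorem coeff_discriminant (n : ℕ) :
    (qExpansion 1 CuspForm.discriminant).coeff n = (tau n : ℂ) := by
  rw [coeff_discriminant_aux n n (Nat.le_succ n), etaPoly_one, tau]

theorem tau_zero : tau 0 = 0 := by
  rw [tau]
  simp

theorem tau_one : tau 1 = 1 := by
  have h := coeff_discriminant 1
  rw [CuspForm.coe_discriminant, discriminant_qExpansion_coeff_one] at h
  exact_mod_cast h.symm

end Fermat.Agent.Cor.Tau
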