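import Fermat.Agent.HeckeEigen.Forms
import Fermat.Agent.Corollaries.Tau.Defs
import Mathlib.NumberTheory.ModularForms.LevelOne.DimensionFormula

/-!
# Mordell's theorem: Ramanujan's function is multiplicative

The relations between the coefficients of the normalised eigenforms of level one, in the cases where the
space of cusp forms is one-dimensional, in particular for `Δ = ∑ τ(n) qⁿ`:
`τ(m) τ(n) = ∑_{d ∣ (m, n)} d ^ 11 τ(m n / d ^ 2)`.
-/

set_option autoImplicit false

noncomputable section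

open UpperHalfPlane ModularForm CongruenceSubgroup
open scoped MatrixGroups

namespace Fermat.Agent.Cor.Tau

/-! ### The relations -/

section Abstract

variable {R : Type*} [CommRing R] {a : ℕ → R} {ψ : ℕ →* R}

/-- The relations between the coefficients of a normalised eigenform of level one and weight `k`
(with `ψ p = p ^ (k - 1)`). -/
structure HeckeRel (a : ℕ → R) (ψ : ℕ →* R) : Prop where
  one : a 1 = 1
  mul_add : ∀ p : ℕ, p.Prime → ∀ n : ℕ,
    a (p * n) + (if p ∣ n then ψ p * a (n / p) else 0) = a p * a n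

theorem HeckeRel.mul_of_coprime (h : HeckeRel a ψ) {m n : ℕ} (hmn : m.Coprime n) :
    a (m * n) = a m * a n := by
  induction m using Nat.strong_induction_on with
  | _ m ih =>
    rcases Nat.eq_zero_or_pos m with rfl | hm
    · rw [Nat.coprime_zero_left] at hmn
      rw [hmn, mul_one, h.one, mul_one]
    rcases Nat.lt_or_ge 1 m with h1 | h1
    swap
    · have : m = 1 := by omega
      rw [this, one_mul, h.one, one_mul]
    obtain ⟨p, hp, m', rfl⟩ := Nat.exists_prime_and_dvd h1.ne'
    have hm' : 0 < m' := Nat.pos_of_mul_pos_left hm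
    have hlt : m' < p * m' := by nlinarith [hp.two_le]
    have hpn : p.Coprime n := Nat.Coprime.coprime_mul_right hmn
    have hmn' : m'.Coprime n := Nat.Coprime.coprime_mul_left hmn
    have e1 := h.mul_add p hp m'
    have e2 := h.mul_add p hp (m' * n)
    rw [← mul_assoc, ih m' hlt hmn'] at e2
    by_cases hd : p ∣ m'
    · have hd2 : p ∣ m' * n := hd.mul_right n
      have e3 : m' * n / p = (m' / p) * n := Nat.mul_div_right_comm hd n
      have hlt2 : m' / p < p * m' := lt_of_le_of_lt (Nat.div_le_self _ _) hlt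
      have hc : (m' / p).Coprime n := hmn'.coprime_dvd_left (Nat.div_dvd_of_dvd hd)
      rw [if_pos hd] at e1
      rw [if_pos hd2, e3, ih _ hlt2 hc] at e2
      linear_combination e2 - a n * e1
    · have hd2 : ¬ p ∣ m' * n := fun h2 =>
        (hp.dvd_mul.mp h2).elim hd fun h3 => (Nat.Prime.coprime_iff_not_dvd hp).mp hpn h3
      rw [if_neg hd] at e1
      rw [if_neg hd2] at e2
      linear_combination e2 - a n * e1

theorem HeckeRel.prime_pow (h : HeckeRel a ψ) {p : ℕ} (hp : p.Prime) (r : ℕ) :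
    a (p ^ (r + 2)) = a p * a (p ^ (r + 1)) - ψ p * a (p ^ r) := by
  have e := h.mul_add p hp (p ^ (r + 1))
  rw [if_pos (dvd_pow_self p (Nat.succ_ne_zero r)), ← pow_succ'] at e
  have e2 : p ^ (r + 1) / p = p ^ r := by
    rw [pow_succ, Nat.mul_div_cancel _ hp.pos]
  rw [e2] at e
  linear_combination e

theorem HeckeRel.pow_mul_pow (h : HeckeRel a ψ) {p : ℕ} (hp : p.Prime) (r : ℕ) :
    ∀ s, r ≤ s → a (p ^ r) * a (p ^ s) =
      ∑ i ∈ Finset.range (r + 1), ψ p ^ i * a (p ^ (r + s - 2 * i)) := by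
  have step : ∀ s, 1 ≤ s → a p * a (p ^ s) = a (p ^ (s + 1)) + ψ p * a (p ^ (s - 1)) := by
    intro s hs
    obtain ⟨t, rfl⟩ := Nat.exists_eq_add_of_le' hs
    rw [show t + 1 + 1 = t + 2 from rfl, h.prime_pow hp t, Nat.add_sub_cancel]
    ring
  induction r using Nat.twoStepInduction with
  | zero => intro s _; simp [h.one]
  | one =>
    intro s hs
    rw [Finset.sum_range_succ, Finset.sum_range_one, pow_one, step s hs]
    simp only [pow_zero, one_mul, mul_zero, Nat.sub_zero, pow_one, mul_one]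
    rw [add_comm 1 s, show s + 1 - 2 = s - 1 by omega]
  | more r ih1 ih2 =>
    intro s hs
    have hs1 := ih1 s (by omega)
    have hs2 := ih2 s (by omega)
    have e1 : a (p ^ (r + 2)) * a (p ^ s) =
        a p * (a (p ^ (r + 1)) * a (p ^ s)) - ψ p * (a (p ^ r) * a (p ^ s)) := by
      rw [h.prime_pow hp r]; ring
    rw [e1, hs1, hs2, Finset.mul_sum]
    have e2 : ∀ i ∈ Finset.range (r + 1 + 1), a p * (ψ p ^ i * a (p ^ (r + 1 + s - 2 * i))) =
        ψ p ^ i * a (p ^ (r + 2 + s - 2 * i)) + ψ p * (ψ p ^ i * a (p ^ (r + s - 2 * i))) := by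
      intro i hi
      rw [Finset.mem_range] at hi
      have e3 := step (r + 1 + s - 2 * i) (by omega)
      rw [show r + 1 + s - 2 * i + 1 = r + 2 + s - 2 * i by omega,
        show r + 1 + s - 2 * i - 1 = r + s - 2 * i by omega] at e3
      linear_combination ψ p ^ i * e3
    rw [Finset.sum_congr rfl e2, Finset.sum_add_distrib, ← Finset.mul_sum,
      Finset.sum_range_succ (fun i => ψ p ^ i * a (p ^ (r + s - 2 * i))) (r + 1),
      Finset.sum_range_succ (fun i => ψ p ^ i * a (p ^ (r + 2 + s - 2 * i))) (r + 2),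
      show r + 2 + s - 2 * (r + 2) = s - (r + 2) by omega,
      show r + s - 2 * (r + 1) = s - (r + 2) by omega]
    ring

theorem sum_divisors_mul_of_coprime {M : Type*} [AddCommMonoid M] {m n : ℕ} (hmn : m.Coprime n)
    (f : ℕ → M) :
    ∑ d ∈ (m * n).divisors, f d = ∑ x ∈ m.divisors, ∑ y ∈ n.divisors, f (x * y) := by
  rw [hmn.divisors_mul, Finset.sum_map]
  change ∑ p ∈ (m.divisors ×ˢ n.divisors).attach, f (p.1.1 * p.1.2) = _
  rw [Finset.sum_attach (m.divisors ×ˢ n.divisors) (fun p => f (p.1 * p.2)), Finset.sum_product]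

theorem HeckeRel.mul_eq_sum (h : HeckeRel a ψ) {m n : ℕ} (hm : m ≠ 0) (hn : n ≠ 0) :
    a m * a n = ∑ d ∈ (m.gcd n).divisors, ψ d * a (m * n / d ^ 2) := by
  induction m using Nat.strong_induction_on generalizing n with
  | _ m ih =>
    rcases Nat.lt_or_ge 1 m with h1 | h1
    swap
    · have : m = 1 := by omega
      subst this
      simp [h.one]
    obtain ⟨p, hp, hpm⟩ := Nat.exists_prime_and_dvd h1.ne'
    obtain ⟨r, m', hm', rfl⟩ := Nat.exists_eq_pow_mul_and_not_dvd hm p hp.ne_one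
    obtain ⟨s, n', hn', rfl⟩ := Nat.exists_eq_pow_mul_and_not_dvd hn p hp.ne_one
    have hm0 : m' ≠ 0 := by rintro rfl; exact hm' (dvd_zero p)
    have hn0 : n' ≠ 0 := by rintro rfl; exact hn' (dvd_zero p)
    have hr : r ≠ 0 := by
      rintro rfl
      rw [pow_zero, one_mul] at hpm
      exact hm' hpm
    have hlt : m' < p ^ r * m' := by
      have h2 : 1 < p ^ r := Nat.one_lt_pow hr hp.one_lt
      nlinarith [Nat.pos_of_ne_zero hm0]
    have hcm : ∀ t, (p ^ t).Coprime m' := fun t =>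
      Nat.Coprime.pow_left t ((Nat.Prime.coprime_iff_not_dvd hp).mpr hm')
    have hcn : ∀ t, (p ^ t).Coprime n' := fun t =>
      Nat.Coprime.pow_left t ((Nat.Prime.coprime_iff_not_dvd hp).mpr hn')
    have hgcd : (p ^ r * m').gcd (p ^ s * n') = p ^ (min r s) * m'.gcd n' := by
      rw [Nat.Coprime.gcd_mul _ (hcn s), Nat.gcd_comm _ (p ^ s), Nat.gcd_comm _ n',
        Nat.Coprime.gcd_mul _ (hcm r), Nat.Coprime.gcd_mul _ (hcm r),
        Nat.Coprime.gcd_eq_one (hcm s), mul_one,
        Nat.Coprime.gcd_eq_one (hcn r).symm, one_mul, Nat.gcd_comm n' m']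
      congr 1
      rcases le_total r s with hrs | hrs
      · rw [min_eq_left hrs]
        exact Nat.gcd_eq_right (pow_dvd_pow p hrs)
      · rw [min_eq_right hrs]
        exact Nat.gcd_eq_left (pow_dvd_pow p hrs)
    have hcg : (p ^ (min r s)).Coprime (m'.gcd n') :=
      (hcm _).coprime_dvd_right (Nat.gcd_dvd_left m' n')
    have hpow : a (p ^ r) * a (p ^ s) =
        ∑ i ∈ Finset.range (min r s + 1), ψ p ^ i * a (p ^ (r + s - 2 * i)) := by
      rcases le_total r s with hrs | hrs
      · rw [min_eq_left hrs]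
        exact h.pow_mul_pow hp r s hrs
      · rw [min_eq_right hrs, mul_comm, add_comm r s]
        exact h.pow_mul_pow hp s r hrs
    rw [h.mul_of_coprime (hcm r), h.mul_of_coprime (hcn s), hgcd, sum_divisors_mul_of_coprime hcg,
      Nat.sum_divisors_prime_pow hp,
      show a (p ^ r) * a m' * (a (p ^ s) * a n') = (a (p ^ r) * a (p ^ s)) * (a m' * a n') by ring,
      hpow, ih m' hlt hm0 hn0, Finset.sum_mul_sum]
    refine Finset.sum_congr rfl fun i hi => Finset.sum_congr rfl fun e he => ?_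
    rw [Finset.mem_range] at hi
    have hi1 : i ≤ r := by omega
    have hi2 : i ≤ s := by omega
    have he0 : e ∣ m'.gcd n' := Nat.dvd_of_mem_divisors he
    have hem : e ∣ m' := he0.trans (Nat.gcd_dvd_left _ _)
    have hen : e ∣ n' := he0.trans (Nat.gcd_dvd_right _ _)
    have he2 : e ^ 2 ∣ m' * n' := by
      rw [pow_two]; exact mul_dvd_mul hem hen
    have hdiv : p ^ r * m' * (p ^ s * n') / (p ^ i * e) ^ 2 =
        p ^ (r + s - 2 * i) * (m' * n' / e ^ 2) := by
      have h3 : p ^ r * m' * (p ^ s * n') = p ^ (r + s) * (m' * n') := by rw [pow_add]; ring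
      have h4 : p ^ (2 * i) ∣ p ^ (r + s) := pow_dvd_pow p (by omega)
      rw [h3, mul_pow, ← pow_mul, mul_comm i 2, Nat.mul_div_mul_comm h4 he2,
        Nat.pow_div (by omega) hp.pos]
    have hco : (p ^ (r + s - 2 * i)).Coprime (m' * n' / e ^ 2) :=
      ((hcm _).mul_right (hcn _)).coprime_dvd_right (Nat.div_dvd_of_dvd he2)
    rw [hdiv, h.mul_of_coprime hco, map_mul, map_pow]
    ring

end Abstract

/-! ### Cusp forms of level one -/

theorem map_Gamma0_one :
    (Gamma0 1).map (Matrix.SpecialLinearGroup.mapGL ℝ) = 𝒮ℒ := by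
  have h : Gamma0 1 = ⊤ := by
    rw [eq_top_iff]
    intro γ _
    rw [Gamma0_mem]
    exact Subsingleton.elim _ _
  rw [h, ← MonoidHom.range_eq_map]

/-- a cusp form for one subgroup is one for an equal subgroup -/
theorem exists_cuspForm_coe {Γ Γ' : Subgroup (GL (Fin 2) ℝ)} (h : Γ = Γ') {k : ℤ}
    (f : CuspForm Γ k) : ∃ g : CuspForm Γ' k, (⇑g : ℍ → ℂ) = ⇑f := by
  subst h
  exact ⟨f, rfl⟩

/-- `p ↦ p ^ (k - 1)` -/
def powHom (R : Type*) [CommRing R] (j : ℕ) : ℕ →* R :=
  (powMonoidHom j).comp (Nat.castRingHom R : ℕ →* R)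

theorem powHom_apply (R : Type*) [CommRing R] (j n : ℕ) : powHom R j n = (n : R) ^ j := rfl

/-- the Hecke operators on a one-dimensional space, on the coefficients -/
theorem exists_eigenvalue {k : ℤ} {j : ℕ} (hk : k = j + 1) {f : CuspForm 𝒮ℒ k}
    (hs : ∀ g : CuspForm 𝒮ℒ k, ∃ c : ℂ, c • f = g) {p : ℕ} (hp : p.Prime) :
    ∃ c : ℂ, ∀ m : ℕ, c * (qExpansion 1 f).coeff m = (qExpansion 1 f).coeff (p * m) +
        (if p ∣ m then ((p : ℕ) : ℂ) ^ j * (qExpansion 1 f).coeff (m / p) else 0) := by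
  subst hk
  obtain ⟨F, hF⟩ := exists_cuspForm_coe map_Gamma0_one.symm f
  set G := FermatAgent.HeckeEigen.heckeOp 1 ((j : ℤ) + 1) ⟨p, hp⟩ F with hG
  obtain ⟨g, hg⟩ := exists_cuspForm_coe map_Gamma0_one G
  obtain ⟨c, hc⟩ := hs g
  have hco : ∀ m : ℕ, ModularFormClass.qCoeff ⇑G m = c * (qExpansion 1 f).coeff m := by
    intro m
    rw [← hg, ModularFormClass.qCoeff, ← hc, FunLike.coe_smul,
      ModularForm.qExpansion_smul one_pos one_mem_strictPeriods_SL c f]
    simp
  have hqf : ∀ m : ℕ, ModularFormClass.qCoeff ⇑F m = (qExpansion 1 f).coeff m := by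
    intro m
    rw [ModularFormClass.qCoeff, hF]
  refine ⟨c, fun m => ?_⟩
  have h1 := FermatAgent.HeckeEigen.qCoeff_heckeOp (N := 1) (k := (j : ℤ) + 1) ⟨p, hp⟩ F m
  rw [← hG, hco, hqf, if_neg hp.not_dvd_one, hqf, add_sub_cancel_right, zpow_natCast] at h1
  exact h1

/-- **Hecke's relations**, if the space of cusp forms of level one and weight `j + 1` is spanned by the
normalised form `f`. -/
theorem heckeRel_of_span {k : ℤ} {j : ℕ} (hk : k = j + 1) {f : CuspForm 𝒮ℒ k}
    (hf : (qExpansion 1 f).coeff 1 = 1)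
    (hs : ∀ g : CuspForm 𝒮ℒ k, ∃ c : ℂ, c • f = g) :
    HeckeRel (fun n => (qExpansion 1 f).coeff n) (powHom ℂ j) where
  one := hf
  mul_add p hp n := by
    obtain ⟨c, key⟩ := exists_eigenvalue hk hs hp
    have hc1 : c = (qExpansion 1 f).coeff p := by
      have h1 := key 1
      rwa [hf, mul_one, mul_one, if_neg hp.not_dvd_one, add_zero] at h1
    rw [powHom_apply, ← key n, hc1]

theorem coeff_one_ne_zero {k : ℤ} {j : ℕ} (hk : k = j + 1) {f : CuspForm 𝒮ℒ k} (hf : f ≠ 0)
    (hs : ∀ g : CuspForm 𝒮ℒ k, ∃ c : ℂ, c • f = g) : (qExpansion 1 f).coeff 1 ≠ 0 := by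
  intro h1
  have h : ∀ n, (qExpansion 1 f).coeff n = 0 := by
    intro n
    induction n using Nat.strong_induction_on with
    | _ n ih =>
      rcases Nat.lt_or_ge n 2 with hn | hn
      · interval_cases n
        · exact CuspFormClass.qExpansion_coeff_zero f one_pos one_mem_strictPeriods_SL
        · exact h1
      · obtain ⟨p, hp, m, rfl⟩ := Nat.exists_prime_and_dvd (show n ≠ 1 by omega)
        have hmpos : 0 < m := Nat.pos_of_ne_zero (by rintro rfl; omega)
        have hlt : m < p * m := by nlinarith [hp.two_le]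
        obtain ⟨c, key⟩ := exists_eigenvalue hk hs hp
        have h2 := key m
        have hlt2 : m / p < p * m := lt_of_le_of_lt (Nat.div_le_self _ _) hlt
        rw [ih m hlt, ih (m / p) hlt2, mul_zero, mul_zero, ite_self, add_zero] at h2
        exact h2.symm
  refine hf (DFunLike.ext _ _ fun τ => ?_)
  have h2 := ModularForm.hasSum_qExpansion f one_pos one_mem_strictPeriods_SL τ
  simp only [h, zero_mul] at h2
  exact h2.unique hasSum_zero

/-- **Hecke, Mordell**: if the space of cusp forms of level one and weight `k` has dimension one, then its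
normalised element satisfies all the relations. -/
theorem exists_unique_heckeRel {k : ℤ} {j : ℕ} (hk : k = j + 1)
    (h1 : Module.rank ℂ (CuspForm 𝒮ℒ k) = 1) :
    ∃! f : CuspForm 𝒮ℒ k, HeckeRel (fun n => (qExpansion 1 f).coeff n) (powHom ℂ j) := by
  have h2 : Module.finrank ℂ (CuspForm 𝒮ℒ k) = 1 := Module.rank_eq_one_iff_finrank_eq_one.mp h1
  obtain ⟨f, hf0, hf⟩ := finrank_eq_one_iff'.mp h2
  have ha := coeff_one_ne_zero hk hf0 hf
  set a := (qExpansion 1 f).coeff 1 with hadef
  have hco : ∀ (c : ℂ) (m : ℕ),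
      (qExpansion 1 ⇑(c • f)).coeff m = c * (qExpansion 1 f).coeff m := by
    intro c m
    rw [FunLike.coe_smul, ModularForm.qExpansion_smul one_pos one_mem_strictPeriods_SL c f]
    simp
  have hs : ∀ g : CuspForm 𝒮ℒ k, ∃ c : ℂ, c • (a⁻¹ • f) = g := by
    intro g
    obtain ⟨c, hc⟩ := hf g
    exact ⟨c * a, by rw [smul_smul, mul_assoc, mul_inv_cancel₀ ha, mul_one, hc]⟩
  have hn : (qExpansion 1 ⇑(a⁻¹ • f)).coeff 1 = 1 := by
    rw [hco, ← hadef, inv_mul_cancel₀ ha]
  refine ⟨a⁻¹ • f, heckeRel_of_span hk hn hs, fun g hg => ?_⟩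
  obtain ⟨c, hc⟩ := hf g
  have h3 : (qExpansion 1 g).coeff 1 = 1 := hg.one
  rw [← hc, hco, ← hadef] at h3
  rw [← hc, eq_inv_of_mul_eq_one_left h3]

/-- the weights with exactly one normalised cusp form of level one -/
theorem rank_cuspForm_eq_one_iff (k : ℤ) :
    Module.rank ℂ (CuspForm 𝒮ℒ k) = 1 ↔ k ∈ ({12, 16, 18, 20, 22, 26} : Set ℤ) := by
  rw [CuspForm.discriminantEquiv.rank_eq]
  simp only [Set.mem_insert_iff, Set.mem_singleton_iff]
  rcases lt_or_ge k 12 with h12 | h12
  · rw [ModularForm.levelOne_neg_weight_rank_zero (by omega)]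
    constructor
    · intro h; exact absurd h zero_ne_one
    · intro h; omega
  obtain ⟨m, hm⟩ : ∃ m : ℕ, k - 12 = m := ⟨(k - 12).toNat, by omega⟩
  rw [hm]
  rcases Nat.even_or_odd m with he | ho
  swap
  · rw [ModularForm.levelOne_odd_weight_rank_zero (by exact_mod_cast ho)]
    constructor
    · intro h; exact absurd h zero_ne_one
    · intro h
      rw [Nat.odd_iff] at ho
      omega
  · rw [ModularForm.dimension_level_one m he]
    rw [Nat.even_iff] at he
    split_ifs with h2
    · rw [Nat.ModEq] at h2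
      constructor
      · intro h
        have h3 : m / 12 = 1 := by exact_mod_cast h
        omega
      · intro h
        have h3 : m / 12 = 1 := by omega
        rw [h3, Nat.cast_one]
    · rw [Nat.ModEq] at h2
      constructor
      · intro h
        have h3 : m / 12 + 1 = 1 := by exact_mod_cast h
        omega
      · intro h
        have h3 : m / 12 = 0 := by omega
        rw [h3, zero_add, Nat.cast_one]

/-- **Mordell's theorem for the six weights** `12, 16, 18, 20, 22, 26`. -/
theorem mordell {k : ℕ} (hk : (k : ℤ) ∈ ({12, 16, 18, 20, 22, 26} : Set ℤ)) :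
    ∃! f : CuspForm 𝒮ℒ (k : ℤ), HeckeRel (fun n => (qExpansion 1 f).coeff n) (powHom ℂ (k - 1)) := by
  refine exists_unique_heckeRel ?_ ((rank_cuspForm_eq_one_iff k).mpr hk)
  simp only [Set.mem_insert_iff, Set.mem_singleton_iff] at hk
  omega

/-! ### Ramanujan's function -/

/-- **Mordell's theorem** (1917). -/
theorem heckeRel_tau : HeckeRel tau (powHom ℤ 11) := by
  have h : HeckeRel (fun n => (qExpansion 1 CuspForm.discriminant).coeff n) (powHom ℂ 11) := by
    refine heckeRel_of_span (j := 11) (by norm_num) (f := CuspForm.discriminant) ?_ fun g => ?_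
    · rw [CuspForm.coe_discriminant, discriminant_qExpansion_coeff_one]
    · exact CuspForm.exists_smul_discriminant_of_weight_eq_twelve g
  refine ⟨tau_one, fun p hp n => ?_⟩
  have h1 := h.mul_add p hp n
  simp only [coeff_discriminant, powHom_apply] at h1
  rw [powHom_apply]
  split_ifs at h1 ⊢ with hd
  · exact_mod_cast h1
  · rw [add_zero] at h1 ⊢
    exact_mod_cast h1

/-- **`τ` is multiplicative** (Mordell 1917). -/
theorem tau_mul_of_coprime {m n : ℕ} (h : m.Coprime n) : tau (m * n) = tau m * tau n :=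
  heckeRel_tau.mul_of_coprime h

/-- `τ(p ^ (r + 2)) = τ(p) τ(p ^ (r + 1)) - p ^ 11 τ(p ^ r)` (Mordell 1917). -/
theorem tau_prime_pow {p : ℕ} (hp : p.Prime) (r : ℕ) :
    tau (p ^ (r + 2)) = tau p * tau (p ^ (r + 1)) - (p : ℤ) ^ 11 * tau (p ^ r) :=
  heckeRel_tau.prime_pow hp r

/-- `T_p Δ = τ(p) Δ` on the coefficients. -/
theorem tau_prime_mul {p : ℕ} (hp : p.Prime) (n : ℕ) :
    tau (p * n) + (if p ∣ n then (p : ℤ) ^ 11 * tau (n / p) else 0) = tau p * tau n :=
  heckeRel_tau.mul_add p hp n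

/-- `τ(m) τ(n) = ∑_{d ∣ (m, n)} d ^ 11 τ(m n / d ^ 2)`. -/
theorem tau_mul_tau {m n : ℕ} (hm : m ≠ 0) (hn : n ≠ 0) :
    tau m * tau n = ∑ d ∈ (m.gcd n).divisors, (d : ℤ) ^ 11 * tau (m * n / d ^ 2) :=
  heckeRel_tau.mul_eq_sum hm hn

end Fermat.Agent.Cor.Tau
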