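import Fermat.Agent.Corollaries.Tau.PartMod

/-!
# `τ(n)` modulo 23 and `p(25n + 24)` modulo 25
-/

set_option autoImplicit false

noncomputable section

open PowerSeries
open scoped ArithmeticFunction.sigma

namespace Fermat.Agent.Cor.Tau

instance fact_prime_twenty_three : Fact (Nat.Prime 23) := ⟨by norm_num⟩

/-- **`23 ∣ τ(n)` if `n` is not a square modulo 23** -/
theorem tau_mod_twenty_three {n : ℕ} (hn : ¬ IsSquare (n : ZMod 23)) : (23 : ℤ) ∣ tau n := by
  have h0 : (ta (ZMod 23)).coeff n = 0 := by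
    have h1 : ta (ZMod 23) = (X * phi (ZMod 23)) * phi (ZMod 23) ^ 23 := by
      rw [ta_eq_phi, mul_assoc, ← pow_succ']
    rw [h1, PowerSeries.coeff_mul]
    refine Finset.sum_eq_zero ?_
    rintro ⟨i, j⟩ hij
    rw [Finset.HasAntidiagonal.mem_antidiagonal] at hij
    simp only at hij ⊢
    by_cases hj : 23 ∣ j
    · rcases i with _ | i
      · rw [PowerSeries.coeff_zero_X_mul, zero_mul]
      · rw [PowerSeries.coeff_succ_X_mul]
        by_cases hi : i ∈ Set.range pentagonal
        · obtain ⟨k, rfl⟩ := hi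
          exfalso
          apply hn
          have h2 := two_mul_natCast_pentagonal k
          refine ⟨6 * (k : ZMod 23) - 1, ?_⟩
          have h3 : (2 : ZMod 23) * (pentagonal k : ZMod 23) =
              (k : ZMod 23) * (3 * (k : ZMod 23) - 1) := by
            have h4 := congrArg (Int.cast : ℤ → ZMod 23) h2
            push_cast at h4
            exact h4
          have h5 : (j : ZMod 23) = 0 := (ZMod.natCast_eq_zero_iff _ _).mpr hj
          have h23 : (23 : ZMod 23) = 0 := rfl
          rw [← hij]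
          push_cast
          rw [h5]
          linear_combination (-(pentagonal k : ZMod 23)) * h23 + 12 * h3
        · rw [coeff_pentagonalSeries_eq_zero _ hi, zero_mul]
    · rw [coeff_pow_prime _ hj, mul_zero]
  rw [ta, PowerSeries.coeff_mk] at h0
  exact (ZMod.intCast_zmod_eq_zero_iff_dvd _ 23).mp h0

/-- **Ramanujan: `p(25n + 24) ≡ 0 mod 25`** -/
theorem partition_twenty_five (n : ℕ) : 25 ∣ Fintype.card (Nat.Partition (25 * n + 24)) := by
  set φ := phi ℤ with hφ
  have h0 : φ ^ 25 * (X * pser ℤ) = ta ℤ := by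
    rw [ta_eq_phi]
    have h1 : φ * pser ℤ = 1 := phi_mul_pser _
    calc φ ^ 25 * (X * pser ℤ) = X * φ ^ 24 * (φ * pser ℤ) := by ring
      _ = _ := by rw [h1, mul_one]
  have hG : ∀ i : ℕ, (25 : ℤ) ∣ (i : ℤ) * (φ ^ 25).coeff i := by
    intro i
    have h1 := congrArg (PowerSeries.coeff i) (th_pow φ 24)
    rw [coeff_th, mul_assoc, ← map_natCast (PowerSeries.C (R := ℤ)), PowerSeries.coeff_C_mul] at h1
    exact ⟨_, h1⟩
  have hG0 : (φ ^ 25).coeff 0 = 1 := by
    rw [PowerSeries.coeff_zero_eq_constantCoeff_apply, map_pow,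
      ← PowerSeries.coeff_zero_eq_constantCoeff_apply, hφ, coeff_zero_phi, one_pow]
  have hH5 : ∀ m, (5 : ℤ) ∣ (X * pser ℤ).coeff (5 * m) := by
    intro m
    rcases m with _ | m
    · rw [mul_zero, PowerSeries.coeff_zero_X_mul]; exact dvd_zero _
    · rw [show 5 * (m + 1) = (5 * m + 4) + 1 by ring, PowerSeries.coeff_succ_X_mul, pser,
        PowerSeries.coeff_mk]
      exact_mod_cast partition_five m
  have hT : ∀ m, (25 : ℤ) ∣ (ta ℤ).coeff (25 * m) := by
    intro m
    rw [ta, PowerSeries.coeff_mk, Int.cast_id]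
    have h1 := tau_mod_twenty_five (25 * m)
    refine Int.modEq_zero_iff_dvd.mp (h1.trans (Int.modEq_zero_iff_dvd.mpr
      ⟨m * σ 9 (25 * m), ?_⟩))
    push_cast
    ring
  have main : ∀ m, (25 : ℤ) ∣ (X * pser ℤ).coeff (25 * m) := by
    intro m
    induction m using Nat.strong_induction_on with
    | _ m ih =>
      have h1 := hT m
      rw [← h0, PowerSeries.coeff_mul] at h1
      have hmem : ((0, 25 * m) : ℕ × ℕ) ∈ Finset.HasAntidiagonal.antidiagonal (25 * m) := by
        rw [Finset.HasAntidiagonal.mem_antidiagonal]; simp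
      rw [← Finset.add_sum_erase _ _ hmem] at h1
      simp only [hG0, one_mul] at h1
      refine (dvd_add_left (Finset.dvd_sum ?_)).mp h1
      rintro ⟨i, j⟩ hij
      obtain ⟨hne, hij⟩ := Finset.mem_erase.mp hij
      rw [Finset.HasAntidiagonal.mem_antidiagonal] at hij
      simp only at hij ⊢
      have hi0 : i ≠ 0 := by
        rintro rfl
        exact hne (by rw [← hij, zero_add])
      by_cases h25 : 25 ∣ i
      · obtain ⟨i', rfl⟩ := h25
        have hj : j = 25 * (m - i') := by omega
        rw [hj]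
        exact (ih (m - i') (by omega)).mul_left _
      · by_cases h5 : 5 ∣ i
        · obtain ⟨i', rfl⟩ := h5
          have hi' : ¬ 5 ∣ i' := fun ⟨c, hc⟩ => h25 ⟨c, by omega⟩
          have hGi : (5 : ℤ) ∣ (φ ^ 25).coeff (5 * i') := by
            have h2 := hG (5 * i')
            have h3 : (5 : ℤ) ∣ (i' : ℤ) * (φ ^ 25).coeff (5 * i') := by
              obtain ⟨c, hc⟩ := h2
              refine ⟨c, ?_⟩
              push_cast at hc
              linarith
            refine (Int.isCoprime_iff_gcd_eq_one.mpr ?_ : IsCoprime (5 : ℤ) (i' : ℤ)).dvd_of_dvd_mul_left h3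
            change Int.gcd ((5 : ℕ) : ℤ) (i' : ℤ) = 1
            rw [Int.gcd_natCast_natCast]
            exact (Nat.Prime.coprime_iff_not_dvd (by norm_num)).mpr hi'
          have hj : j = 5 * (5 * m - i') := by omega
          have hHj : (5 : ℤ) ∣ (X * pser ℤ).coeff j := by rw [hj]; exact hH5 _
          have h4 := mul_dvd_mul hGi hHj
          norm_num at h4
          exact h4
        · have hGi : (25 : ℤ) ∣ (φ ^ 25).coeff i := by
            refine (Int.isCoprime_iff_gcd_eq_one.mpr ?_ : IsCoprime (25 : ℤ) (i : ℤ)).dvd_of_dvd_mul_left (hG i)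
            change Int.gcd ((25 : ℕ) : ℤ) (i : ℤ) = 1
            rw [Int.gcd_natCast_natCast]
            have h5' := (Nat.Prime.coprime_iff_not_dvd (show Nat.Prime 5 by norm_num)).mpr h5
            exact Nat.Coprime.pow_left 2 h5'
          exact hGi.mul_right _
  have h2 := main (n + 1)
  rw [show 25 * (n + 1) = (25 * n + 24) + 1 by ring, PowerSeries.coeff_succ_X_mul, pser,
    PowerSeries.coeff_mk] at h2
  exact_mod_cast h2

end Fermat.Agent.Cor.Tau
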