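import Fermat.Agent.Corollaries.Tau.Eisen

/-!
# Identities between divisor sums, and `τ(n) ≡ σ₁₁(n) mod 691`

The classical consequences of `E₄² = E₈`, `E₄E₆ = E₁₀`, `E₄E₁₀ = E₆E₈ = E₁₄` and `691 E₁₂ = 441 E₄³ + 250 E₆²`
for the sums of powers of divisors, and Ramanujan's congruence (1916).
-/

set_option autoImplicit false

noncomputable section

open EisensteinSeries UpperHalfPlane ModularForm
open scoped ArithmeticFunction.sigma

namespace Fermat.Agent.Cor.Tau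

/-- the sum of `σ_a(m) σ_b(n - m)` over `0 < m < n` -/
abbrev conv (a b n : ℕ) : ℕ := ∑ m ∈ Finset.Ico 1 n, σ a m * σ b (n - m)

theorem ofNat_mul_cancel (k : ℕ) [k.AtLeastTwo] {f g : PowerSeries ℂ}
    (h : (OfNat.ofNat k : PowerSeries ℂ) * f = OfNat.ofNat k * g) : f = g := by
  have h1 : (OfNat.ofNat k : ℂ) ≠ 0 := OfNat.ofNat_ne_zero k
  rw [← smul_ofNat, ← smul_ofNat] at h
  ext n
  have h2 := congrArg (PowerSeries.coeff n) h
  rw [PowerSeries.coeff_smul, PowerSeries.coeff_smul, smul_eq_mul, smul_eq_mul] at h2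
  exact mul_left_cancel₀ h1 h2

theorem coeff_ofNat_mul (k : ℕ) [k.AtLeastTwo] (f : PowerSeries ℂ) (n : ℕ) :
    ((OfNat.ofNat k : PowerSeries ℂ) * f).coeff n = OfNat.ofNat k * f.coeff n := by
  rw [← smul_ofNat, PowerSeries.coeff_smul, smul_eq_mul]

theorem sig_7 : sig 7 = sig 3 + 120 * (sig 3 * sig 3) := by
  apply ofNat_mul_cancel 480
  have h := E₄_mul_E₄
  rw [Q_eq, E₈_eq] at h
  linear_combination -h

theorem sig_9 : 11 * sig 9 + 10 * sig 3 = 21 * sig 5 + 5040 * (sig 3 * sig 5) := by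
  apply ofNat_mul_cancel 24
  have h := E₄_mul_E₆
  rw [Q_eq, R_eq, E₁₀_eq] at h
  linear_combination h

theorem sig_13 : sig 13 + 10 * sig 3 = 11 * sig 9 + 2640 * (sig 3 * sig 9) := by
  apply ofNat_mul_cancel 24
  have h := E₄_mul_E₁₀
  rw [Q_eq, E₁₀_eq, E₁₄_eq] at h
  linear_combination h

theorem sig_13' : sig 13 + 20 * sig 7 = 21 * sig 5 + 10080 * (sig 5 * sig 7) := by
  apply ofNat_mul_cancel 24
  have h := E₆_mul_E₈
  rw [R_eq, E₈_eq, E₁₄_eq] at h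
  linear_combination h

theorem tau_sig_5 : 756 * tauSer + 174132 * (sig 5 * sig 5) = 65 * sig 11 + 691 * sig 5 := by
  apply ofNat_mul_cancel 1008
  have h1 := E₁₂_eq_E₄_E₆
  have h2 := discriminant_eq
  rw [E₁₂_eq] at h1
  rw [R_eq] at h1 h2
  linear_combination 441 * h2 - h1

theorem tau_sig_37 :
    1800 * tauSer + 273 * sig 11 = 691 * sig 3 + 1382 * sig 7 + 331680 * (sig 3 * sig 7) := by
  apply ofNat_mul_cancel 240
  have h1 := E₁₂_eq_E₄_E₆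
  have h2 := discriminant_eq
  have h3 : qExpansion 1 E₄ ^ 3 = (1 + 240 * sig 3) * (1 + 480 * sig 7) := by
    rw [pow_succ', pow_two, E₄_mul_E₄, Q_eq, E₈_eq]
  rw [E₁₂_eq] at h1
  rw [h3] at h1 h2
  linear_combination 250 * h2 + h1

/-- **`σ₇(n) = σ₃(n) + 120 ∑ σ₃(m) σ₃(n - m)`** -/
theorem sigma_seven (n : ℕ) : σ 7 n = σ 3 n + 120 * conv 3 3 n := by
  have h := congrArg (PowerSeries.coeff n) sig_7
  repeat rw [map_add] at h
  repeat rw [coeff_ofNat_mul] at h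
  rw [coeff_sig_mul] at h
  repeat rw [coeff_sig] at h
  exact_mod_cast h

/-- **`11 σ₉(n) + 10 σ₃(n) = 21 σ₅(n) + 5040 ∑ σ₃(m) σ₅(n - m)`** -/
theorem sigma_nine (n : ℕ) : 11 * σ 9 n + 10 * σ 3 n = 21 * σ 5 n + 5040 * conv 3 5 n := by
  have h := congrArg (PowerSeries.coeff n) sig_9
  repeat rw [map_add] at h
  repeat rw [coeff_ofNat_mul] at h
  rw [coeff_sig_mul] at h
  repeat rw [coeff_sig] at h
  exact_mod_cast h

/-- **`σ₁₃(n) + 10 σ₃(n) = 11 σ₉(n) + 2640 ∑ σ₃(m) σ₉(n - m)`** -/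
theorem sigma_thirteen (n : ℕ) :
    σ 13 n + 10 * σ 3 n = 11 * σ 9 n + 2640 * conv 3 9 n := by
  have h := congrArg (PowerSeries.coeff n) sig_13
  repeat rw [map_add] at h
  repeat rw [coeff_ofNat_mul] at h
  rw [coeff_sig_mul] at h
  repeat rw [coeff_sig] at h
  exact_mod_cast h

/-- **`σ₁₃(n) + 20 σ₇(n) = 21 σ₅(n) + 10080 ∑ σ₅(m) σ₇(n - m)`** -/
theorem sigma_thirteen' (n : ℕ) :
    σ 13 n + 20 * σ 7 n = 21 * σ 5 n + 10080 * conv 5 7 n := by
  have h := congrArg (PowerSeries.coeff n) sig_13'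
  repeat rw [map_add] at h
  repeat rw [coeff_ofNat_mul] at h
  rw [coeff_sig_mul] at h
  repeat rw [coeff_sig] at h
  exact_mod_cast h

/-- **`756 τ(n) = 65 σ₁₁(n) + 691 σ₅(n) - 691 · 252 ∑ σ₅(m) σ₅(n - m)`** -/
theorem tau_eq_sigma_five (n : ℕ) :
    756 * tau n = 65 * (σ 11 n : ℤ) + 691 * σ 5 n - 691 * 252 * (conv 5 5 n : ℤ) := by
  have h := congrArg (PowerSeries.coeff n) tau_sig_5
  repeat rw [map_add] at h
  repeat rw [coeff_ofNat_mul] at h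
  rw [coeff_sig_mul, coeff_tauSer] at h
  repeat rw [coeff_sig] at h
  have h' : 756 * tau n + 174132 * (conv 5 5 n : ℤ) = 65 * (σ 11 n : ℤ) + 691 * σ 5 n := by
    exact_mod_cast h
  linarith

/-- **`1800 τ(n) = 691 (σ₃(n) + 2 σ₇(n) + 480 ∑ σ₃(m) σ₇(n - m)) - 273 σ₁₁(n)`** -/
theorem tau_eq_sigma_three_seven (n : ℕ) :
    1800 * tau n = 691 * ((σ 3 n : ℤ) + 2 * σ 7 n + 480 * (conv 3 7 n : ℤ)) - 273 * σ 11 n := by
  have h := congrArg (PowerSeries.coeff n) tau_sig_37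
  repeat rw [map_add] at h
  repeat rw [coeff_ofNat_mul] at h
  rw [coeff_sig_mul, coeff_tauSer] at h
  repeat rw [coeff_sig] at h
  have h' : 1800 * tau n + 273 * (σ 11 n : ℤ) =
      691 * (σ 3 n : ℤ) + 1382 * σ 7 n + 331680 * (conv 3 7 n : ℤ) := by
    exact_mod_cast h
  linarith

/-- **Ramanujan's congruence** (1916): `τ(n) ≡ σ₁₁(n) mod 691` for all `n`. -/
theorem ramanujan_congruence (n : ℕ) : tau n ≡ (σ 11 n : ℤ) [ZMOD 691] := by
  have h := tau_eq_sigma_five n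
  have h1 : (691 : ℤ) ∣ 65 * (σ 11 n - tau n) :=
    ⟨tau n - σ 5 n + 252 * (conv 5 5 n : ℤ), by linarith⟩
  have h2 : IsCoprime (691 : ℤ) 65 := by
    rw [Int.isCoprime_iff_gcd_eq_one]; decide
  exact (Int.modEq_iff_dvd).mpr (h2.dvd_of_dvd_mul_left h1)

end Fermat.Agent.Cor.Tau
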