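import Fermat.Agent.Corollaries.Tau.Main

/-!
# `τ(n) ≡ σ₁₁(n) mod 64` for odd `n`
-/

set_option autoImplicit false

open scoped ArithmeticFunction.sigma

namespace Fermat.Agent.Cor.Tau

/-- a symmetric sum over `0 < m < n`, `n` odd -/
theorem sum_symm_odd {n : ℕ} (hn : Odd n) (f : ℕ → ℤ) (hf : ∀ m, 1 ≤ m → m < n → f (n - m) = f m) :
    ∑ m ∈ Finset.Ico 1 n, f m = 2 * ∑ m ∈ Finset.Ico 1 ((n + 1) / 2), f m := by
  obtain ⟨k, rfl⟩ := hn
  have hk : (2 * k + 1 + 1) / 2 = k + 1 := by omega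
  rw [hk, ← Finset.sum_Ico_consecutive f (show 1 ≤ k + 1 by omega) (show k + 1 ≤ 2 * k + 1 by omega),
    two_mul (∑ m ∈ Finset.Ico 1 (k + 1), f m)]
  congr 1
  refine Finset.sum_nbij' (fun m => 2 * k + 1 - m) (fun m => 2 * k + 1 - m) ?_ ?_ ?_ ?_ ?_
  · intro m hm; rw [Finset.mem_Ico] at hm ⊢; omega
  · intro m hm; rw [Finset.mem_Ico] at hm ⊢; omega
  · intro m hm; rw [Finset.mem_Ico] at hm; show 2 * k + 1 - (2 * k + 1 - m) = m; omega
  · intro m hm; rw [Finset.mem_Ico] at hm; show 2 * k + 1 - (2 * k + 1 - m) = m; omega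
  · intro m hm
    rw [Finset.mem_Ico] at hm
    exact (hf m (by omega) (by omega)).symm

/-- **`τ(n) ≡ 15 n⁴ σ₃(n) - 14 n⁵ σ₁(n) mod 6720` for odd `n`** -/
theorem tau_mod_6720 {n : ℕ} (hn : Odd n) :
    tau n ≡ 15 * n ^ 4 * σ 3 n - 14 * n ^ 5 * σ 1 n [ZMOD 6720] := by
  have h := tau_eq_sigma_one_three n
  set f : ℕ → ℤ := fun m => (m ^ 2 * (n - m) ^ 2 : ℤ) * (σ 1 m * σ 1 (n - m) : ℕ) with hfdef
  have h1 : ∑ m ∈ Finset.Ico 1 n, f m = 2 * ∑ m ∈ Finset.Ico 1 ((n + 1) / 2), f m := by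
    refine sum_symm_odd hn f fun m h1 h2 => ?_
    simp only [hfdef]
    rw [Nat.cast_sub h2.le, Nat.sub_sub_self h2.le, mul_comm (σ 1 (n - m))]
    ring
  have h2 : (4 : ℤ) ∣ ∑ m ∈ Finset.Ico 1 ((n + 1) / 2), f m := by
    refine Finset.dvd_sum fun m _ => Dvd.dvd.mul_right ?_ _
    have h3 : (2 : ℤ) ∣ m * (n - m) := by
      obtain ⟨k, hk⟩ := hn
      rcases Int.even_or_odd (m : ℤ) with he | ho
      · exact he.two_dvd.mul_right _
      · have : Even ((n : ℤ) - m) := by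
          obtain ⟨l, hl⟩ := ho
          exact ⟨k - l, by rw [hk, hl]; push_cast; ring⟩
        exact this.two_dvd.mul_left _
    have h4 := mul_dvd_mul h3 h3
    norm_num at h4
    convert h4 using 1
    ring
  obtain ⟨c, hc⟩ := h2
  change tau n = 15 * n ^ 4 * σ 3 n - 14 * n ^ 5 * σ 1 n - 840 * ∑ m ∈ Finset.Ico 1 n, f m at h
  rw [h, h1, hc]
  exact Int.modEq_iff_dvd.mpr ⟨c, by ring⟩

theorem dvd_pair {d e : ℤ} (hd : Odd d) (he : Odd e) : (64 : ℤ) ∣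
    15 * (d * e) ^ 4 * d ^ 3 - 14 * (d * e) ^ 5 * d - d ^ 11 +
      (15 * (d * e) ^ 4 * e ^ 3 - 14 * (d * e) ^ 5 * e - e ^ 11) := by
  obtain ⟨a, rfl⟩ := hd
  obtain ⟨b, rfl⟩ := he
  have h1 : (2 : ℤ) ∣ (a - b) ^ 4 * (a + b + 1) := by
    rcases Int.even_or_odd (a - b) with h | h
    · exact ((h.two_dvd).pow (by norm_num)).mul_right _ |>.trans dvd_rfl
    · have : Even (a + b + 1) := by
        obtain ⟨l, hl⟩ := h
        exact ⟨b + l + 1, by linarith⟩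
      exact this.two_dvd.mul_left _
  obtain ⟨c, hc⟩ := h1
  have h2 : 15 * ((2 * a + 1) * (2 * b + 1)) ^ 4 * (2 * a + 1) ^ 3 -
      14 * ((2 * a + 1) * (2 * b + 1)) ^ 5 * (2 * a + 1) - (2 * a + 1) ^ 11 +
      (15 * ((2 * a + 1) * (2 * b + 1)) ^ 4 * (2 * b + 1) ^ 3 -
        14 * ((2 * a + 1) * (2 * b + 1)) ^ 5 * (2 * b + 1) - (2 * b + 1) ^ 11) =
      -32 * ((a - b) ^ 4 * (a + b + 1)) * ((2 * a + 1) ^ 6 + 3 * (2 * a + 1) ^ 5 * (2 * b + 1) +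
        7 * (2 * a + 1) ^ 4 * (2 * b + 1) ^ 2 + 13 * (2 * a + 1) ^ 3 * (2 * b + 1) ^ 3 +
        7 * (2 * a + 1) ^ 2 * (2 * b + 1) ^ 4 + 3 * (2 * a + 1) * (2 * b + 1) ^ 5 +
        (2 * b + 1) ^ 6) := by ring
  rw [h2, hc]
  exact Dvd.dvd.mul_right ⟨-c, by ring⟩ _

/-- **`τ(n) ≡ σ₁₁(n) mod 64` for odd `n`** -/
theorem tau_mod_64 {n : ℕ} (hn : Odd n) : tau n ≡ σ 11 n [ZMOD 64] := by
  have hn0 : n ≠ 0 := by rintro rfl; exact absurd hn (by decide)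
  refine ((tau_mod_6720 hn).of_dvd (by norm_num)).trans ?_
  refine (ZMod.intCast_eq_intCast_iff _ _ 64).mp ?_
  rw [← sub_eq_zero]
  push_cast
  simp only [ArithmeticFunction.sigma_apply]
  push_cast
  rw [Finset.mul_sum, Finset.mul_sum, ← Finset.sum_sub_distrib, ← Finset.sum_sub_distrib]
  have hdiv : ∀ d ∈ n.divisors, d ∣ n := fun d hd => Nat.dvd_of_mem_divisors hd
  have key : ∀ d ∈ n.divisors, (15 * (n : ZMod 64) ^ 4 * (d : ZMod 64) ^ 3 -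
      14 * (n : ZMod 64) ^ 5 * (d : ZMod 64) ^ 1 - (d : ZMod 64) ^ 11) +
      (15 * (n : ZMod 64) ^ 4 * ((n / d : ℕ) : ZMod 64) ^ 3 -
      14 * (n : ZMod 64) ^ 5 * ((n / d : ℕ) : ZMod 64) ^ 1 - ((n / d : ℕ) : ZMod 64) ^ 11) = 0 := by
    intro d hd
    have hdn := hdiv d hd
    have hde : d * (n / d) = n := Nat.mul_div_cancel' hdn
    have hd' : Odd ((d : ℕ) : ℤ) := by exact_mod_cast hn.of_dvd_nat hdn
    have he' : Odd (((n / d : ℕ) : ℕ) : ℤ) := by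
      exact_mod_cast hn.of_dvd_nat (Nat.div_dvd_of_dvd hdn)
    have h1 := dvd_pair hd' he'
    have h2 := (ZMod.intCast_zmod_eq_zero_iff_dvd _ 64).mpr h1
    have h3 : (n : ZMod 64) = (d : ZMod 64) * ((n / d : ℕ) : ZMod 64) := by
      rw [← Nat.cast_mul, hde]
    rw [h3]
    push_cast at h2
    rw [pow_one, pow_one]
    exact h2
  refine Finset.sum_involution (fun d _ => n / d) (fun d hd => key d hd) ?_ ?_ ?_
  · intro d hd hne heq
    apply hne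
    have heq : n / d = d := heq
    have hsq : n = d * d := by
      have := Nat.mul_div_cancel' (hdiv d hd)
      rw [heq] at this
      exact this.symm
    rw [hsq]
    push_cast
    ring
  · intro d hd
    exact Nat.mem_divisors.mpr ⟨Nat.div_dvd_of_dvd (hdiv d hd), hn0⟩
  · intro d hd
    exact Nat.div_div_self (hdiv d hd) hn0

end Fermat.Agent.Cor.Tau
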