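import Fermat.Agent.Corollaries.Tau.Euler

/-!
# Ramanujan's congruences for the number of partitions

`p(5n + 4) ≡ 0 mod 5`, `p(7n + 5) ≡ 0 mod 7`, `p(11n + 6) ≡ 0 mod 11` (Ramanujan 1919, 1921).
-/

set_option autoImplicit false

noncomputable section

open PowerSeries Filter
open scoped ArithmeticFunction.sigma PowerSeries.WithPiTopology

namespace Fermat.Agent.Cor.Tau

variable (A : Type*) [CommRing A]

/-- Euler's product `∏ (1 - X^(n+1))` -/
abbrev phi : PowerSeries A := pentagonalSeries A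

theorem X_pow_dvd_prod_sub_one (N : ℕ) (s : Finset ℕ) (hs : ∀ m ∈ s, N ≤ m + 1) :
    (X : PowerSeries A) ^ N ∣ (∏ m ∈ s, (1 - X ^ (m + 1))) - 1 := by
  classical
  induction s using Finset.induction_on with
  | empty => rw [Finset.prod_empty, sub_self]; exact dvd_zero _
  | insert m s hm ih =>
    rw [Finset.prod_insert hm]
    have h1 := ih fun k hk => hs k (Finset.mem_insert_of_mem hk)
    have h2 : (X : PowerSeries A) ^ N ∣ X ^ (m + 1) := pow_dvd_pow _ (hs m (Finset.mem_insert_self m s))
    have h3 : (1 - X ^ (m + 1)) * (∏ m ∈ s, (1 - X ^ (m + 1))) - 1 =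
        ((∏ m ∈ s, (1 - X ^ (m + 1))) - 1) - X ^ (m + 1) * ∏ m ∈ s, (1 - (X : PowerSeries A) ^ (m + 1)) := by
      ring
    rw [h3]
    exact dvd_sub h1 (h2.mul_right _)

/-- the product of the first `n` factors has the right coefficients up to `n` -/
theorem X_pow_dvd_phi_sub (n : ℕ) :
    (X : PowerSeries A) ^ (n + 1) ∣ phi A - ∏ m ∈ Finset.range n, (1 - X ^ (m + 1)) := by
  rw [PowerSeries.X_pow_dvd_iff]
  intro k hk
  obtain ⟨s, hs, hns⟩ := ((coeff_prod_one_sub_X_pow_eventually_eq A k).and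
    (eventually_ge_atTop (Finset.range n))).exists
  have h1 : ∏ m ∈ s, (1 - (X : PowerSeries A) ^ (m + 1)) =
      (∏ m ∈ s \ Finset.range n, (1 - X ^ (m + 1))) *
        ∏ m ∈ Finset.range n, (1 - X ^ (m + 1)) := (Finset.prod_sdiff hns).symm
  have h2 := X_pow_dvd_prod_sub_one A (n + 1) (s \ Finset.range n) fun m hm => by
    rw [Finset.mem_sdiff, Finset.mem_range] at hm
    omega
  have h3 : (X : PowerSeries A) ^ (n + 1) ∣ ∏ m ∈ s, (1 - X ^ (m + 1)) -
      ∏ m ∈ Finset.range n, (1 - X ^ (m + 1)) := by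
    rw [h1]
    have h4 : (∏ m ∈ s \ Finset.range n, (1 - (X : PowerSeries A) ^ (m + 1))) *
        (∏ m ∈ Finset.range n, (1 - X ^ (m + 1))) - ∏ m ∈ Finset.range n, (1 - X ^ (m + 1)) =
        ((∏ m ∈ s \ Finset.range n, (1 - X ^ (m + 1))) - 1) *
          ∏ m ∈ Finset.range n, (1 - X ^ (m + 1)) := by ring
    rw [h4]
    exact h2.mul_right _
  have h5 := (PowerSeries.X_pow_dvd_iff.mp h3) k hk
  rw [map_sub, sub_eq_zero] at h5
  rw [map_sub, ← hs, h5, sub_self]

/-- **`∑ τ(n) Xⁿ = X ∏ (1 - X^(n+1))^24`** over any ring -/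
theorem ta_eq_phi : ta A = X * phi A ^ 24 := by
  ext n
  rcases n with _ | n
  · rw [PowerSeries.coeff_zero_X_mul, ta, PowerSeries.coeff_mk, tau_zero, Int.cast_zero]
  · rw [PowerSeries.coeff_succ_X_mul, ta, PowerSeries.coeff_mk, tau, Polynomial.coeff_X_mul]
    have h1 : (X : PowerSeries A) ^ (n + 2) ∣ phi A ^ 24 -
        (∏ m ∈ Finset.range (n + 1), (1 - X ^ (m + 1))) ^ 24 :=
      (X_pow_dvd_phi_sub A (n + 1)).trans (sub_dvd_pow_sub_pow _ _ 24)
    have h2 := (PowerSeries.X_pow_dvd_iff.mp h1) n (by omega)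
    rw [map_sub, sub_eq_zero] at h2
    rw [h2]
    have h3 : (∏ m ∈ Finset.range (n + 1), (1 - (X : PowerSeries A) ^ (m + 1))) ^ 24 =
        ((((∏ m ∈ Finset.range (n + 1), (1 - Polynomial.X ^ (m + 1))) ^ 24 :
          Polynomial ℤ).map (Int.castRingHom A) : Polynomial A) : PowerSeries A) := by
      rw [Polynomial.map_pow, Polynomial.map_prod, Polynomial.coe_pow]
      congr 1
      rw [← Polynomial.coeToPowerSeries.ringHom_apply, map_prod]
      refine Finset.prod_congr rfl fun m _ => ?_
      simp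
    rw [h3, Polynomial.coeff_coe, Polynomial.coeff_map, eq_intCast]

/-- `∑ p(n) Xⁿ` over any ring, `p(n)` the number of partitions -/
def pser : PowerSeries A := PowerSeries.mk fun n => (Fintype.card (Nat.Partition n) : A)

/-- **Euler**: `∏ (1 - X^(n+1)) ∑ p(n) Xⁿ = 1` -/
theorem phi_mul_pser : phi A * pser A = 1 := by
  let : TopologicalSpace A := ⊥
  have : DiscreteTopology A := ⟨rfl⟩
  have h1 := WithPiTopology.hasProd_one_sub_X_pow A
  have h2 := Nat.Partition.hasProd_powerSeriesMk_card_restricted A (fun _ => True)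
  have h3 := h1.mul h2
  have h4 : (fun i : ℕ => (1 - (X : PowerSeries A) ^ (i + 1)) *
      (if True then ∑' j : ℕ, (X : PowerSeries A) ^ ((i + 1) * j) else 1)) = fun _ => 1 := by
    funext i
    rw [if_pos trivial, mul_comm]
    have h5 := WithPiTopology.tsum_pow_mul_one_sub_of_constantCoeff_eq_zero
      (f := (X : PowerSeries A) ^ (i + 1)) (by simp)
    simp_rw [pow_mul]
    exact h5
  rw [h4] at h3
  have h5 : (PowerSeries.mk fun n => (((Nat.Partition.restricted n fun _ => True).card : ℕ) : A)) =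
      pser A := by
    ext n
    rw [pser, PowerSeries.coeff_mk, PowerSeries.coeff_mk, Nat.Partition.restricted,
      Finset.filter_true_of_mem (fun _ _ _ _ => trivial), Finset.card_univ]
  rw [h5] at h3
  exact h3.unique hasProd_one

/-- in characteristic `p`, `f ^ p` has no coefficients outside the multiples of `p` -/
theorem coeff_pow_prime {p : ℕ} [Fact p.Prime] (f : PowerSeries (ZMod p)) {n : ℕ} (hn : ¬ p ∣ n) :
    (f ^ p).coeff n = 0 := by
  have hp : p ≠ 0 := (Fact.out : p.Prime).ne_zero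
  obtain ⟨k, hk⟩ := Nat.exists_eq_succ_of_ne_zero hp
  have h1 : th (f ^ p) = 0 := by
    have h2 := th_pow f k
    have h3 : ((k + 1 : ℕ) : PowerSeries (ZMod p)) = 0 := by
      rw [← Nat.succ_eq_add_one, ← hk, ← map_natCast (PowerSeries.C (R := ZMod p)),
        CharP.cast_eq_zero, map_zero]
    rw [h3, zero_mul, zero_mul] at h2
    have h5 : f ^ p = f ^ (k + 1) := congrArg (fun j => f ^ j) hk
    rw [h5]
    exact h2
  have h4 := congrArg (PowerSeries.coeff n) h1
  rw [coeff_th, map_zero, mul_eq_zero] at h4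
  exact h4.resolve_left fun h => hn ((ZMod.natCast_eq_zero_iff _ _).mp h)

/-- the descent: if `G H = T`, `G` has constant term `1` and only coefficients at multiples of `p`, and the
coefficients of `T` at the multiples of `p` vanish, then so do those of `H` -/
theorem coeff_eq_zero_of_mul {p : ℕ} [Fact p.Prime] {G H T : PowerSeries (ZMod p)}
    (hG0 : G.coeff 0 = 1) (hG : ∀ n, ¬ p ∣ n → G.coeff n = 0) (hGH : G * H = T)
    (hT : ∀ m, T.coeff (p * m) = 0) (m : ℕ) : H.coeff (p * m) = 0 := by
  have hp : 0 < p := (Fact.out : p.Prime).pos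
  induction m using Nat.strong_induction_on with
  | _ m ih =>
    have h1 := hT m
    rw [← hGH, PowerSeries.coeff_mul, Finset.sum_eq_single (0, p * m)] at h1
    · rwa [hG0, one_mul] at h1
    · rintro ⟨i, j⟩ hij hne
      rw [Finset.HasAntidiagonal.mem_antidiagonal] at hij
      by_cases hi : p ∣ i
      · obtain ⟨i', rfl⟩ := hi
        have hi' : i' ≠ 0 := by
          rintro rfl
          exact hne (by simp only [mul_zero] at hij ⊢; rw [← hij, zero_add])
        have hj : j = p * (m - i') := by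
          rw [Nat.mul_sub]
          simp only at hij
          omega
        have him : i' ≤ m := by
          simp only at hij
          exact Nat.le_of_mul_le_mul_left (by omega) hp
        simp only
        rw [hj, ih (m - i') (by omega), mul_zero]
      · simp only
        rw [hG i hi, zero_mul]
    · intro h
      exact (h (by rw [Finset.HasAntidiagonal.mem_antidiagonal]; simp)).elim

theorem coeff_zero_phi : (phi A).coeff 0 = 1 := by
  have h := (PowerSeries.X_pow_dvd_iff.mp (X_pow_dvd_phi_sub A 0)) 0 (by norm_num)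
  rw [Finset.prod_range_zero, map_sub, sub_eq_zero] at h
  rw [h, PowerSeries.coeff_zero_one]

/-- **the criterion**: if `24 a = p² - 1` and the coefficients of `(∑ τ(n) Xⁿ)^a` at the multiples of `p` vanish
modulo `p`, then `p` divides the number of partitions of `p m - a` -/
theorem partition_criterion {p a : ℕ} [Fact p.Prime] (hpa : 24 * a + 1 = p * p)
    (hT : ∀ m, (ta (ZMod p) ^ a).coeff (p * m) = 0) (m n : ℕ) (hn : n + a = p * m) :
    p ∣ Fintype.card (Nat.Partition n) := by
  set φ := phi (ZMod p) with hφ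
  have h0 : φ ^ (p * p) * (X ^ a * pser (ZMod p)) = ta (ZMod p) ^ a := by
    rw [ta_eq_phi, mul_pow, ← pow_mul, ← hpa, pow_succ]
    have h1 : φ * pser (ZMod p) = 1 := phi_mul_pser _
    calc φ ^ (24 * a) * φ * (X ^ a * pser (ZMod p)) =
          X ^ a * φ ^ (24 * a) * (φ * pser (ZMod p)) := by ring
      _ = _ := by rw [h1, mul_one]
  have h1 : (φ ^ (p * p)).coeff 0 = 1 := by
    rw [PowerSeries.coeff_zero_eq_constantCoeff_apply, map_pow,
      ← PowerSeries.coeff_zero_eq_constantCoeff_apply, hφ, coeff_zero_phi, one_pow]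
  have h2 : ∀ n, ¬ p ∣ n → (φ ^ (p * p)).coeff n = 0 := fun n hn => by
    rw [pow_mul]
    exact coeff_pow_prime _ hn
  have h3 := coeff_eq_zero_of_mul h1 h2 h0 hT m
  rw [← hn, PowerSeries.coeff_X_pow_mul, pser, PowerSeries.coeff_mk] at h3
  exact (ZMod.natCast_eq_zero_iff _ _).mp h3

end Fermat.Agent.Cor.Tau
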