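import Fermat.Agent.Corollaries.Tau.Series

/-!
# Formulas of Ramanujan, van der Pol and Niebur for `τ(n)`, and congruences

From the differential equations: `12 τ(n) = 5 n σ₃(n) + 7 n σ₅(n) - 840 ∑ (5m - 2n) σ₃(m) σ₅(n - m)`,
`τ(n) = n² σ₃(n) + 60 ∑ (2n - 3m)(n - 3m) σ₃(m) σ₃(n - m)` (van der Pol),
`τ(n) = n⁴ σ₁(n) - 24 ∑ (35 m⁴ - 52 m³ n + 18 m² n²) σ₁(m) σ₁(n - m)` (Niebur), the sums over `0 < m < n`; and the
congruences modulo 5, 7, 24, 60.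
-/

set_option autoImplicit false

noncomputable section

open UpperHalfPlane ModularForm EisensteinSeries
open scoped ArithmeticFunction.sigma

namespace Fermat.Agent.Cor.Tau

theorem coeff_iter (a i n : ℕ) : (theta^[i] (sig a)).coeff n = (n : ℂ) ^ i * σ a n := by
  induction i with
  | zero => rw [Function.iterate_zero_apply, coeff_sig, pow_zero, one_mul]
  | succ i ih => rw [Function.iterate_succ_apply', coeff_theta, ih, pow_succ]; ring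

theorem coeff_iter_zero (a i : ℕ) : (theta^[i] (sig a)).coeff 0 = 0 := by
  rw [coeff_iter, ArithmeticFunction.map_zero, Nat.cast_zero, mul_zero]

/-- the coefficients of the products of derivatives of `∑ σ_a(n) Xⁿ` -/
theorem coeff_iter_mul (a b i j n : ℕ) : (theta^[i] (sig a) * theta^[j] (sig b)).coeff n =
    ((∑ m ∈ Finset.Ico 1 n, (m : ℤ) ^ i * ((n : ℤ) - m) ^ j * (σ a m * σ b (n - m) : ℕ) : ℤ) : ℂ) := by
  rw [coeff_mul_of_zero _ _ (coeff_iter_zero a i) (coeff_iter_zero b j)]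
  push_cast
  refine Finset.sum_congr rfl fun m hm => ?_
  rw [Finset.mem_Ico] at hm
  rw [coeff_iter, coeff_iter, Nat.cast_sub hm.2.le]
  ring

theorem coeff_mul_iter (a b i j : ℕ) (f g : PowerSeries ℂ) (hf : f = theta^[i] (sig a))
    (hg : g = theta^[j] (sig b)) (n : ℕ) : (f * g).coeff n =
    ((∑ m ∈ Finset.Ico 1 n, (m : ℤ) ^ i * ((n : ℤ) - m) ^ j * (σ a m * σ b (n - m) : ℕ) : ℤ) : ℂ) := by
  rw [hf, hg, coeff_iter_mul]

/-- **`5 σ₃(n) + σ₁(n) = 12 ∑ σ₁(m) σ₁(n - m) + 6 n σ₁(n)`** -/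
theorem sigma_one_conv (n : ℕ) : 5 * σ 3 n + σ 1 n = 12 * conv 1 1 n + 6 * n * σ 1 n := by
  have h := congrArg (PowerSeries.coeff n) sig_11
  rw [map_add, map_add, coeff_ofNat_mul, coeff_ofNat_mul, coeff_ofNat_mul, coeff_sig_mul,
    coeff_theta, coeff_sig, coeff_sig] at h
  have h' : (5 * σ 3 n + σ 1 n : ℂ) = 12 * conv 1 1 n + 6 * n * σ 1 n := by
    rw [h, conv]; ring
  exact_mod_cast h'

/-- **`21 σ₅(n) + 10 σ₃(n) = σ₁(n) + 30 n σ₃(n) + 240 ∑ σ₁(m) σ₃(n - m)`** -/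
theorem sigma_one_three_conv (n : ℕ) :
    21 * σ 5 n + 10 * σ 3 n = σ 1 n + 30 * n * σ 3 n + 240 * conv 1 3 n := by
  have h := congrArg (PowerSeries.coeff n) sig_13_conv
  rw [map_add, map_add, map_add, coeff_ofNat_mul, coeff_ofNat_mul, coeff_ofNat_mul,
    coeff_ofNat_mul, coeff_sig_mul, coeff_theta, coeff_sig, coeff_sig, coeff_sig] at h
  have h' : (21 * σ 5 n + 10 * σ 3 n : ℂ) = σ 1 n + 30 * n * σ 3 n + 240 * conv 1 3 n := by
    rw [h, conv]; ring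
  exact_mod_cast h'

/-- **`20 σ₇(n) + 21 σ₅(n) + σ₁(n) = 42 n σ₅(n) + 504 ∑ σ₁(m) σ₅(n - m)`** -/
theorem sigma_one_five_conv (n : ℕ) :
    20 * σ 7 n + 21 * σ 5 n + σ 1 n = 42 * n * σ 5 n + 504 * conv 1 5 n := by
  have h := congrArg (PowerSeries.coeff n) sig_15_conv
  rw [map_add, map_add, map_add, coeff_ofNat_mul, coeff_ofNat_mul, coeff_ofNat_mul,
    coeff_ofNat_mul, coeff_sig_mul, coeff_theta, coeff_sig, coeff_sig, coeff_sig] at h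
  have h' : (20 * σ 7 n + 21 * σ 5 n + σ 1 n : ℂ) = 42 * n * σ 5 n + 504 * conv 1 5 n := by
    rw [h, conv]; ring
  exact_mod_cast h'

/-- **`12 τ(n) = 5 n σ₃(n) + 7 n σ₅(n) - 840 ∑ (5m - 2n) σ₃(m) σ₅(n - m)`** -/
theorem tau_eq_sigma_three_five (n : ℕ) : 12 * tau n = 5 * n * σ 3 n + 7 * n * σ 5 n -
    840 * ∑ m ∈ Finset.Ico 1 n, (5 * m - 2 * n : ℤ) * (σ 3 m * σ 5 (n - m) : ℕ) := by
  have h := congrArg (PowerSeries.coeff n) tau_sig_35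
  rw [map_add, map_add, map_add, coeff_ofNat_mul, coeff_ofNat_mul, coeff_ofNat_mul,
    coeff_ofNat_mul, coeff_ofNat_mul, coeff_mul_iter 3 5 1 0 (theta (sig 3)) (sig 5) rfl rfl,
    coeff_mul_iter 3 5 0 1 (sig 3) (theta (sig 5)) rfl rfl, coeff_theta, coeff_theta, coeff_sig, coeff_sig,
    coeff_tauSer] at h
  have h' : (12 * tau n + 2520 * ∑ m ∈ Finset.Ico 1 n,
      (m : ℤ) ^ 1 * ((n : ℤ) - m) ^ 0 * (σ 3 m * σ 5 (n - m) : ℕ) : ℤ) =
      5 * (n * σ 3 n) + 7 * (n * σ 5 n) + 1680 * ∑ m ∈ Finset.Ico 1 n,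
      (m : ℤ) ^ 0 * ((n : ℤ) - m) ^ 1 * (σ 3 m * σ 5 (n - m) : ℕ) := by
    exact_mod_cast h
  have h'' : 840 * ∑ m ∈ Finset.Ico 1 n, (5 * m - 2 * n : ℤ) * (σ 3 m * σ 5 (n - m) : ℕ) =
      2520 * (∑ m ∈ Finset.Ico 1 n,
        (m : ℤ) ^ 1 * ((n : ℤ) - m) ^ 0 * (σ 3 m * σ 5 (n - m) : ℕ)) -
      1680 * ∑ m ∈ Finset.Ico 1 n,
        (m : ℤ) ^ 0 * ((n : ℤ) - m) ^ 1 * (σ 3 m * σ 5 (n - m) : ℕ) := by
    rw [Finset.mul_sum, Finset.mul_sum, Finset.mul_sum, ← Finset.sum_sub_distrib]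
    exact Finset.sum_congr rfl fun m _ => by ring
  rw [h'']
  linarith

/-- a sum over `0 < m < n` read backwards -/
theorem sum_reflect (f : ℕ → ℕ → ℤ) (n : ℕ) :
    ∑ m ∈ Finset.Ico 1 n, f m (n - m) = ∑ m ∈ Finset.Ico 1 n, f (n - m) m := by
  refine Finset.sum_nbij' (fun m => n - m) (fun m => n - m) ?_ ?_ ?_ ?_ ?_
  · intro m hm; rw [Finset.mem_Ico] at hm ⊢; omega
  · intro m hm; rw [Finset.mem_Ico] at hm ⊢; omega
  · intro m hm; rw [Finset.mem_Ico] at hm; show n - (n - m) = m; omega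
  · intro m hm; rw [Finset.mem_Ico] at hm; show n - (n - m) = m; omega
  · intro m hm
    rw [Finset.mem_Ico] at hm
    show f m (n - m) = f (n - (n - m)) (n - m)
    rw [Nat.sub_sub_self hm.2.le]

/-- **van der Pol's formula**: `τ(n) = n² σ₃(n) + 60 ∑ (2n - 3m)(n - 3m) σ₃(m) σ₃(n - m)` -/
theorem van_der_pol (n : ℕ) : tau n = n ^ 2 * σ 3 n + 60 * ∑ m ∈ Finset.Ico 1 n,
    (2 * n - 3 * m : ℤ) * (n - 3 * m) * (σ 3 m * σ 3 (n - m) : ℕ) := by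
  have h0 : tauSer + 300 * (theta (sig 3) * theta (sig 3)) =
      theta (theta (sig 3)) + 240 * (sig 3 * theta (theta (sig 3))) := by
    apply ofNat_mul_cancel 960
    have h := tau_van_der_pol
    rw [theta_Q_eq, theta_ofNat_mul, show Q = _ from Q_eq] at h
    linear_combination h
  have h := congrArg (PowerSeries.coeff n) h0
  rw [map_add, map_add, coeff_ofNat_mul, coeff_ofNat_mul,
    coeff_mul_iter 3 3 1 1 (theta (sig 3)) (theta (sig 3)) rfl rfl,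
    coeff_mul_iter 3 3 0 2 (sig 3) (theta (theta (sig 3))) rfl rfl, coeff_theta, coeff_theta,
    coeff_sig, coeff_tauSer] at h
  have h' : (tau n + 300 * ∑ m ∈ Finset.Ico 1 n,
      (m : ℤ) ^ 1 * ((n : ℤ) - m) ^ 1 * (σ 3 m * σ 3 (n - m) : ℕ) : ℤ) =
      n * (n * σ 3 n) + 240 * ∑ m ∈ Finset.Ico 1 n,
      (m : ℤ) ^ 0 * ((n : ℤ) - m) ^ 2 * (σ 3 m * σ 3 (n - m) : ℕ) := by
    exact_mod_cast h
  -- symmetrise
  have h1 : ∑ m ∈ Finset.Ico 1 n, (m : ℤ) ^ 0 * ((n : ℤ) - m) ^ 2 * (σ 3 m * σ 3 (n - m) : ℕ) =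
      ∑ m ∈ Finset.Ico 1 n, (m : ℤ) ^ 2 * (σ 3 m * σ 3 (n - m) : ℕ) := by
    have h2 := sum_reflect (fun a b => (b : ℤ) ^ 2 * (σ 3 a * σ 3 b : ℕ)) n
    calc _ = ∑ m ∈ Finset.Ico 1 n, ((n - m : ℕ) : ℤ) ^ 2 * (σ 3 m * σ 3 (n - m) : ℕ) := by
          refine Finset.sum_congr rfl fun m hm => ?_
          rw [Finset.mem_Ico] at hm
          rw [Nat.cast_sub hm.2.le, pow_zero, one_mul]
      _ = _ := by
          rw [h2]
          exact Finset.sum_congr rfl fun m _ => by rw [mul_comm (σ 3 (n - m))]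
  have h3 : 60 * ∑ m ∈ Finset.Ico 1 n, (2 * n - 3 * m : ℤ) * (n - 3 * m) *
      (σ 3 m * σ 3 (n - m) : ℕ) =
      120 * (∑ m ∈ Finset.Ico 1 n, (m : ℤ) ^ 0 * ((n : ℤ) - m) ^ 2 *
        (σ 3 m * σ 3 (n - m) : ℕ)) + 120 * (∑ m ∈ Finset.Ico 1 n, (m : ℤ) ^ 2 *
        (σ 3 m * σ 3 (n - m) : ℕ)) - 300 * ∑ m ∈ Finset.Ico 1 n,
        (m : ℤ) ^ 1 * ((n : ℤ) - m) ^ 1 * (σ 3 m * σ 3 (n - m) : ℕ) := by
    rw [Finset.mul_sum, Finset.mul_sum, Finset.mul_sum, Finset.mul_sum,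
      ← Finset.sum_add_distrib, ← Finset.sum_sub_distrib]
    exact Finset.sum_congr rfl fun m _ => by ring
  rw [h3, ← h1]
  linarith

/-- **Niebur's formula**: `τ(n) = n⁴ σ₁(n) - 24 ∑ (35 m⁴ - 52 m³ n + 18 m² n²) σ₁(m) σ₁(n - m)` -/
theorem niebur (n : ℕ) : tau n = n ^ 4 * σ 1 n - 24 * ∑ m ∈ Finset.Ico 1 n,
    (35 * m ^ 4 - 52 * m ^ 3 * n + 18 * m ^ 2 * n ^ 2 : ℤ) * (σ 1 m * σ 1 (n - m) : ℕ) := by
  have h0 : tauSer + 24 * (theta (theta (theta (theta (sig 1)))) * sig 1) +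
      432 * (theta (theta (sig 1)) * theta (theta (sig 1))) =
      theta (theta (theta (theta (sig 1)))) +
        384 * (theta (theta (theta (sig 1))) * theta (sig 1)) := by
    apply ofNat_mul_cancel 24
    have h := tau_niebur
    have h1 : theta P = -(24 * theta (sig 1)) := by rw [theta_P_eq]; ring
    have hneg : ∀ f : PowerSeries ℂ, theta (-f) = -theta f := fun f => by
      have := theta_sub 0 f
      rw [zero_sub] at this
      rw [this]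
      have h00 : theta 0 = 0 := by ext n; rw [coeff_theta]; simp
      rw [h00, zero_sub]
    rw [h1, hneg, theta_ofNat_mul, hneg, theta_ofNat_mul, hneg, theta_ofNat_mul, P] at h
    linear_combination -h
  have h := congrArg (PowerSeries.coeff n) h0
  rw [map_add, map_add, map_add, coeff_ofNat_mul, coeff_ofNat_mul, coeff_ofNat_mul,
    coeff_mul_iter 1 1 4 0 (theta (theta (theta (theta (sig 1))))) (sig 1) rfl rfl,
    coeff_mul_iter 1 1 2 2 (theta (theta (sig 1))) (theta (theta (sig 1))) rfl rfl,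
    coeff_mul_iter 1 1 3 1 (theta (theta (theta (sig 1)))) (theta (sig 1)) rfl rfl,
    coeff_theta, coeff_theta, coeff_theta, coeff_theta, coeff_sig, coeff_tauSer] at h
  have h' : (tau n + 24 * (∑ m ∈ Finset.Ico 1 n,
      (m : ℤ) ^ 4 * ((n : ℤ) - m) ^ 0 * (σ 1 m * σ 1 (n - m) : ℕ)) + 432 *
      ∑ m ∈ Finset.Ico 1 n, (m : ℤ) ^ 2 * ((n : ℤ) - m) ^ 2 * (σ 1 m * σ 1 (n - m) : ℕ) : ℤ) =
      n * (n * (n * (n * σ 1 n))) + 384 * ∑ m ∈ Finset.Ico 1 n,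
      (m : ℤ) ^ 3 * ((n : ℤ) - m) ^ 1 * (σ 1 m * σ 1 (n - m) : ℕ) := by
    exact_mod_cast h
  have h3 : 24 * ∑ m ∈ Finset.Ico 1 n,
      (35 * m ^ 4 - 52 * m ^ 3 * n + 18 * m ^ 2 * n ^ 2 : ℤ) * (σ 1 m * σ 1 (n - m) : ℕ) =
      24 * (∑ m ∈ Finset.Ico 1 n,
        (m : ℤ) ^ 4 * ((n : ℤ) - m) ^ 0 * (σ 1 m * σ 1 (n - m) : ℕ)) + 432 *
      (∑ m ∈ Finset.Ico 1 n, (m : ℤ) ^ 2 * ((n : ℤ) - m) ^ 2 * (σ 1 m * σ 1 (n - m) : ℕ)) -
      384 * ∑ m ∈ Finset.Ico 1 n,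
        (m : ℤ) ^ 3 * ((n : ℤ) - m) ^ 1 * (σ 1 m * σ 1 (n - m) : ℕ) := by
    rw [Finset.mul_sum, Finset.mul_sum, Finset.mul_sum, Finset.mul_sum,
      ← Finset.sum_add_distrib, ← Finset.sum_sub_distrib]
    exact Finset.sum_congr rfl fun m _ => by ring
  rw [h3]
  linarith

/-- **the recursion** `(n - 1) τ(n) = -24 ∑ σ₁(m) τ(n - m)` -/
theorem tau_recursion (n : ℕ) :
    ((n : ℤ) - 1) * tau n = -24 * ∑ m ∈ Finset.Ico 1 n, (σ 1 m : ℤ) * tau (n - m) := by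
  have h0 : theta tauSer + 24 * (sig 1 * tauSer) = tauSer := by
    have h := theta_tauSer
    rw [P] at h
    linear_combination h
  have h := congrArg (PowerSeries.coeff n) h0
  rw [map_add, coeff_ofNat_mul, coeff_theta, coeff_tauSer,
    coeff_mul_of_zero _ _ (coeff_sig_zero 1) (by rw [coeff_tauSer, tau_zero, Int.cast_zero])] at h
  simp only [coeff_sig, coeff_tauSer] at h
  have h' : (n * tau n + 24 * ∑ m ∈ Finset.Ico 1 n, (σ 1 m : ℤ) * tau (n - m) : ℤ) = tau n := by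
    exact_mod_cast h
  linarith

end Fermat.Agent.Cor.Tau
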