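import Fermat.Agent.Corollaries.Tau.CubicCount
import Fermat.Agent.Corollaries.CFTP.FieldConv
import Fermat.Agent.Corollaries.ChebK.Split

/-!
# The splitting field of `x ^ 3 - x - 1`

`K = ℚ(√-23)`, `L = K(θ)`, `θ ^ 3 = θ + 1`: `L/K` is a Galois extension of degree 3
(`exists_cubic_field`), unramified at all finite places (`cubic_unramified`); the places above the
places of norm `p ≠ 23` are of residue degree 1 if and only if `x ^ 3 - x - 1` has a root modulo `p`
(`cubic_inertiaDeg`).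
-/

set_option autoImplicit false

noncomputable section

namespace Fermat.Agent.Cor.Tau

section field

open NumberField Polynomial

theorem no_root_rat (z : ℚ) : z ^ 3 ≠ z + 1 := by
  intro h
  have h1 : IsIntegral ℤ z := by
    refine ⟨X ^ 3 - X - 1, by monicity!, ?_⟩
    simp only [eval₂_sub, eval₂_pow, eval₂_X, eval₂_one]
    linear_combination h
  obtain ⟨m, hm⟩ := IsIntegrallyClosed.isIntegral_iff.mp h1
  have h2 : m ^ 3 = m + 1 := by
    rw [← hm] at h
    simp only [eq_intCast] at h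
    exact_mod_cast h
  have h3 := congrArg (Int.cast : ℤ → ZMod 2) h2
  push_cast at h3
  exact no_root_two _ h3

theorem no_root_quad {K : Type*} [Field K] [NumberField K] (h2 : Module.finrank ℚ K = 2)
    (a : K) : a ^ 3 ≠ a + 1 := by
  intro h
  -- the degree of `a` divides 2
  have h1 : IsIntegral ℚ a := Algebra.IsIntegral.isIntegral a
  have hdvd : (minpoly ℚ a).natDegree ∣ 2 := by
    rw [← h2]
    exact minpoly.degree_dvd h1
  have hirr : Irreducible (X ^ 3 - X - 1 : ℚ[X]) := by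
    have hdeg : (X ^ 3 - X - 1 : ℚ[X]).natDegree = 3 := by compute_degree!
    have hf0 : (X ^ 3 - X - 1 : ℚ[X]) ≠ 0 := by
      intro h
      rw [h, natDegree_zero] at hdeg
      omega
    refine (irreducible_iff_roots_eq_zero_of_degree_le_three (by omega) (by omega)).mpr ?_
    refine Multiset.eq_zero_of_forall_notMem fun b hb => ?_
    rw [mem_roots hf0, IsRoot.def] at hb
    refine no_root_rat b ?_
    simp only [eval_sub, eval_pow, eval_X, eval_one] at hb
    linear_combination hb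
  have hmin : (X ^ 3 - X - 1 : ℚ[X]) = minpoly ℚ a := by
    refine minpoly.eq_of_irreducible_of_monic hirr ?_ (by monicity!)
    simp only [map_sub, map_pow, aeval_X, map_one]
    linear_combination h
  have hdeg : (X ^ 3 - X - 1 : ℚ[X]).natDegree = 3 := by compute_degree!
  rw [← hmin, hdeg] at hdvd
  omega

/-- the splitting field of `x ^ 3 - x - 1` -/
theorem exists_cubic_field {K : Type} [Field K] [NumberField K] (h2 : Module.finrank ℚ K = 2)
    {δ : K} (hδ : δ ^ 2 = -23) : ∃ (L : Type) (_ : Field L) (_ : NumberField L) (_ : Algebra K L)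
      (_ : IsGalois K L) (θ : 𝓞 L), Module.finrank K L = 3 ∧ θ ^ 3 = θ + 1 ∧
        ∀ σ : L ≃ₐ[K] L, σ (θ : L) = θ → σ = 1 := by
  let f : K[X] := X ^ 3 - X - 1
  have hdeg : f.natDegree = 3 := by
    simp only [f]
    compute_degree!
  have hf0 : f ≠ 0 := by
    intro h
    rw [h, natDegree_zero] at hdeg
    omega
  have hirr : Irreducible f := by
    refine (irreducible_iff_roots_eq_zero_of_degree_le_three (by omega) (by omega)).mpr ?_
    refine Multiset.eq_zero_of_forall_notMem fun a ha => ?_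
    rw [mem_roots hf0, IsRoot.def] at ha
    refine no_root_quad h2 a ?_
    simp only [f, eval_sub, eval_pow, eval_X, eval_one] at ha
    linear_combination ha
  have hF : Fact (Irreducible f) := ⟨hirr⟩
  let L := AdjoinRoot f
  have hfin : Module.Finite K L := (AdjoinRoot.powerBasis hf0).finite
  have hE3 : Module.finrank K L = 3 := by
    rw [(AdjoinRoot.powerBasis hf0).finrank, AdjoinRoot.powerBasis_dim, hdeg]
  have hNF : NumberField L := NumberField.of_module_finite K L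
  let t : L := AdjoinRoot.root f
  have ht : t ^ 3 = t + 1 := by
    have h1 : AdjoinRoot.mk f f = 0 := AdjoinRoot.mk_self
    simp only [f, map_sub, map_pow, AdjoinRoot.mk_X, map_one] at h1
    linear_combination h1
  have hint : IsIntegral ℤ t := by
    refine ⟨X ^ 3 - X - 1, by monicity!, ?_⟩
    simp only [eval₂_sub, eval₂_pow, eval₂_X, eval₂_one]
    linear_combination ht
  -- the other roots
  obtain ⟨d, hd⟩ : ∃ d : L, d ^ 2 = -23 := ⟨algebraMap K L δ, by rw [← map_pow, hδ, map_neg, map_ofNat]⟩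
  have hkey : (3 * t ^ 2 - 1) ^ 2 * (4 - 3 * t ^ 2) = -23 := by
    linear_combination (-27 * t ^ 3 + 27 * t - 27) * ht
  have hA : 3 * t ^ 2 - 1 ≠ 0 := by
    intro h0
    rw [h0] at hkey
    norm_num at hkey
  obtain ⟨r, hr⟩ : ∃ r, r = d / (3 * t ^ 2 - 1) := ⟨_, rfl⟩
  have hr2 : r ^ 2 = 4 - 3 * t ^ 2 := by
    rw [hr, div_pow, div_eq_iff (pow_ne_zero 2 hA), hd, ← hkey]
    ring
  have hfac : f.map (algebraMap K L) =
      (X - C t) * (X - C ((-t + r) / 2)) * (X - C ((-t - r) / 2)) := by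
    have e1 : (-t + r) / 2 + (-t - r) / 2 = -t := by ring
    have e2 : (-t + r) / 2 * ((-t - r) / 2) = t ^ 2 - 1 := by
      linear_combination (-1 / 4) * hr2
    simp only [f, Polynomial.map_sub, Polynomial.map_pow, map_X, Polynomial.map_one]
    have e3 : (X - C t) * (X - C ((-t + r) / 2)) * (X - C ((-t - r) / 2)) =
        (X - C t) * (X ^ 2 - C ((-t + r) / 2 + (-t - r) / 2) * X +
          C ((-t + r) / 2 * ((-t - r) / 2))) := by
      rw [C_add, C_mul]
      ring
    rw [e3, e1, e2]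
    have e4 : (X - C t) * (X ^ 2 - C (-t) * X + C (t ^ 2 - 1)) = X ^ 3 - X - C (t ^ 3 - t) := by
      simp only [C_sub, C_neg, C_pow, C_1]
      ring
    rw [e4, ht, add_sub_cancel_left, C_1]
  have hspl : IsSplittingField K L f := by
    constructor
    · rw [hfac]
      exact ((Splits.X_sub_C _).mul (Splits.X_sub_C _)).mul (Splits.X_sub_C _)
    · rw [eq_top_iff, ← AdjoinRoot.adjoinRoot_eq_top]
      refine Algebra.adjoin_mono ?_
      rw [Set.singleton_subset_iff, mem_rootSet]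
      refine ⟨hf0, ?_⟩
      simp only [f, map_sub, map_pow, aeval_X, map_one]
      linear_combination ht
  have hgal : IsGalois K L := IsGalois.of_separable_splitting_field hirr.separable
  refine ⟨L, inferInstance, hNF, inferInstance, hgal, ⟨t, hint⟩, hE3, ?_, ?_⟩
  · apply RingOfIntegers.ext
    push_cast
    exact ht
  · intro σ hσ
    have h1 : (σ : L →ₐ[K] L) = AlgHom.id K L := AdjoinRoot.algHom_ext hσ
    ext x
    exact AlgHom.congr_fun h1 x

end field

section unr

open IsDedekindDomain NumberField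

variable {K L : Type} [Field K] [NumberField K] [Field L] [NumberField L] [Algebra K L]
  [IsGalois K L]

/-- the conjugates of `θ` -/
theorem conj_ne (hL : Module.finrank K L = 3) {θ : 𝓞 L}
    (hfix : ∀ σ : L ≃ₐ[K] L, σ (θ : L) = θ → σ = 1) {σ : L ≃ₐ[K] L} (hσ : σ ≠ 1) :
    σ • θ ≠ θ ∧ σ • (σ • θ) ≠ θ ∧ σ • (σ • θ) ≠ σ • θ := by
  have hcoe : ∀ (τ : L ≃ₐ[K] L) (x : 𝓞 L), ((τ • x : 𝓞 L) : L) = τ (x : L) := fun τ x => rfl
  have h1 : ∀ τ : L ≃ₐ[K] L, τ • θ = θ → τ = 1 := fun τ h => hfix τ (by rw [← hcoe, h])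
  have hcard : Nat.card (L ≃ₐ[K] L) = 3 := by rw [IsGalois.card_aut_eq_finrank, hL]
  refine ⟨fun h => hσ (h1 σ h), fun h => ?_, fun h => hσ (h1 σ (smul_left_cancel σ h))⟩
  rw [smul_smul] at h
  have h2 := h1 _ h
  have h3 : σ ^ 3 = 1 := by rw [← hcard]; exact pow_card_eq_one'
  apply hσ
  rw [pow_succ, pow_two, h2, one_mul] at h3
  exact h3

theorem cubic_unramified (hL : Module.finrank K L = 3) {θ : 𝓞 L} (hθ : θ ^ 3 = θ + 1)
    (hfix : ∀ σ : L ≃ₐ[K] L, σ (θ : L) = θ → σ = 1) (w : HeightOneSpectrum (𝓞 L)) :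
    (w.under (𝓞 K)).asIdeal.ramificationIdx' w.asIdeal = 1 := by
  have h1 := Ideal.card_inertia_eq_ramificationIdxIn (G := Gal(L/K)) (w.under (𝓞 K)).asIdeal
    w.asIdeal
  rw [Ideal.ramificationIdxIn_eq_ramificationIdx (w.under (𝓞 K)).asIdeal w.asIdeal Gal(L/K),
    ← Ideal.ramificationIdx'_eq_ramificationIdx _ w.asIdeal (w.under (𝓞 K)).ne_bot] at h1
  rw [← h1]
  rw [Subgroup.card_eq_one, Subgroup.eq_bot_iff_forall]
  intro σ hσ
  by_contra hne
  obtain ⟨n1, n2, n3⟩ := conj_ne hL hfix hne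
  have hroot : ∀ (τ : L ≃ₐ[K] L) (x : 𝓞 L), x ^ 3 = x + 1 → (τ • x) ^ 3 = τ • x + 1 := by
    intro τ x hx
    rw [← smul_pow', hx, smul_add, smul_one]
  have r1 := hroot σ θ hθ
  have r2 := hroot σ _ r1
  obtain ⟨c1, c2⟩ := cubic_roots hθ r1 r2 n1 n2 n3
  have m1 : σ • θ - θ ∈ w.asIdeal := hσ θ
  have m2 : σ • (σ • θ) - σ • θ ∈ w.asIdeal := hσ _
  have m3 : 3 * θ ∈ w.asIdeal := by
    have : 3 * θ = -(2 * (σ • θ - θ) + (σ • (σ • θ) - σ • θ)) := by linear_combination c1
    rw [this]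
    exact neg_mem (add_mem (Ideal.mul_mem_left _ _ m1) m2)
  have m4 : 3 * θ ^ 2 - 1 ∈ w.asIdeal := by
    rw [← c2]
    refine Ideal.mul_mem_right _ _ ?_
    rw [← neg_sub]
    exact neg_mem m1
  have m5 : (1 : 𝓞 L) ∈ w.asIdeal := by
    have : (1 : 𝓞 L) = θ * (3 * θ) - (3 * θ ^ 2 - 1) := by ring
    rw [this]
    exact sub_mem (Ideal.mul_mem_left _ _ m3) m4
  exact w.isPrime.ne_top ((Ideal.eq_top_iff_one _).mpr m5)

/-- the places of norm `p ≠ 23`: residue degree 1 if and only if `x ^ 3 - x - 1` has a root modulo `p` -/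
theorem cubic_inertiaDeg (hL : Module.finrank K L = 3) {θ : 𝓞 L} (hθ : θ ^ 3 = θ + 1)
    (hfix : ∀ σ : L ≃ₐ[K] L, σ (θ : L) = θ → σ = 1) (w : HeightOneSpectrum (𝓞 L)) {p : ℕ}
    (hp : p.Prime) (h23 : p ≠ 23) (hv : Ideal.absNorm (w.under (𝓞 K)).asIdeal = p) :
    (w.under (𝓞 K)).asIdeal.inertiaDeg' w.asIdeal = 1 ↔ ∃ a : ZMod p, a ^ 3 = a + 1 := by
  have hpow := CFTP.absNorm_eq_pow_fdeg (K := K) w
  rw [hv] at hpow
  have hf : (w.under (𝓞 K)).asIdeal.inertiaDeg' w.asIdeal = 1 ↔ Ideal.absNorm w.asIdeal = p := by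
    change LT.NV.fdeg K w = 1 ↔ _
    rw [hpow]
    constructor
    · intro h
      rw [h, pow_one]
    · intro h
      exact Nat.pow_right_injective hp.two_le (show p ^ _ = p ^ 1 by rw [h, pow_one])
  rw [hf]
  constructor
  · intro h
    have : Finite (𝓞 L ⧸ w.asIdeal) := Nat.finite_of_card_ne_zero (by
      have h1 : Nat.card (𝓞 L ⧸ w.asIdeal) = p := by
        rw [← h, Ideal.absNorm_apply, Submodule.cardQuot_apply]
      rw [h1]
      exact hp.ne_zero)
    have : Fintype (𝓞 L ⧸ w.asIdeal) := Fintype.ofFinite _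
    have hcard : Fintype.card (𝓞 L ⧸ w.asIdeal) = p := by
      rw [← Nat.card_eq_fintype_card, ← h, Ideal.absNorm_apply, Submodule.cardQuot_apply]
    let e := ZMod.ringEquivOfPrime (𝓞 L ⧸ w.asIdeal) hp hcard
    refine ⟨e.symm (Ideal.Quotient.mk _ θ), ?_⟩
    rw [← map_pow, ← map_pow, hθ, map_add, map_add, map_one, map_one]
  · rintro ⟨a, ha⟩
    have : Fact p.Prime := ⟨hp⟩
    have hpw : (p : 𝓞 L) ∈ w.asIdeal := by
      have h1 := Ideal.absNorm_mem w.asIdeal
      rw [hpow, Nat.cast_pow] at h1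
      exact w.isPrime.mem_of_pow_mem _ h1
    have hcast : ∀ z : ℤ, (z : ZMod p) = 0 → (z : 𝓞 L) ∈ w.asIdeal := by
      intro z hz
      obtain ⟨c, rfl⟩ := (ZMod.intCast_zmod_eq_zero_iff_dvd _ _).mp hz
      push_cast
      exact Ideal.mul_mem_right _ _ hpw
    obtain ⟨m, rfl⟩ : ∃ m : ℤ, (m : ZMod p) = a := ⟨(a.val : ℤ), by simp⟩
    have hm : (m : 𝓞 L) ^ 3 - m - 1 ∈ w.asIdeal := by
      have h1 := hcast (m ^ 3 - m - 1) (by push_cast; linear_combination ha)
      push_cast at h1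
      exact h1
    have hmp : (m : 𝓞 L) ^ p - m ∈ w.asIdeal := by
      have h1 := hcast (m ^ p - m) (by push_cast; rw [ZMod.pow_card, sub_self])
      push_cast at h1
      exact h1
    obtain ⟨τ, hτ⟩ := ChebK.exists_isArithFrobAt (K := K) w
    have hτ1 : τ = 1 := by
      by_contra hne
      obtain ⟨n1, n2, n3⟩ := conj_ne hL hfix hne
      have hroot : ∀ (τ : L ≃ₐ[K] L) (x : 𝓞 L), x ^ 3 = x + 1 → (τ • x) ^ 3 = τ • x + 1 := by
        intro τ x hx
        rw [← smul_pow', hx, smul_add, smul_one]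
      have r1 := hroot τ θ hθ
      have r2 := hroot τ _ r1
      obtain ⟨c1, c2⟩ := cubic_roots hθ r1 r2 n1 n2 n3
      -- a root which is congruent to `m`
      obtain ⟨s, hs, hsm, s1, s2, s3⟩ : ∃ s : 𝓞 L, s ^ 3 = s + 1 ∧ (m : 𝓞 L) - s ∈ w.asIdeal ∧
          τ • s ≠ s ∧ τ • (τ • s) ≠ s ∧ τ • (τ • s) ≠ τ • s := by
        have hprod : ((m : 𝓞 L) - θ) * (((m : 𝓞 L) - τ • θ) * ((m : 𝓞 L) - τ • (τ • θ))) ∈
            w.asIdeal := by
          have h1 : ((m : 𝓞 L) - θ) * (((m : 𝓞 L) - τ • θ) * ((m : 𝓞 L) - τ • (τ • θ))) =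
              (m : 𝓞 L) ^ 3 - m - 1 := by
            linear_combination (-(m : 𝓞 L) ^ 2 + 2 * (m : 𝓞 L) * θ - θ ^ 2) * c1 +
              ((m : 𝓞 L) - θ) * c2 - hθ
          rw [h1]
          exact hm
        have hτ3 : τ • (τ • (τ • θ)) = θ := by
          have hcard : Nat.card (L ≃ₐ[K] L) = 3 := by rw [IsGalois.card_aut_eq_finrank, hL]
          have h3 : τ ^ 3 = 1 := by rw [← hcard]; exact pow_card_eq_one'
          rw [smul_smul, smul_smul, ← pow_two, ← pow_succ, h3, one_smul]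
        rcases w.isPrime.mem_or_mem hprod with h1 | h1
        · exact ⟨θ, hθ, h1, n1, n2, n3⟩
        · rcases w.isPrime.mem_or_mem h1 with h2 | h2
          · exact ⟨τ • θ, r1, h2, n3, by rw [hτ3]; exact n1.symm, by rw [hτ3]; exact n2.symm⟩
          · refine ⟨τ • (τ • θ), r2, h2, ?_, ?_, ?_⟩
            · rw [hτ3]; exact n2.symm
            · rw [hτ3]; exact n3.symm
            · rw [hτ3]; exact n1
      have hcong : τ • s - s ∈ w.asIdeal := by
        have h1 : τ • s - s ^ p ∈ w.asIdeal := by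
          have h2 := hτ s
          rw [ChebK.card_under, hv] at h2
          exact h2
        have h3 : (m : 𝓞 L) ^ p - s ^ p ∈ w.asIdeal :=
          Ideal.mem_of_dvd _ (sub_dvd_pow_sub_pow _ _ p) hsm
        have h4 : τ • s - s = (τ • s - s ^ p) - ((m : 𝓞 L) ^ p - s ^ p) +
            ((m : 𝓞 L) ^ p - m) + ((m : 𝓞 L) - s) := by ring
        rw [h4]
        exact add_mem (add_mem (sub_mem h1 h3) hmp) hsm
      have q1 := hroot τ s hs
      have q2 := hroot τ _ q1
      obtain ⟨-, d2⟩ := cubic_roots hs q1 q2 s1 s2 s3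
      have h5 : 3 * s ^ 2 - 1 ∈ w.asIdeal := by
        rw [← d2]
        refine Ideal.mul_mem_right _ _ ?_
        rw [← neg_sub]
        exact neg_mem hcong
      have h6 : ((23 : ℕ) : 𝓞 L) ∈ w.asIdeal := by
        have h7 : ((23 : ℕ) : 𝓞 L) = (4 + 9 * s - 6 * s ^ 2) * (3 * s ^ 2 - 1) := by
          push_cast
          linear_combination (18 * s - 27) * hs
        rw [h7]
        exact Ideal.mul_mem_left _ _ h5
      have h8 : Nat.Coprime p 23 := (Nat.coprime_primes hp (by norm_num)).mpr h23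
      obtain ⟨x, y, hxy⟩ := Nat.isCoprime_iff_coprime.mpr h8
      have h9 : (1 : 𝓞 L) ∈ w.asIdeal := by
        have h10 := congrArg (Int.cast : ℤ → 𝓞 L) hxy
        push_cast at h10 h6
        rw [← h10]
        exact add_mem (Ideal.mul_mem_left _ _ hpw) (Ideal.mul_mem_left _ _ h6)
      exact w.isPrime.ne_top ((Ideal.eq_top_iff_one _).mpr h9)
    rw [hτ1, ChebK.isArithFrobAt_one_iff, hv] at hτ
    exact hτ

end unr

end Fermat.Agent.Cor.Tau
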