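import Fermat.Agent.Corollaries.Tau.WiltonPow
import Fermat.Agent.Corollaries.Diri.FormRep
import Fermat.Agent.Corollaries.Tau.CubicField
import Fermat.Agent.Corollaries.Bin.Table

/-!
# The cubic `x ^ 3 - x - 1` and Ramanujan's function (van der Blij, Serre)

* `cubic_splits_iff`: `x ^ 3 - x - 1` has a root (three roots) modulo a prime `p ≠ 23` which is a square
  modulo 23 if and only if `p = x ^ 2 + 23 y ^ 2`;
* `tau_add_one_eq`: `τ(p) + 1 ≡ #{a mod p : a ^ 3 = a + 1}` modulo 23 for every prime `p ≠ 23`.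
-/

set_option autoImplicit false

noncomputable section

namespace Fermat.Agent.Cor.Tau

open IsDedekindDomain NumberField Ray Diri

/-! ### Ideals and forms -/

section form

variable {K : Type} [Field K] [NumberField K]

/-- `n` is represented by `f` if and only if there is an ideal of norm `n` in the inverse class. -/
theorem rep_iff (F : Frame K) (hd : discr K < 0) {f : BForm} (hf : f.disc = discr K) (ha : 0 < f.a)
    {n : ℕ} (hn : n ≠ 0) : (∃ x y : ℤ, f.val x y = n) ↔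
      ∃ I : Ideal (𝓞 K), Ideal.absNorm I = n ∧ Submodule.IsPrincipal (I * F.idl hf) := by
  obtain ⟨e1⟩ := F.exists_equiv_val hd hf ha n
  obtain ⟨e2⟩ := exists_equiv_elements (F.idl_ne_bot hf ha.ne') hn
  let e := e1.trans e2
  constructor
  · rintro ⟨x, y, hv⟩
    exact ⟨(e ⟨(x, y), hv⟩).1.1, (e ⟨(x, y), hv⟩).1.2⟩
  · rintro ⟨I, hI⟩
    exact ⟨(e.symm (⟨I, hI⟩, 1)).1.1, (e.symm (⟨I, hI⟩, 1)).1.2, (e.symm (⟨I, hI⟩, 1)).2⟩

theorem idl_eq_top (F : Frame K) {f : BForm} (hf : f.disc = discr K) (ha : f.a = 1) :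
    F.idl hf = ⊤ := by
  rw [Ideal.eq_top_iff_one, Frame.idl]
  refine Ideal.subset_span ?_
  left
  rw [ha, Int.cast_one]

/-- a place of norm `p` -/
theorem exists_place_of_ideal {p : ℕ} (hp : p.Prime) {I : Ideal (𝓞 K)} (hI : Ideal.absNorm I = p) :
    ∃ v : HeightOneSpectrum (𝓞 K), v.asIdeal = I := by
  have h1 : I.IsPrime := Ideal.isPrime_of_irreducible_absNorm (by rw [hI]; exact hp)
  refine ⟨⟨I, h1, ?_⟩, rfl⟩
  rintro rfl
  rw [Ideal.absNorm_bot] at hI
  exact hp.ne_zero hI.symm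

/-- a place of norm `p` is principal if and only if `p` is a value of the principal form; here
`p` is a value if there is one -/
theorem rep_of_isPrincipal (F : Frame K) (hd : discr K = -23) {p : ℕ} (hp : p.Prime)
    {I : Ideal (𝓞 K)} (hI : Ideal.absNorm I = p) (h : I.IsPrincipal) :
    ∃ x y : ℤ, (p : ℤ) = x ^ 2 + x * y + 6 * y ^ 2 := by
  have hf : (⟨1, 1, 6⟩ : BForm).disc = discr K := by rw [hd]; rfl
  obtain ⟨x, y, h1⟩ := (rep_iff F (by rw [hd]; norm_num) hf one_pos hp.ne_zero).mpr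
    ⟨I, hI, by rw [idl_eq_top F hf rfl, Ideal.mul_top]; exact h⟩
  refine ⟨x, y, ?_⟩
  rw [← h1, BForm.val]
  ring

theorem exists_isPrincipal (F : Frame K) (hd : discr K = -23) {p : ℕ} (hp : p.Prime)
    {x y : ℤ} (h : (p : ℤ) = x ^ 2 + x * y + 6 * y ^ 2) :
    ∃ I : Ideal (𝓞 K), Ideal.absNorm I = p ∧ I.IsPrincipal := by
  have hf : (⟨1, 1, 6⟩ : BForm).disc = discr K := by rw [hd]; rfl
  obtain ⟨I, hI, h1⟩ := (rep_iff F (by rw [hd]; norm_num) hf one_pos hp.ne_zero).mp
    ⟨x, y, by rw [h, BForm.val]; ring⟩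
  rw [idl_eq_top F hf rfl, Ideal.mul_top] at h1
  exact ⟨I, hI, h1⟩

theorem exists_ideal (F : Frame K) (hd : discr K = -23) {p : ℕ} (hp : p.Prime) (h2 : p ≠ 2)
    (h23 : p ≠ 23) (hsq : IsSquare (p : ZMod 23)) :
    ∃ I : Ideal (𝓞 K), Ideal.absNorm I = p := by
  rcases exists_form hp h2 h23 hsq with ⟨x, y, h⟩ | ⟨x, y, h⟩
  · obtain ⟨I, hI, -⟩ := exists_isPrincipal F hd hp h
    exact ⟨I, hI⟩
  · have hf : (⟨2, 1, 3⟩ : BForm).disc = discr K := by rw [hd]; rfl
    obtain ⟨I, hI, h1⟩ := (rep_iff F (by rw [hd]; norm_num) hf two_pos hp.ne_zero).mp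
      ⟨x, y, by rw [h, BForm.val]; ring⟩
    exact ⟨I, hI⟩

end form

/-! ### The class field -/

/-- in an unramified Galois extension of degree 3 the places of residue degree 1 are those above the
principal places -/
theorem inertiaDeg_eq_one_iff_isPrincipal {K L : Type} [Field K] [NumberField K] [Field L]
    [NumberField L] [Algebra K L] [IsGalois K L] (h3 : classNumber K = 3)
    (hL : Module.finrank K L = 3) (hunr : ∀ w : HeightOneSpectrum (𝓞 L),
      (w.under (𝓞 K)).asIdeal.ramificationIdx' w.asIdeal = 1) (w : HeightOneSpectrum (𝓞 L)) :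
    (w.under (𝓞 K)).asIdeal.inertiaDeg' w.asIdeal = 1 ↔ (w.under (𝓞 K)).asIdeal.IsPrincipal := by
  have : Fact (Nat.Prime 3) := ⟨by norm_num⟩
  obtain ⟨n, η, hη, ⟨v, -, hv⟩, hiff⟩ := CFTP.exists_ray_of_field (p := 3) (L := L)
    (Or.inl (by norm_num)) hL (S := ∅) fun w _ => hunr w
  obtain ⟨χ, hχ⟩ := CFTP.exists_char_of_isRay hη
  have hne : χ (CFTP.cl v) ≠ 1 := by
    rw [hχ, Ne, ofAdd_eq_one]
    exact hv
  have hcard : Nat.card (ClassGroup (𝓞 K)) = 3 := by
    rw [Nat.card_eq_fintype_card]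
    exact h3
  have hker : χ.ker = ⊥ := by
    have : Fact (Nat.card (ClassGroup (𝓞 K))).Prime := ⟨by rw [hcard]; norm_num⟩
    rcases χ.ker.eq_bot_or_eq_top_of_prime_card with h | h
    · exact h
    · exfalso
      apply hne
      have h1 : CFTP.cl v ∈ χ.ker := by rw [h]; exact Subgroup.mem_top _
      exact h1
  rw [hiff w (Finset.notMem_empty _), ← ofAdd_eq_one, ← hχ]
  have h1 : χ (CFTP.cl (w.under (𝓞 K))) = 1 ↔ CFTP.cl (w.under (𝓞 K)) = 1 := by
    rw [← MonoidHom.mem_ker, hker, Subgroup.mem_bot]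
  rw [h1, CFTP.cl, ClassGroup.mk0_eq_one_iff]

/-! ### The theorems -/

/-- a prime `p ≠ 23` which is a square modulo 23: `x ^ 3 - x - 1` has a root modulo `p` if and only if
`p = x ^ 2 + 23 y ^ 2` -/
theorem cubic_root_iff {p : ℕ} (hp : p.Prime) (h23 : p ≠ 23) (hsq : IsSquare (p : ZMod 23)) :
    (∃ a : ZMod p, a ^ 3 = a + 1) ↔ ∃ x y : ℤ, (p : ℤ) = x ^ 2 + 23 * y ^ 2 := by
  rcases eq_or_ne p 2 with rfl | h2
  · constructor
    · rintro ⟨a, ha⟩
      exact absurd ha (no_root_two a)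
    · rintro ⟨x, y, h⟩
      exfalso
      have h1 : y = 0 := by
        by_contra hy
        have : 0 < y ^ 2 := by positivity
        push_cast at h
        nlinarith [sq_nonneg x]
      subst h1
      have h3 : x ^ 2 = 2 := by push_cast at h; linarith
      have h4 : -2 < x := by nlinarith
      have h5 : x < 2 := by nlinarith
      interval_cases x <;> omega
  have hodd := Nat.odd_iff.mp (hp.odd_of_ne_two h2)
  have hm : Squarefree (-23 : ℤ) := by
    rw [← Int.squarefree_natAbs]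
    exact (Nat.prime_iff.mp (show Nat.Prime 23 by norm_num)).squarefree
  obtain ⟨K, _, _, δ, hK, hδ, hdisc⟩ := exists_quadratic_field hm (by norm_num)
  have hδ' : δ ^ 2 = -23 := by rw [hδ]; push_cast; rfl
  have hd : discr K = -23 := by rw [hdisc]; norm_num
  obtain ⟨F⟩ := exists_frame hK
  have h3 : classNumber K = 3 := Bin.classNumber_sqrt_neg_twenty_three hK hδ'
  obtain ⟨L, _, _, _, _, θ, hL, hθ, hfix⟩ := exists_cubic_field hK hδ'
  have hunr := cubic_unramified (K := K) hL hθ hfix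
  rw [← form_one_iff (by omega)]
  constructor
  · intro ha
    obtain ⟨I, hI⟩ := exists_ideal F hd hp h2 h23 hsq
    obtain ⟨v, rfl⟩ := exists_place_of_ideal hp hI
    obtain ⟨w, rfl⟩ := ChebK.exists_above (L := L) v
    have h1 := (cubic_inertiaDeg hL hθ hfix w hp h23 hI).mpr ha
    exact rep_of_isPrincipal F hd hp hI
      ((inertiaDeg_eq_one_iff_isPrincipal h3 hL hunr w).mp h1)
  · rintro ⟨x, y, hxy⟩
    obtain ⟨I, hI, hpr⟩ := exists_isPrincipal F hd hp hxy
    obtain ⟨v, rfl⟩ := exists_place_of_ideal hp hI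
    obtain ⟨w, rfl⟩ := ChebK.exists_above (L := L) v
    exact (cubic_inertiaDeg hL hθ hfix w hp h23 hI).mp
      ((inertiaDeg_eq_one_iff_isPrincipal h3 hL hunr w).mpr hpr)

/-- **`x ^ 3 - x - 1` splits modulo a prime `p ≠ 23` if and only if `p = x ^ 2 + 23 y ^ 2`.** -/
theorem cubic_splits_iff {p : ℕ} (hp : p.Prime) (h23 : p ≠ 23) :
    Nat.card {a : ZMod p // a ^ 3 = a + 1} = 3 ↔ ∃ x y : ℤ, (p : ℤ) = x ^ 2 + 23 * y ^ 2 := by
  have : Fact p.Prime := ⟨hp⟩
  obtain ⟨c1, c2⟩ := card_roots (p := p) h23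
  constructor
  · intro h
    have hsq : IsSquare (p : ZMod 23) := by
      by_contra hn
      rw [c1 hn] at h
      omega
    rw [← cubic_root_iff hp h23 hsq]
    by_contra hne
    have h1 : IsEmpty {a : ZMod p // a ^ 3 = a + 1} := ⟨fun a => hne ⟨a.1, a.2⟩⟩
    rw [Nat.card_of_isEmpty] at h
    omega
  · intro h
    obtain ⟨x, y, hxy⟩ := h
    have hsq := isSquare_of_form hxy
    exact c2 hsq ((cubic_root_iff hp h23 hsq).mpr ⟨x, y, hxy⟩)

/-- **`τ(p) + 1` is congruent modulo 23 to the number of the roots of `x ^ 3 - x - 1` modulo `p`**, for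
every prime `p ≠ 23`. -/
theorem tau_add_one_eq {p : ℕ} (hp : p.Prime) (h23 : p ≠ 23) :
    ((tau p + 1 : ℤ) : ZMod 23) = (Nat.card {a : ZMod p // a ^ 3 = a + 1} : ℕ) := by
  have : Fact p.Prime := ⟨hp⟩
  obtain ⟨c1, c2⟩ := card_roots (p := p) h23
  obtain ⟨w1, w2, w3⟩ := wilton hp h23
  rw [Int.cast_add, Int.cast_one]
  rcases wilton_cases hp h23 with h | h | h
  · rw [w1.mpr h, c1 h]
    norm_num
  · rw [w2.mpr h, (cubic_splits_iff hp h23).mpr h]
    norm_num
  · have h0 := w3.mpr h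
    have hsq : IsSquare (p : ZMod 23) := by
      by_contra hn
      have h1 := w1.mpr hn
      rw [h0] at h1
      exact absurd h1 (by decide)
    have h1 : IsEmpty {a : ZMod p // a ^ 3 = a + 1} := ⟨fun a => by
      have h2 := w2.mpr ((cubic_root_iff hp h23 hsq).mp ⟨a.1, a.2⟩)
      rw [h0] at h2
      exact absurd h2 (by decide)⟩
    rw [h0, Nat.card_of_isEmpty]
    norm_num

end Fermat.Agent.Cor.Tau
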