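import Fermat.Agent.Corollaries.Tau.Wilton

/-!
# The number of roots of `x ^ 3 - x - 1` modulo `p`

`p` a prime, `p ≠ 23`: one root if `p` is not a square modulo 23 (Stickelberger's argument), three roots
or no root if `p` is a square modulo 23.
-/

set_option autoImplicit false

noncomputable section

namespace Fermat.Agent.Cor.Tau

open Polynomial

/-- three distinct roots -/
theorem cubic_roots {R : Type*} [CommRing R] [IsDomain R] {t t1 t2 : R} (h : t ^ 3 = t + 1)
    (h1 : t1 ^ 3 = t1 + 1) (h2 : t2 ^ 3 = t2 + 1) (hne1 : t1 ≠ t) (hne2 : t2 ≠ t)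
    (hne : t2 ≠ t1) : t + t1 + t2 = 0 ∧ (t - t1) * (t - t2) = 3 * t ^ 2 - 1 := by
  have e1 : t ^ 2 + t * t1 + t1 ^ 2 = 1 := by
    refine mul_left_cancel₀ (sub_ne_zero.mpr hne1) ?_
    linear_combination h1 - h
  have e2 : t ^ 2 + t * t2 + t2 ^ 2 = 1 := by
    refine mul_left_cancel₀ (sub_ne_zero.mpr hne2) ?_
    linear_combination h2 - h
  have e3 : t + t1 + t2 = 0 := by
    refine mul_left_cancel₀ (sub_ne_zero.mpr hne) ?_
    linear_combination e2 - e1
  refine ⟨e3, ?_⟩
  obtain rfl : t2 = -t - t1 := by linear_combination e3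
  linear_combination -e1

theorem no_root_two : ∀ a : ZMod 2, ¬ a ^ 3 = a + 1 := by decide

section count

variable {p : ℕ} [hp : Fact p.Prime]

/-- the other two roots -/
theorem other_roots {F : Type*} [Field F] {a x : F} (ha : a ^ 3 = a + 1) :
    x ^ 3 = x + 1 ↔ x = a ∨ x ^ 2 + a * x + a ^ 2 - 1 = 0 := by
  have h1 : x ^ 3 = x + 1 ↔ (x - a) * (x ^ 2 + a * x + a ^ 2 - 1) = 0 := by
    constructor
    · intro h
      linear_combination h - ha
    · intro h
      linear_combination h + ha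
  rw [h1, mul_eq_zero, sub_eq_zero]

theorem mem_of_pow {E : Type*} [Field E] [CharP E p] (φ : ZMod p →+* E) {x : E}
    (hx : x ^ p = x) : ∃ a, φ a = x := by
  have h := (Subfield.mem_bot_iff_pow_eq_self E p).mpr hx
  rw [← ZMod.fieldRange_castHom_eq_bot p] at h
  obtain ⟨a, ha⟩ := h
  exact ⟨a, by rw [Subsingleton.elim φ (ZMod.castHom dvd_rfl E)]; exact ha⟩

/-- if `-23` is not a square modulo `p` then there is a root -/
theorem exists_root (hns : ¬ IsSquare (-23 : ZMod p)) : ∃ a : ZMod p, a ^ 3 = a + 1 := by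
  by_contra hno
  push Not at hno
  let f : (ZMod p)[X] := X ^ 3 - X - 1
  have hdeg : f.natDegree = 3 := by
    simp only [f]
    compute_degree!
  have hf0 : f ≠ 0 := by
    intro h
    rw [h, natDegree_zero] at hdeg
    omega
  have hirr : Irreducible f := by
    refine (irreducible_iff_roots_eq_zero_of_degree_le_three (by omega) (by omega)).mpr ?_
    refine Multiset.eq_zero_of_forall_notMem fun a ha => ?_
    rw [mem_roots hf0, IsRoot.def] at ha
    refine hno a ?_
    simp only [f, eval_sub, eval_pow, eval_X, eval_one] at ha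
    linear_combination ha
  have hF : Fact (Irreducible f) := ⟨hirr⟩
  let E := AdjoinRoot f
  have hfin : Module.Finite (ZMod p) E := (AdjoinRoot.powerBasis hf0).finite
  have hE3 : Module.finrank (ZMod p) E = 3 := by
    rw [(AdjoinRoot.powerBasis hf0).finrank, AdjoinRoot.powerBasis_dim, hdeg]
  have : Finite E := Module.finite_of_finite (ZMod p)
  have : Fintype E := Fintype.ofFinite _
  have hchar : CharP E p := charP_of_injective_algebraMap (algebraMap (ZMod p) E).injective p
  have hcard : Fintype.card E = p ^ 3 := by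
    rw [← Nat.card_eq_fintype_card, Module.natCard_eq_pow_finrank (K := ZMod p), hE3,
      Nat.card_zmod]
  let t : E := AdjoinRoot.root f
  have ht : t ^ 3 = t + 1 := by
    have h1 : AdjoinRoot.mk f f = 0 := AdjoinRoot.mk_self
    simp only [f, map_sub, map_pow, AdjoinRoot.mk_X, map_one] at h1
    linear_combination h1
  have hroot : ∀ x : E, x ^ 3 = x + 1 → (x ^ p) ^ 3 = x ^ p + 1 := by
    intro x hx
    rw [← pow_mul, mul_comm, pow_mul, hx, add_pow_char, one_pow]
  obtain ⟨t1, h1⟩ : ∃ t1, t1 = t ^ p := ⟨_, rfl⟩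
  obtain ⟨t2, h2⟩ : ∃ t2, t2 = t1 ^ p := ⟨_, rfl⟩
  have h3 : t2 ^ p = t := by
    rw [h2, h1, ← pow_mul, ← pow_mul, show p * (p * p) = p ^ 3 by ring, ← hcard]
    exact FiniteField.pow_card t
  have r1 : t1 ^ 3 = t1 + 1 := by rw [h1]; exact hroot t ht
  have r2 : t2 ^ 3 = t2 + 1 := by rw [h2]; exact hroot t1 r1
  have n1 : t1 ≠ t := by
    intro h
    obtain ⟨a, ha⟩ := mem_of_pow (algebraMap (ZMod p) E) (h1.symm.trans h)
    refine hno a ((algebraMap (ZMod p) E).injective ?_)
    rw [map_pow, map_add, map_one, ha, ht]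
  have n2 : t2 ≠ t := by
    intro h
    apply n1
    rw [h1, ← h, h3, h]
  have n3 : t2 ≠ t1 := by
    intro h
    apply n1
    have h4 : t2 ^ p = t1 ^ p := by rw [h]
    rw [h3, ← h2, h] at h4
    exact h4.symm
  obtain ⟨c1, c2⟩ := cubic_roots ht r1 r2 n1 n2 n3
  have hδ : ((t - t1) * (t - t2) * (t1 - t2)) ^ p = (t - t1) * (t - t2) * (t1 - t2) := by
    rw [mul_pow, mul_pow, sub_pow_char, sub_pow_char, sub_pow_char, h3, ← h2, ← h1]
    ring
  obtain ⟨d, hd⟩ := mem_of_pow (algebraMap (ZMod p) E) hδ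
  apply hns
  refine ⟨d, (algebraMap (ZMod p) E).injective ?_⟩
  rw [map_mul, hd, map_neg, map_ofNat, c2]
  obtain rfl : t2 = -t - t1 := by linear_combination c1
  have q : (t1 - (-t - t1)) ^ 2 = 4 - 3 * t ^ 2 := by linear_combination (-4) * c2
  linear_combination (27 * t ^ 3 - 27 * t + 27) * ht - (3 * t ^ 2 - 1) ^ 2 * q

theorem legendreSym_neg_twenty_three (h2 : p ≠ 2) :
    legendreSym p (-23) = legendreSym 23 p := by
  have hpp : p.Prime := Fact.out
  have hq := legendreSym.quadratic_reciprocity' (p := p) (q := 23) h2 (by norm_num)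
  have hodd : p % 2 = 1 := Nat.odd_iff.mp (hpp.odd_of_ne_two h2)
  rw [show (-23 : ℤ) = (-1) * 23 by norm_num, legendreSym.mul, legendreSym.at_neg_one h2,
    ZMod.χ₄_eq_neg_one_pow hodd]
  rw [pow_mul] at hq
  have hq' : legendreSym 23 p = ((-1) ^ (p / 2)) ^ 11 * legendreSym p 23 := hq
  rcases neg_one_pow_eq_or ℤ (p / 2) with h | h
  · rw [h] at hq' ⊢
    linarith
  · rw [h] at hq' ⊢
    linarith

theorem isSquare_neg_iff (h2 : p ≠ 2) (h23 : p ≠ 23) :
    IsSquare (-23 : ZMod p) ↔ IsSquare (p : ZMod 23) := by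
  have hpp : p.Prime := Fact.out
  have hp0 : ((p : ℤ) : ZMod 23) ≠ 0 := by
    intro h
    rw [Int.cast_natCast, ZMod.natCast_eq_zero_iff] at h
    exact h23 ((Nat.prime_dvd_prime_iff_eq (by norm_num) hpp).mp h).symm
  have hn0 : ((-23 : ℤ) : ZMod p) ≠ 0 := by
    intro h
    rw [ZMod.intCast_zmod_eq_zero_iff_dvd, Int.dvd_neg] at h
    have h' : p ∣ 23 := by exact_mod_cast h
    exact h23 ((Nat.prime_dvd_prime_iff_eq hpp (by norm_num)).mp h')
  have h3 := (legendreSym.eq_one_iff p hn0)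
  have h4 := (legendreSym.eq_one_iff 23 hp0)
  rw [legendreSym_neg_twenty_three h2, h4] at h3
  have h5 : ((-23 : ℤ) : ZMod p) = -23 := by push_cast; rfl
  rw [h5, Int.cast_natCast] at h3
  exact h3.symm

/-- **The number of roots of `x ^ 3 - x - 1` modulo `p`** -/
theorem card_roots (h23 : p ≠ 23) :
    (¬ IsSquare (p : ZMod 23) → Nat.card {a : ZMod p // a ^ 3 = a + 1} = 1) ∧
    (IsSquare (p : ZMod 23) → (∃ a : ZMod p, a ^ 3 = a + 1) →
      Nat.card {a : ZMod p // a ^ 3 = a + 1} = 3) := by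
  have hpp : p.Prime := Fact.out
  rcases eq_or_ne p 2 with rfl | h2
  · constructor
    · intro h
      exact absurd ⟨5, by decide⟩ h
    · rintro - ⟨a, ha⟩
      exact absurd ha (no_root_two a)
  have hkey : ∀ a : ZMod p, a ^ 3 = a + 1 → (3 * a ^ 2 - 1) ^ 2 * (4 - 3 * a ^ 2) = -23 := by
    intro a ha
    linear_combination (-27 * a ^ 3 + 27 * a - 27) * ha
  constructor
  · intro h
    have hns : ¬ IsSquare (-23 : ZMod p) := (isSquare_neg_iff h2 h23).not.mpr h
    obtain ⟨a, ha⟩ := exists_root hns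
    rw [Nat.card_eq_one_iff_unique]
    refine ⟨⟨?_⟩, ⟨⟨a, ha⟩⟩⟩
    have huniq : ∀ b : ZMod p, b ^ 3 = b + 1 → b = a := by
      intro b hb
      rcases (other_roots ha).mp hb with h1 | h1
      · exact h1
      · exfalso
        apply hns
        refine ⟨(3 * a ^ 2 - 1) * (2 * b + a), ?_⟩
        rw [← hkey a ha]
        linear_combination (-4) * (3 * a ^ 2 - 1) ^ 2 * h1
    rintro ⟨b, hb⟩ ⟨c, hc⟩
    exact Subtype.ext ((huniq b hb).trans (huniq c hc).symm)
  · rintro h ⟨a, ha⟩
    obtain ⟨s, hs⟩ := (isSquare_neg_iff h2 h23).mpr h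
    have hn0 : (-23 : ZMod p) ≠ 0 := by
      intro h
      have h5 : ((-23 : ℤ) : ZMod p) = 0 := by push_cast; exact h
      rw [ZMod.intCast_zmod_eq_zero_iff_dvd, Int.dvd_neg] at h5
      have h' : p ∣ 23 := by exact_mod_cast h5
      exact h23 ((Nat.prime_dvd_prime_iff_eq hpp (by norm_num)).mp h')
    have h20 : (2 : ZMod p) ≠ 0 := by
      intro h
      have h5 : ((2 : ℕ) : ZMod p) = 0 := by exact_mod_cast h
      rw [ZMod.natCast_eq_zero_iff] at h5
      exact h2 ((Nat.prime_dvd_prime_iff_eq hpp Nat.prime_two).mp h5)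
    have hk := hkey a ha
    have hA : 3 * a ^ 2 - 1 ≠ 0 := by
      intro h0
      rw [h0] at hk
      apply hn0
      rw [← hk]
      ring
    have hB : 4 - 3 * a ^ 2 ≠ 0 := by
      intro h0
      rw [h0] at hk
      apply hn0
      rw [← hk]
      ring
    obtain ⟨r, hr⟩ : ∃ r, r = s / (3 * a ^ 2 - 1) := ⟨_, rfl⟩
    have hr2 : r ^ 2 = 4 - 3 * a ^ 2 := by
      rw [hr, div_pow, div_eq_iff (pow_ne_zero 2 hA), pow_two s, ← hs, ← hk]
      ring
    have hr0 : r ≠ 0 := by
      rintro rfl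
      apply hB
      rw [← hr2]
      ring
    obtain ⟨b, hb⟩ : ∃ b, b = (-a + r) / 2 := ⟨_, rfl⟩
    obtain ⟨c, hc⟩ : ∃ c, c = (-a - r) / 2 := ⟨_, rfl⟩
    have hb' : 2 * b = -a + r := by rw [hb]; field_simp
    have hc' : 2 * c = -a - r := by rw [hc]; field_simp
    have hq : ∀ x : ZMod p, x ^ 2 + a * x + a ^ 2 - 1 = (x - b) * (x - c) := by
      intro x
      have h4 : (4 : ZMod p) ≠ 0 := by
        have : (4 : ZMod p) = 2 * 2 := by norm_num
        rw [this]
        exact mul_ne_zero h20 h20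
      refine mul_left_cancel₀ h4 ?_
      linear_combination (2 * x - 2 * c) * hb' + (2 * x + a - r) * hc' + hr2
    have hab : a ≠ b := by
      rintro h1
      apply hA
      have h3 := hq a
      rw [← h1] at h3
      linear_combination h3
    have hac : a ≠ c := by
      rintro h1
      apply hA
      have h3 := hq a
      rw [← h1] at h3
      linear_combination h3
    have hbc : b ≠ c := by
      intro h1
      rw [← h1] at hc'
      have h3 : 2 * r = 0 := by linear_combination hc' - hb'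
      rcases mul_eq_zero.mp h3 with h5 | h5
      · exact h20 h5
      · exact hr0 h5
    rw [Nat.card_eq_fintype_card, Fintype.card_of_subtype {a, b, c}]
    · exact Finset.card_eq_three.mpr ⟨a, b, c, hab, hac, hbc, rfl⟩
    · intro x
      rw [other_roots ha, hq, mul_eq_zero, sub_eq_zero, sub_eq_zero]
      simp

end count

end Fermat.Agent.Cor.Tau
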