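import Fermat.Agent.Corollaries.Tau.Cubic
import Fermat.Agent.Corollaries.Ray.FormTable
import Fermat.Agent.Corollaries.ZetaK.Landau

/-!
# The density of the primes with `τ(p) ≡ 0, 2, -1` modulo 23

The natural densities are `1/2`, `1/6`, `1/3`; these are also the densities of the primes modulo which
`x ^ 3 - x - 1` has one, three, no roots.
-/

set_option autoImplicit false

noncomputable section

open Filter Topology

namespace Fermat.Agent.Cor.Tau

theorem card_primes_eq (P : ℕ → Prop) [DecidablePred P] (x : ℕ) : Nat.card {p : ℕ // p ≤ x ∧ p.Prime ∧ P p} =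
    (((Finset.range (x + 1)).filter Nat.Prime).filter P).card := by
  rw [Nat.subtype_card]
  intro p
  rw [Finset.mem_filter, Finset.mem_filter, Finset.mem_range, Nat.lt_succ_iff, and_assoc]

theorem tendsto_log_div : Tendsto (fun x : ℕ => Real.log x / x) atTop (𝓝 0) := by
  have h := (Real.tendsto_pow_log_div_mul_add_atTop 1 0 1 one_ne_zero).comp
    (tendsto_natCast_atTop_atTop (R := ℝ))
  refine h.congr fun x => ?_
  simp only [Function.comp_apply, pow_one, one_mul, add_zero]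

/-- the values of `τ(p)` modulo 23 and the forms, for all primes -/
theorem tau_eq_neg_one_iff {p : ℕ} (hp : p.Prime) : ((tau p : ℤ) : ZMod 23) = -1 ↔
    ∃ u v : ℤ, 2 * u ^ 2 + u * v + 3 * v ^ 2 = p := by
  constructor
  · intro h
    have h23 : p ≠ 23 := by
      rintro rfl
      rw [tau_twenty_three] at h
      exact absurd h (by decide)
    obtain ⟨x, y, h1⟩ := (wilton hp h23).2.2.mp h
    exact ⟨x, y, h1.symm⟩
  · rintro ⟨u, v, h⟩
    exact tau_of_form_two hp h.symm

theorem tau_eq_two_iff {p : ℕ} (hp : p.Prime) : ((tau p : ℤ) : ZMod 23) = 2 ↔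
    (∃ u v : ℤ, u ^ 2 + u * v + 6 * v ^ 2 = p) ∧ p ≠ 23 := by
  constructor
  · intro h
    have h23 : p ≠ 23 := by
      rintro rfl
      rw [tau_twenty_three] at h
      exact absurd h (by decide)
    obtain ⟨x, y, h1⟩ := (wilton hp h23).2.1.mp h
    exact ⟨⟨x - y, 2 * y, by rw [h1]; ring⟩, h23⟩
  · rintro ⟨⟨u, v, h⟩, h23⟩
    rcases wilton_cases hp h23 with h1 | h1 | h1
    · exfalso
      apply h1
      refine ⟨(u : ZMod 23) + 12 * v, ?_⟩
      have h2 := congrArg (Int.cast : ℤ → ZMod 23) h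
      push_cast at h2
      rw [← h2]
      have h3 : (23 : ZMod 23) = 0 := by decide
      linear_combination (-(u : ZMod 23) * v - 6 * (v : ZMod 23) ^ 2) * h3
    · exact (wilton hp h23).2.1.mpr h1
    · rcases lt_or_ge p 5 with hlt | h5
      · exfalso
        have h7 := hp.two_le
        have hp4 : (p : ℤ) ≤ 4 := by omega
        have hp2 : (2 : ℤ) ≤ p := by omega
        have hv : v = 0 := by
          by_contra hv
          have h8 : 0 < v ^ 2 := by positivity
          nlinarith [sq_nonneg (2 * u + v)]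
        subst hv
        have h8 : u ^ 2 = p := by rw [← h]; ring
        have h9 : IsSquare (p : ℤ) := ⟨u, by rw [← h8]; ring⟩
        exact (Nat.prime_iff_prime_int.mp hp).irreducible.not_isSquare h9
      · exact tau_of_form_one hp h5 h23 h.symm

/-- **The primes with `τ(p) ≡ -1` modulo 23 have density `1/3`.** -/
theorem density_tau_neg_one : Tendsto (fun x : ℕ => (Nat.card {p : ℕ // p ≤ x ∧ p.Prime ∧
    ((tau p : ℤ) : ZMod 23) = -1} : ℝ) * Real.log x / x) atTop (𝓝 (1 / 3)) := by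
  refine Ray.density_23b.congr fun x => ?_
  congr 3
  refine Nat.card_congr (Equiv.subtypeEquivRight fun p => ?_)
  constructor
  · rintro ⟨h1, h2, h3⟩
    exact ⟨h1, h2, (tau_eq_neg_one_iff h2).mpr h3⟩
  · rintro ⟨h1, h2, h3⟩
    exact ⟨h1, h2, (tau_eq_neg_one_iff h2).mp h3⟩

theorem filter_eq_twenty_three {x : ℕ} (hx : 23 ≤ x) :
    (((Finset.range (x + 1)).filter Nat.Prime).filter fun p => p = 23).card = 1 := by
  rw [Finset.card_eq_one]
  refine ⟨23, ?_⟩
  ext p
  rw [Finset.mem_filter, Finset.mem_filter, Finset.mem_range, Finset.mem_singleton]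
  constructor
  · exact fun h => h.2
  · rintro rfl
    exact ⟨⟨by omega, by norm_num⟩, rfl⟩

/-- **The primes with `τ(p) ≡ 2` modulo 23 have density `1/6`.** -/
theorem density_tau_two : Tendsto (fun x : ℕ => (Nat.card {p : ℕ // p ≤ x ∧ p.Prime ∧
    ((tau p : ℤ) : ZMod 23) = 2} : ℝ) * Real.log x / x) atTop (𝓝 (1 / 6)) := by
  classical
  have h := Ray.density_23a.sub tendsto_log_div
  rw [sub_zero] at h
  refine h.congr' ?_
  filter_upwards [eventually_ge_atTop 23] with x hx
  have hc : Nat.card {p : ℕ // p ≤ x ∧ p.Prime ∧ ∃ u v : ℤ, u ^ 2 + u * v + 6 * v ^ 2 = p} =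
      Nat.card {p : ℕ // p ≤ x ∧ p.Prime ∧ ((tau p : ℤ) : ZMod 23) = 2} + 1 := by
    rw [card_primes_eq, card_primes_eq]
    refine Eq.trans ?_ (congrArg (_ + ·) (filter_eq_twenty_three hx))
    rw [← Finset.card_union_of_disjoint]
    · congr 1
      ext p
      simp only [Finset.mem_union, Finset.mem_filter]
      constructor
      · rintro ⟨⟨h1, h2⟩, h3⟩
        by_cases h23 : p = 23
        · exact Or.inr ⟨⟨h1, h2⟩, h23⟩
        · exact Or.inl ⟨⟨h1, h2⟩, (tau_eq_two_iff h2).mpr ⟨h3, h23⟩⟩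
      · rintro (⟨⟨h1, h2⟩, h3⟩ | ⟨⟨h1, h2⟩, h3⟩)
        · exact ⟨⟨h1, h2⟩, ((tau_eq_two_iff h2).mp h3).1⟩
        · exact ⟨⟨h1, h2⟩, ⟨-1, 2, by rw [h3]; norm_num⟩⟩
    · rw [Finset.disjoint_left]
      intro p h1 h2
      obtain ⟨h3, h4⟩ := Finset.mem_filter.mp h1
      exact ((tau_eq_two_iff (Finset.mem_filter.mp h3).2).mp h4).2 (Finset.mem_filter.mp h2).2
  rw [hc]
  push_cast
  ring

theorem one_eq_sum {p : ℕ} (hp : p.Prime) : 1 = (if ((tau p : ℤ) : ZMod 23) = 0 then 1 else 0) +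
    (if ((tau p : ℤ) : ZMod 23) = 2 then 1 else 0) +
      (if ((tau p : ℤ) : ZMod 23) = -1 then 1 else 0) + (if p = 23 then 1 else 0) := by
  rcases eq_or_ne p 23 with rfl | h23
  · rw [tau_twenty_three, if_neg (by decide), if_neg (by decide), if_neg (by decide), if_pos rfl]
  · obtain ⟨w1, w2, w3⟩ := wilton hp h23
    rw [if_neg h23]
    rcases wilton_cases hp h23 with h | h | h
    · rw [w1.mpr h]; decide
    · rw [w2.mpr h]; decide
    · rw [w3.mpr h]; decide

/-- **The primes with `23 ∣ τ(p)` have density `1/2`.** -/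
theorem density_tau_zero : Tendsto (fun x : ℕ => (Nat.card {p : ℕ // p ≤ x ∧ p.Prime ∧
    ((tau p : ℤ) : ZMod 23) = 0} : ℝ) * Real.log x / x) atTop (𝓝 (1 / 2)) := by
  classical
  have h := ((prime_number_theorem_of_rat.sub density_tau_two).sub density_tau_neg_one).sub
    tendsto_log_div
  have h0 : (1 : ℝ) - 1 / 6 - 1 / 3 - 0 = 1 / 2 := by norm_num
  rw [h0] at h
  refine h.congr' ?_
  filter_upwards [eventually_ge_atTop 23] with x hx
  have hc : Nat.primeCounting x = Nat.card {p : ℕ // p ≤ x ∧ p.Prime ∧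
      ((tau p : ℤ) : ZMod 23) = 0} + Nat.card {p : ℕ // p ≤ x ∧ p.Prime ∧
      ((tau p : ℤ) : ZMod 23) = 2} + Nat.card {p : ℕ // p ≤ x ∧ p.Prime ∧
      ((tau p : ℤ) : ZMod 23) = -1} + 1 := by
    rw [card_primes_eq, card_primes_eq, card_primes_eq]
    refine Eq.trans ?_ (congrArg (_ + ·) (filter_eq_twenty_three hx))
    rw [Nat.primeCounting, Nat.primeCounting', Nat.count_eq_card_filter_range, Finset.card_filter _
        (Finset.filter _ _), Finset.card_filter _ (Finset.filter _ _),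
      Finset.card_filter _ (Finset.filter _ _), Finset.card_filter _ (Finset.filter _ _),
      ← Finset.sum_add_distrib, ← Finset.sum_add_distrib, ← Finset.sum_add_distrib,
      Finset.card_eq_sum_ones]
    refine Finset.sum_congr rfl fun p hp => ?_
    rw [Finset.mem_filter] at hp
    convert one_eq_sum hp.2
  rw [hc]
  push_cast
  ring

/-! ### The roots of the cubic -/

theorem card_roots_twenty_three : Nat.card {a : ZMod 23 // a ^ 3 = a + 1} = 2 := by
  rw [Nat.card_eq_fintype_card]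
  decide +kernel

theorem card_cases {p : ℕ} (hp : p.Prime) (h23 : p ≠ 23) :
    Nat.card {a : ZMod p // a ^ 3 = a + 1} = 0 ∨ Nat.card {a : ZMod p // a ^ 3 = a + 1} = 1 ∨
      Nat.card {a : ZMod p // a ^ 3 = a + 1} = 3 := by
  have : Fact p.Prime := ⟨hp⟩
  obtain ⟨c1, c2⟩ := card_roots (p := p) h23
  by_cases hsq : IsSquare (p : ZMod 23)
  · by_cases hr : ∃ a : ZMod p, a ^ 3 = a + 1
    · exact Or.inr (Or.inr (c2 hsq hr))
    · left
      have h1 : IsEmpty {a : ZMod p // a ^ 3 = a + 1} := ⟨fun a => hr ⟨a.1, a.2⟩⟩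
      exact Nat.card_of_isEmpty
  · exact Or.inr (Or.inl (c1 hsq))

/-- the number of roots and `τ(p)` modulo 23, for all primes `p` -/
theorem card_eq_iff {p : ℕ} (hp : p.Prime) :
    (Nat.card {a : ZMod p // a ^ 3 = a + 1} = 3 ↔ ((tau p : ℤ) : ZMod 23) = 2) ∧
    (Nat.card {a : ZMod p // a ^ 3 = a + 1} = 0 ↔ ((tau p : ℤ) : ZMod 23) = -1) ∧
    (Nat.card {a : ZMod p // a ^ 3 = a + 1} = 1 ↔ ((tau p : ℤ) : ZMod 23) = 0) := by
  rcases eq_or_ne p 23 with rfl | h23
  · rw [card_roots_twenty_three, tau_twenty_three]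
    decide
  · have h := tau_add_one_eq hp h23
    rw [Int.cast_add, Int.cast_one] at h
    rcases card_cases hp h23 with h1 | h1 | h1
    · rw [h1] at h ⊢
      rw [eq_sub_of_add_eq h]
      decide
    · rw [h1] at h ⊢
      rw [eq_sub_of_add_eq h]
      decide
    · rw [h1] at h ⊢
      rw [eq_sub_of_add_eq h]
      decide

theorem density_congr {P Q : ℕ → Prop} {c : ℝ} (h : ∀ p : ℕ, p.Prime → (P p ↔ Q p))
    (hP : Tendsto (fun x : ℕ => (Nat.card {p : ℕ // p ≤ x ∧ p.Prime ∧ P p} : ℝ) *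
      Real.log x / x) atTop (𝓝 c)) :
    Tendsto (fun x : ℕ => (Nat.card {p : ℕ // p ≤ x ∧ p.Prime ∧ Q p} : ℝ) *
      Real.log x / x) atTop (𝓝 c) := by
  refine hP.congr fun x => ?_
  congr 3
  refine Nat.card_congr (Equiv.subtypeEquivRight fun p => ?_)
  constructor
  · rintro ⟨h1, h2, h3⟩
    exact ⟨h1, h2, (h p h2).mp h3⟩
  · rintro ⟨h1, h2, h3⟩
    exact ⟨h1, h2, (h p h2).mpr h3⟩

/-- **The primes modulo which `x ^ 3 - x - 1` has three, no, exactly one roots have the densities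
`1/6`, `1/3`, `1/2`.** -/
theorem density_card_roots :
    Tendsto (fun x : ℕ => (Nat.card {p : ℕ // p ≤ x ∧ p.Prime ∧
      Nat.card {a : ZMod p // a ^ 3 = a + 1} = 3} : ℝ) * Real.log x / x) atTop (𝓝 (1 / 6)) ∧
    Tendsto (fun x : ℕ => (Nat.card {p : ℕ // p ≤ x ∧ p.Prime ∧
      Nat.card {a : ZMod p // a ^ 3 = a + 1} = 0} : ℝ) * Real.log x / x) atTop (𝓝 (1 / 3)) ∧
    Tendsto (fun x : ℕ => (Nat.card {p : ℕ // p ≤ x ∧ p.Prime ∧
      Nat.card {a : ZMod p // a ^ 3 = a + 1} = 1} : ℝ) * Real.log x / x) atTop (𝓝 (1 / 2)) :=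
  ⟨density_congr (fun _ hp => (card_eq_iff hp).1.symm) density_tau_two,
    density_congr (fun _ hp => (card_eq_iff hp).2.1.symm) density_tau_neg_one,
    density_congr (fun _ hp => (card_eq_iff hp).2.2.symm) density_tau_zero⟩

end Fermat.Agent.Cor.Tau
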