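import Fermat.Agent.Corollaries.Tau.Main
import Mathlib.Combinatorics.Enumerative.Pentagonal.PowerSeries
import Mathlib.Combinatorics.Enumerative.Partition.Glaisher

/-!
# Euler's product, `τ` and partitions as power series over any ring

`φ = ∏ (1 - X^(n+1))` (Mathlib's `pentagonalSeries`), `∑ τ(n) Xⁿ = X φ^24`, `φ ∑ p(n) Xⁿ = 1`.
-/

set_option autoImplicit false

noncomputable section

open PowerSeries Filter
open scoped ArithmeticFunction.sigma

namespace Fermat.Agent.Cor.Tau

section general

variable (A : Type*) [CommRing A]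

/-- `∑ σ_k(n) Xⁿ` over any ring -/
def sg (k : ℕ) : PowerSeries A := PowerSeries.mk fun n => ((σ k n : ℕ) : A)

/-- `∑ τ(n) Xⁿ` over any ring -/
def ta : PowerSeries A := PowerSeries.mk fun n => ((tau n : ℤ) : A)

/-- the expansion of `E₂` over any ring -/
def Pn : PowerSeries A := 1 - 24 * sg A 1
/-- the expansion of `E₄` over any ring -/
def Qn : PowerSeries A := 1 + 240 * sg A 3
/-- the expansion of `E₆` over any ring -/
def Rn : PowerSeries A := 1 - 504 * sg A 5

variable {A}

/-- `θ = X d/dX` on power series over any ring -/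
def th (f : PowerSeries A) : PowerSeries A := PowerSeries.mk fun n => (n : A) * f.coeff n

theorem coeff_th (f : PowerSeries A) (n : ℕ) : (th f).coeff n = (n : A) * f.coeff n :=
  PowerSeries.coeff_mk _ _

theorem th_mul (f g : PowerSeries A) : th (f * g) = th f * g + f * th g := by
  ext n
  rw [coeff_th, map_add, PowerSeries.coeff_mul, PowerSeries.coeff_mul, PowerSeries.coeff_mul,
    Finset.mul_sum, ← Finset.sum_add_distrib]
  refine Finset.sum_congr rfl fun kl hkl => ?_
  rw [coeff_th, coeff_th, ← Finset.HasAntidiagonal.mem_antidiagonal.mp hkl]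
  push_cast
  ring

theorem th_one : th (1 : PowerSeries A) = 0 := by
  ext n
  rw [coeff_th, PowerSeries.coeff_one]
  rcases eq_or_ne n 0 with rfl | hn
  · simp
  · simp [hn]

theorem th_pow (f : PowerSeries A) (n : ℕ) : th (f ^ (n + 1)) = (n + 1 : ℕ) * f ^ n * th f := by
  induction n with
  | zero => rw [zero_add, pow_one, pow_zero, Nat.cast_one, one_mul, one_mul]
  | succ n ih =>
    rw [pow_succ, th_mul, ih, pow_succ]
    push_cast
    ring

variable {B : Type*} [CommRing B]

theorem map_sg (f : A →+* B) (k : ℕ) : PowerSeries.map f (sg A k) = sg B k := by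
  ext n
  rw [PowerSeries.coeff_map, sg, sg, PowerSeries.coeff_mk, PowerSeries.coeff_mk, map_natCast]

theorem map_ta (f : A →+* B) : PowerSeries.map f (ta A) = ta B := by
  ext n
  rw [PowerSeries.coeff_map, ta, ta, PowerSeries.coeff_mk, PowerSeries.coeff_mk, map_intCast]

theorem map_th (f : A →+* B) (g : PowerSeries A) :
    PowerSeries.map f (th g) = th (PowerSeries.map f g) := by
  ext n
  rw [PowerSeries.coeff_map, coeff_th, coeff_th, PowerSeries.coeff_map, map_mul, map_natCast]

theorem map_Pn (f : A →+* B) : PowerSeries.map f (Pn A) = Pn B := by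
  rw [Pn, Pn, map_sub, map_one, map_mul, map_sg, map_ofNat]

theorem map_Qn (f : A →+* B) : PowerSeries.map f (Qn A) = Qn B := by
  rw [Qn, Qn, map_add, map_one, map_mul, map_sg, map_ofNat]

theorem map_Rn (f : A →+* B) : PowerSeries.map f (Rn A) = Rn B := by
  rw [Rn, Rn, map_sub, map_one, map_mul, map_sg, map_ofNat]

theorem transfer {f g : PowerSeries ℤ}
    (h : PowerSeries.map (Int.castRingHom ℂ) f = PowerSeries.map (Int.castRingHom ℂ) g) :
    f = g := by
  ext n
  have h1 := congrArg (PowerSeries.coeff n) h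
  rw [PowerSeries.coeff_map, PowerSeries.coeff_map, eq_intCast, eq_intCast] at h1
  exact_mod_cast h1

theorem sg_complex (k : ℕ) : sg ℂ k = sig k := rfl

theorem th_complex (f : PowerSeries ℂ) : th f = theta f := rfl

theorem Pn_complex : Pn ℂ = P := rfl

theorem Qn_complex : Qn ℂ = Q := (Q_eq).symm

theorem Rn_complex : Rn ℂ = R := (R_eq).symm

theorem ta_complex : ta ℂ = tauSer := rfl

variable (A)

theorem th_Pn : 12 * th (Pn A) = Pn A * Pn A - Qn A := by
  have h : 12 * th (Pn ℤ) = Pn ℤ * Pn ℤ - Qn ℤ := by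
    apply transfer
    rw [map_mul, map_sub, map_mul, map_th, map_Pn, map_Qn, map_ofNat, Pn_complex, Qn_complex,
      th_complex]
    exact theta_P
  have h1 := congrArg (PowerSeries.map (Int.castRingHom A)) h
  rwa [map_mul, map_sub, map_mul, map_th, map_Pn, map_Qn, map_ofNat] at h1

theorem th_Qn : 3 * th (Qn A) = Pn A * Qn A - Rn A := by
  have h : 3 * th (Qn ℤ) = Pn ℤ * Qn ℤ - Rn ℤ := by
    apply transfer
    rw [map_mul, map_sub, map_mul, map_th, map_Pn, map_Qn, map_Rn, map_ofNat, Pn_complex,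
      Qn_complex, Rn_complex, th_complex]
    exact theta_Q
  have h1 := congrArg (PowerSeries.map (Int.castRingHom A)) h
  rwa [map_mul, map_sub, map_mul, map_th, map_Pn, map_Qn, map_Rn, map_ofNat] at h1

theorem th_Rn : 2 * th (Rn A) = Pn A * Rn A - Qn A * Qn A := by
  have h : 2 * th (Rn ℤ) = Pn ℤ * Rn ℤ - Qn ℤ * Qn ℤ := by
    apply transfer
    rw [map_mul, map_sub, map_mul, map_mul, map_th, map_Pn, map_Qn, map_Rn, map_ofNat, Pn_complex,
      Qn_complex, Rn_complex, th_complex]
    exact theta_R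
  have h1 := congrArg (PowerSeries.map (Int.castRingHom A)) h
  rwa [map_mul, map_sub, map_mul, map_mul, map_th, map_Pn, map_Qn, map_Rn, map_ofNat] at h1

theorem ta_eq : 1728 * ta A = Qn A ^ 3 - Rn A ^ 2 := by
  have h : 1728 * ta ℤ = Qn ℤ ^ 3 - Rn ℤ ^ 2 := by
    apply transfer
    rw [map_mul, map_sub, map_pow, map_pow, map_ta, map_Qn, map_Rn, map_ofNat, Qn_complex,
      Rn_complex, ta_complex]
    exact discriminant_eq
  have h1 := congrArg (PowerSeries.map (Int.castRingHom A)) h
  rwa [map_mul, map_sub, map_pow, map_pow, map_ta, map_Qn, map_Rn, map_ofNat] at h1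

theorem Qn_sq : Qn A * Qn A = 1 + 480 * sg A 7 := by
  have h : Qn ℤ * Qn ℤ = 1 + 480 * sg ℤ 7 := by
    apply transfer
    rw [map_mul, map_add, map_mul, map_one, map_Qn, map_sg, map_ofNat, Qn_complex, sg_complex]
    exact E₄_mul_E₄.trans E₈_eq
  have h1 := congrArg (PowerSeries.map (Int.castRingHom A)) h
  rwa [map_mul, map_add, map_mul, map_one, map_Qn, map_sg, map_ofNat] at h1

theorem Qn_mul_Rn : Qn A * Rn A = 1 - 264 * sg A 9 := by
  have h : Qn ℤ * Rn ℤ = 1 - 264 * sg ℤ 9 := by
    apply transfer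
    rw [map_mul, map_sub, map_mul, map_one, map_Qn, map_Rn, map_sg, map_ofNat, Qn_complex,
      Rn_complex, sg_complex]
    exact E₄_mul_E₆.trans E₁₀_eq
  have h1 := congrArg (PowerSeries.map (Int.castRingHom A)) h
  rwa [map_mul, map_sub, map_mul, map_one, map_Qn, map_Rn, map_sg, map_ofNat] at h1

theorem sg_eleven : 691 + 65520 * sg A 11 = 441 * Qn A ^ 3 + 250 * Rn A ^ 2 := by
  have h : 691 + 65520 * sg ℤ 11 = 441 * Qn ℤ ^ 3 + 250 * Rn ℤ ^ 2 := by
    apply transfer
    rw [map_add, map_add, map_mul, map_mul, map_mul, map_pow, map_pow, map_Qn, map_Rn, map_sg,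
      map_ofNat, map_ofNat, map_ofNat, map_ofNat, Qn_complex, Rn_complex, sg_complex]
    exact E₁₂_eq.symm.trans E₁₂_eq_E₄_E₆
  have h1 := congrArg (PowerSeries.map (Int.castRingHom A)) h
  rwa [map_add, map_add, map_mul, map_mul, map_mul, map_pow, map_pow, map_Qn, map_Rn, map_sg,
    map_ofNat, map_ofNat, map_ofNat, map_ofNat] at h1

end general

end Fermat.Agent.Cor.Tau
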