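import Fermat.Agent.Corollaries.Tau.Congr

/-!
# Further formulas for `τ(n)`

`τ(n) = n² σ₇(n) - 540 ∑ m (n - m) σ₃(m) σ₃(n - m)`,
`τ(n) = 15 n⁴ σ₃(n) - 14 n⁵ σ₁(n) - 840 ∑ m² (n - m)² σ₁(m) σ₁(n - m)`,
`36 τ(n) = 25 n σ₃(n) + 11 n σ₉(n) - 12600 ∑ m σ₃(m) σ₅(n - m)`, the sums over `0 < m < n`.
-/

set_option autoImplicit false

noncomputable section

open UpperHalfPlane ModularForm EisensteinSeries
open scoped ArithmeticFunction.sigma

namespace Fermat.Agent.Cor.Tau

theorem theta_ofNat (k : ℕ) [k.AtLeastTwo] : theta (ofNat(k) : PowerSeries ℂ) = 0 := by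
  have h := theta_ofNat_mul k 1
  rwa [mul_one, theta_one, mul_zero] at h

theorem theta_neg (f : PowerSeries ℂ) : theta (-f) = -theta f := by
  ext n
  rw [coeff_theta, map_neg, map_neg, coeff_theta, mul_neg]

theorem tau_sig_7 : tauSer + 540 * (theta (sig 3) * theta (sig 3)) = theta (theta (sig 7)) := by
  apply ofNat_mul_cancel 960
  have h := tau_van_der_pol
  have h1 := congrArg (fun f => theta (theta f)) sig_7
  simp only [theta_add, theta_mul, theta_ofNat, zero_mul, zero_add] at h1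
  rw [theta_Q_eq, theta_ofNat_mul, show Q = _ from Q_eq] at h
  linear_combination h - 960 * h1

theorem tau_sig_9 : 36 * tauSer + 12600 * (theta (sig 3) * sig 5) =
    25 * theta (sig 3) + 11 * theta (sig 9) := by
  have h := tau_sig_35
  have h1 := congrArg theta sig_9
  rw [theta_add, theta_add, theta_ofNat_mul, theta_ofNat_mul, theta_ofNat_mul, theta_ofNat_mul,
    theta_mul] at h1
  linear_combination 3 * h - h1

/-- `5 (θP)² = 10 θ³P + θ²Q` -/
theorem theta_P_sq : 5 * (theta P * theta P) = 10 * theta (theta (theta P)) + theta (theta Q) := by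
  apply ofNat_mul_cancel 144
  have h1 : 12 * theta P = P * P - Q := theta_P
  have h2 : 3 * theta Q = P * Q - R := theta_Q
  have h3 : 2 * theta R = P * R - Q * Q := theta_R
  have h4 : 3 * theta (theta Q) = theta P * Q + P * theta Q - theta R := by
    rw [← theta_ofNat_mul, h2, theta_sub, theta_mul]
  have h5 : 72 * theta (theta P) = P * P * P - 3 * (P * Q) + 2 * R := by
    have h := congrArg theta h1
    rw [theta_ofNat_mul, theta_sub, theta_mul] at h
    linear_combination 6 * h + P * h1 - 2 * h2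
  have h6 : 288 * theta (theta (theta P)) =
      P * P * P * P - 6 * (P * P * Q) + 8 * (P * R) - 3 * (Q * Q) := by
    have h := congrArg theta h5
    rw [theta_ofNat_mul, theta_add, theta_sub, theta_mul, theta_mul, theta_ofNat_mul, theta_mul,
      theta_ofNat_mul] at h
    linear_combination 4 * h + (P ^ 2 - Q) * h1 - 4 * P * h2 + 4 * h3
  linear_combination 5 * (12 * theta P + (P * P - Q)) * h1 - 5 * h6 - 48 * h4 - 4 * Q * h1 -
    16 * P * h2 + 24 * h3

theorem theta_P_eq' : theta P = -(24 * theta (sig 1)) := by rw [theta_P_eq]; ring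

theorem sig_11_conv : 12 * (theta (sig 1) * theta (sig 1)) + theta (theta (theta (sig 1))) =
    theta (theta (sig 3)) := by
  apply ofNat_mul_cancel 240
  have h := theta_P_sq
  rw [theta_P_eq', theta_Q_eq] at h
  simp only [theta_neg, theta_mul, theta_ofNat, zero_mul, zero_add] at h
  linear_combination h

theorem tau_sig_13 : tauSer + 14 * theta (theta (theta (theta (theta (sig 1))))) +
    840 * (theta (theta (sig 1)) * theta (theta (sig 1))) =
    15 * theta (theta (theta (theta (sig 3)))) := by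
  apply ofNat_mul_cancel 48
  have h0 := tau_niebur
  have h1 := congrArg (fun f => theta (theta (theta (theta f)))) theta_P
  have h2 := congrArg (fun f => theta (theta f)) theta_P_sq
  have h3 : 48 * tauSer = 3 * theta (theta (theta (theta Q))) +
      28 * theta (theta (theta (theta (theta P)))) -
      70 * (theta (theta P) * theta (theta P)) := by
    simp only [theta_add, theta_sub, theta_mul, theta_ofNat, zero_mul, zero_add] at h1 h2
    linear_combination -2 * h0 + h1 + 4 * h2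
  rw [theta_P_eq', theta_Q_eq] at h3
  simp only [theta_neg, theta_mul, theta_ofNat, zero_mul, zero_add] at h3
  linear_combination h3

/-- **`τ(n) = n² σ₇(n) - 540 ∑ m (n - m) σ₃(m) σ₃(n - m)`** -/
theorem tau_eq_sigma_seven (n : ℕ) : tau n = n ^ 2 * σ 7 n - 540 * ∑ m ∈ Finset.Ico 1 n,
    (m * (n - m) : ℤ) * (σ 3 m * σ 3 (n - m) : ℕ) := by
  have h := congrArg (PowerSeries.coeff n) tau_sig_7
  rw [map_add, coeff_ofNat_mul, coeff_mul_iter 3 3 1 1 (theta (sig 3)) (theta (sig 3)) rfl rfl,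
    coeff_theta, coeff_theta, coeff_sig, coeff_tauSer] at h
  have h' : (tau n + 540 * ∑ m ∈ Finset.Ico 1 n,
      (m : ℤ) ^ 1 * ((n : ℤ) - m) ^ 1 * (σ 3 m * σ 3 (n - m) : ℕ) : ℤ) = n * (n * σ 7 n) := by
    exact_mod_cast h
  simp only [pow_one] at h'
  linarith

/-- **`36 τ(n) = 25 n σ₃(n) + 11 n σ₉(n) - 12600 ∑ m σ₃(m) σ₅(n - m)`** -/
theorem tau_eq_sigma_nine (n : ℕ) : 36 * tau n = 25 * n * σ 3 n + 11 * n * σ 9 n -
    12600 * ∑ m ∈ Finset.Ico 1 n, (m : ℤ) * (σ 3 m * σ 5 (n - m) : ℕ) := by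
  have h := congrArg (PowerSeries.coeff n) tau_sig_9
  rw [map_add, map_add, coeff_ofNat_mul, coeff_ofNat_mul, coeff_ofNat_mul, coeff_ofNat_mul,
    coeff_mul_iter 3 5 1 0 (theta (sig 3)) (sig 5) rfl rfl, coeff_theta, coeff_theta, coeff_sig,
    coeff_sig, coeff_tauSer] at h
  have h' : (36 * tau n + 12600 * ∑ m ∈ Finset.Ico 1 n,
      (m : ℤ) ^ 1 * ((n : ℤ) - m) ^ 0 * (σ 3 m * σ 5 (n - m) : ℕ) : ℤ) =
      25 * (n * σ 3 n) + 11 * (n * σ 9 n) := by
    exact_mod_cast h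
  simp only [pow_one, pow_zero, mul_one] at h'
  linarith

/-- **`τ(n) = 15 n⁴ σ₃(n) - 14 n⁵ σ₁(n) - 840 ∑ m² (n - m)² σ₁(m) σ₁(n - m)`** -/
theorem tau_eq_sigma_one_three (n : ℕ) : tau n = 15 * n ^ 4 * σ 3 n - 14 * n ^ 5 * σ 1 n -
    840 * ∑ m ∈ Finset.Ico 1 n, (m ^ 2 * (n - m) ^ 2 : ℤ) * (σ 1 m * σ 1 (n - m) : ℕ) := by
  have h := congrArg (PowerSeries.coeff n) tau_sig_13
  rw [map_add, map_add, coeff_ofNat_mul, coeff_ofNat_mul, coeff_ofNat_mul,
    coeff_mul_iter 1 1 2 2 (theta (theta (sig 1))) (theta (theta (sig 1))) rfl rfl] at h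
  simp only [coeff_theta, coeff_sig, coeff_tauSer] at h
  have h' : (tau n + 14 * (n * (n * (n * (n * (n * σ 1 n))))) + 840 * ∑ m ∈ Finset.Ico 1 n,
      (m : ℤ) ^ 2 * ((n : ℤ) - m) ^ 2 * (σ 1 m * σ 1 (n - m) : ℕ) : ℤ) =
      15 * (n * (n * (n * (n * σ 3 n)))) := by
    exact_mod_cast h
  linarith

/-- **`12 ∑ m (n - m) σ₁(m) σ₁(n - m) + n³ σ₁(n) = n² σ₃(n)`** -/
theorem sigma_one_conv_weight (n : ℕ) :
    12 * (∑ m ∈ Finset.Ico 1 n, (m * (n - m) : ℤ) * (σ 1 m * σ 1 (n - m) : ℕ)) + n ^ 3 * σ 1 n =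
      n ^ 2 * σ 3 n := by
  have h := congrArg (PowerSeries.coeff n) sig_11_conv
  rw [map_add, coeff_ofNat_mul, coeff_mul_iter 1 1 1 1 (theta (sig 1)) (theta (sig 1)) rfl rfl] at h
  simp only [coeff_theta, coeff_sig] at h
  have h' : (12 * (∑ m ∈ Finset.Ico 1 n,
      (m : ℤ) ^ 1 * ((n : ℤ) - m) ^ 1 * (σ 1 m * σ 1 (n - m) : ℕ)) + n * (n * (n * σ 1 n)) : ℤ) =
      n * (n * σ 3 n) := by
    exact_mod_cast h
  simp only [pow_one] at h'
  linarith

end Fermat.Agent.Cor.Tau
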