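import Fermat.Agent.Corollaries.Tau.JVal

/-!
# The modular invariant `j(τ) = E₄(τ)³ / Δ(τ)` and its expansion

`j` is invariant under `SL₂(ℤ)` and `j(τ) = q⁻¹ + ∑_{n ≥ 0} c(n) qⁿ` for every `τ` in the upper half plane,
`c(n) = jcoeff n` the integers studied in `Tau/JInv` and `Tau/JVal`.
-/

set_option autoImplicit false

noncomputable section

open UpperHalfPlane ModularForm ModularFormClass MatrixGroups EisensteinSeries Filter Asymptotics
open scoped ArithmeticFunction.sigma Topology Manifold Real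

namespace Fermat.Agent.Cor.Tau

local notation "𝕢" => Function.Periodic.qParam

/-- an expansion is unique -/
theorem HasExp.unique {F : ℍ → ℂ} {f g : PowerSeries ℂ} (hf : HasExp F f) (hg : HasExp F g) :
    f = g := by
  ext n
  have hs : ∀ q : ℂ, q ≠ 0 → ‖q‖ < 1 →
      HasSum (fun n => (f.coeff n - g.coeff n) * q ^ n) ((fun _ : ℂ => (0 : ℂ)) q) := by
    intro q hq0 hq1
    let τ : ℍ := ⟨Function.Periodic.invQParam 1 q,
      Function.Periodic.im_invQParam_pos_of_norm_lt_one one_pos hq1 hq0⟩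
    have hτ : 𝕢 1 (τ : ℂ) = q := Function.Periodic.qParam_right_inv one_ne_zero hq0
    have h := (hf τ).sub (hg τ)
    rw [hτ, sub_self] at h
    refine h.congr_fun fun n => ?_
    ring
  have key := Eta.coeff_eq_zero_of_isBigO (n + 1) one_pos hs (isBigO_zero _ _)
  exact sub_eq_zero.mp (key n (Nat.lt_succ_self n))

/-- **the modular invariant** `j = E₄³ / Δ` (so `j(i) = 1728`) -/
def jinv (τ : ℍ) : ℂ := E₄ τ ^ 3 / discriminant τ

/-- `q j` -/
def qj (τ : ℍ) : ℂ := 𝕢 1 (τ : ℂ) * jinv τ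

theorem periodic_qj : Function.Periodic (qj ∘ ofComplex) 1 := by
  intro w
  have h1 := SlashInvariantFormClass.periodic_comp_ofComplex (h := 1) E₄
    one_mem_strictPeriods_SL w
  have h2 := SlashInvariantFormClass.periodic_comp_ofComplex (h := 1) CuspForm.discriminant
    one_mem_strictPeriods_SL w
  have h3 : 𝕢 1 ((ofComplex (w + 1) : ℍ) : ℂ) = 𝕢 1 ((ofComplex w : ℍ) : ℂ) := by
    by_cases! hw : 0 < w.im
    · have : 0 < (w + 1).im := by simp [hw]
      rw [ofComplex_apply_of_im_pos this, ofComplex_apply_of_im_pos hw]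
      simp [Function.Periodic.qParam, mul_add, Complex.exp_add, Complex.exp_two_pi_mul_I]
    · have : (w + 1).im ≤ 0 := by simpa using hw
      rw [ofComplex_apply_of_im_nonpos this, ofComplex_apply_of_im_nonpos hw]
  simp only [Function.comp_apply, Complex.ofReal_one, CuspForm.coe_discriminant] at h1 h2
  simp only [Function.comp_apply, qj, jinv, h1, h2, h3]

theorem mdiff_qj : MDiff qj := by
  rw [UpperHalfPlane.mdifferentiable_iff]
  have h1 := UpperHalfPlane.mdifferentiable_iff.mp (holo E₄)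
  have h2 := UpperHalfPlane.mdifferentiable_iff.mp (holo CuspForm.discriminant)
  have h3 : DifferentiableOn ℂ (𝕢 1) {z : ℂ | 0 < z.im} :=
    (Function.Periodic.differentiable_qParam (h := 1)).differentiableOn
  have h4 : ∀ z ∈ {z : ℂ | 0 < z.im}, (CuspForm.discriminant ∘ ofComplex) z ≠ 0 := fun z _ =>
    discriminant_ne_zero _
  refine (h3.mul ((h1.pow 3).div h2 h4)).congr fun z hz => ?_
  have hz' : ((ofComplex z : ℍ) : ℂ) = z := by rw [ofComplex_apply_of_im_pos hz]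
  simp [qj, jinv, hz']

theorem bounded_qj : IsBoundedAtImInfty qj := by
  have h1 : (fun τ : ℍ => E₄ τ) =O[atImInfty] fun _ => (1 : ℂ) :=
    (bdd_at_infty E₄).trans (isBigO_const_const (1 : ℝ) (one_ne_zero : (1 : ℂ) ≠ 0) atImInfty)
  have h2 : (fun τ : ℍ => 𝕢 1 (τ : ℂ)) =O[atImInfty] discriminant := by
    refine (IsBigO.of_bound 1 (Eventually.of_forall fun τ => ?_)).trans exp_isBigO_discriminant
    rw [Function.Periodic.norm_qParam, div_one, one_mul, Real.norm_eq_abs]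
    exact le_abs_self _
  have h3 := (h2.mul (isBigO_refl (fun τ : ℍ => (discriminant τ)⁻¹) atImInfty)).mul (h1.pow 3)
  have h4 : qj = fun τ : ℍ => 𝕢 1 (τ : ℂ) * (discriminant τ)⁻¹ * E₄ τ ^ 3 := by
    funext τ
    rw [qj, jinv, div_eq_mul_inv]
    ring
  rw [UpperHalfPlane.IsBoundedAtImInfty, BoundedAtFilter, h4]
  refine (h3.congr_right fun τ => ?_).trans
    (isBigO_const_const (1 : ℂ) (one_ne_zero : (1 : ℝ) ≠ 0) atImInfty)
  rw [mul_inv_cancel₀ (discriminant_ne_zero τ), one_pow, one_mul]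

/-- `q j(τ)` is the sum of its power series -/
theorem hasExp_qj : HasExp qj (jser ℂ) := by
  have h1 : HasExp qj (qExpansion 1 qj) := fun τ =>
    UpperHalfPlane.hasSum_qExpansion one_pos (by simpa using periodic_qj) mdiff_qj bounded_qj τ
  have hX : HasExp (fun τ : ℍ => 𝕢 1 (τ : ℂ)) PowerSeries.X := fun τ => by
    have h : HasSum (fun n : ℕ => (PowerSeries.X : PowerSeries ℂ).coeff n * 𝕢 1 (τ : ℂ) ^ n)
        ((PowerSeries.X : PowerSeries ℂ).coeff 1 * 𝕢 1 (τ : ℂ) ^ 1) := hasSum_single 1 fun n hn => by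
      rw [PowerSeries.coeff_X, if_neg hn, zero_mul]
    rwa [PowerSeries.coeff_one_X, one_mul, pow_one] at h
  have hE : HasExp E₄ (Qn ℂ) := by
    rw [Qn_complex]
    exact hasExp_form E₄
  have hD : HasExp discriminant (ta ℂ) := fun τ => by
    have h := ModularForm.hasSum_qExpansion CuspForm.discriminant one_pos
      one_mem_strictPeriods_SL τ
    refine h.congr_fun fun n => ?_
    rw [coeff_discriminant, ta, PowerSeries.coeff_mk]
  have h2 : HasExp (qj * discriminant) (qExpansion 1 qj * ta ℂ) := h1.mul hD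
  have h3 : HasExp ((fun τ : ℍ => 𝕢 1 (τ : ℂ)) * (E₄ * (E₄ * E₄)))
      (PowerSeries.X * (Qn ℂ * (Qn ℂ * Qn ℂ))) := hX.mul (hE.mul (hE.mul hE))
  have h4 : qj * discriminant = (fun τ : ℍ => 𝕢 1 (τ : ℂ)) * (⇑E₄ * (⇑E₄ * ⇑E₄)) := by
    funext τ
    simp only [Pi.mul_apply, qj, jinv]
    field_simp [discriminant_ne_zero τ]
  rw [h4] at h2
  have h5 := h2.unique h3
  have h6 : qExpansion 1 qj = jser ℂ := by
    rw [ta_eq_phi] at h5
    have h7 : PowerSeries.X * (qExpansion 1 qj * phi ℂ ^ 24) =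
        PowerSeries.X * (jser ℂ * phi ℂ ^ 24) := by
      have h8 := phi_pow_mul_jser ℂ
      calc PowerSeries.X * (qExpansion 1 qj * phi ℂ ^ 24) =
            qExpansion 1 qj * (PowerSeries.X * phi ℂ ^ 24) := by ring
        _ = PowerSeries.X * (Qn ℂ * (Qn ℂ * Qn ℂ)) := h5
        _ = PowerSeries.X * (phi ℂ ^ 24 * jser ℂ) := by rw [h8]; ring
        _ = _ := by ring
    have h9 := mul_left_cancel₀ PowerSeries.X_ne_zero h7
    have h10 : phi ℂ ^ 24 ≠ 0 := by
      refine pow_ne_zero _ fun h => ?_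
      have := coeff_zero_phi (A := ℂ)
      rw [h, map_zero] at this
      exact zero_ne_one this
    exact mul_right_cancel₀ h10 h9
  rwa [h6] at h1

/-- **the expansion of `q j`** -/
theorem hasSum_q_mul_j (τ : ℍ) :
    HasSum (fun n : ℕ => ((jser ℤ).coeff n : ℂ) * 𝕢 1 (τ : ℂ) ^ n) (𝕢 1 (τ : ℂ) * jinv τ) := by
  refine (hasExp_qj τ).congr_fun fun n => ?_
  rw [← map_jser (Int.castRingHom ℂ), PowerSeries.coeff_map, eq_intCast]

/-- **`j(τ) = q⁻¹ + ∑_{n ≥ 0} c(n) qⁿ`**, `q = exp(2πiτ)`, for every `τ` in the upper half plane -/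
theorem hasSum_j (τ : ℍ) :
    HasSum (fun n : ℕ => (jcoeff n : ℂ) * 𝕢 1 (τ : ℂ) ^ n) (jinv τ - (𝕢 1 (τ : ℂ))⁻¹) := by
  have hq : 𝕢 1 (τ : ℂ) ≠ 0 := Function.Periodic.qParam_ne_zero _
  have h1 := (hasSum_nat_add_iff' (f := fun n : ℕ => ((jser ℤ).coeff n : ℂ) * 𝕢 1 (τ : ℂ) ^ n)
    1).mpr (hasSum_q_mul_j τ)
  rw [Finset.sum_range_one, coeff_zero_jser, pow_zero, Int.cast_one, mul_one] at h1
  have h2 := h1.mul_left (𝕢 1 (τ : ℂ))⁻¹
  have h3 : (𝕢 1 (τ : ℂ))⁻¹ * (𝕢 1 (τ : ℂ) * jinv τ - 1) = jinv τ - (𝕢 1 (τ : ℂ))⁻¹ := by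
    rw [mul_sub, inv_mul_cancel_left₀ hq, mul_one]
  rw [h3] at h2
  refine h2.congr_fun fun n => ?_
  rw [jcoeff, pow_succ]
  field_simp

theorem mem_SL (γ : SL(2, ℤ)) : (γ : GL (Fin 2) ℝ) ∈ (𝒮ℒ : Subgroup (GL (Fin 2) ℝ)) := ⟨γ, rfl⟩

/-- the transformation of a modular form of level one -/
theorem form_smul {k : ℤ} (F : ModularForm 𝒮ℒ k) (γ : SL(2, ℤ)) (τ : ℍ) :
    F (γ • τ) = UpperHalfPlane.denom (γ : GL (Fin 2) ℝ) (τ : ℂ) ^ k * F τ :=
  SlashInvariantForm.slash_action_eqn'' F (mem_SL γ) τ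

theorem disc_smul (γ : SL(2, ℤ)) (τ : ℍ) : discriminant (γ • τ) =
    UpperHalfPlane.denom (γ : GL (Fin 2) ℝ) (τ : ℂ) ^ (12 : ℤ) * discriminant τ :=
  SlashInvariantForm.slash_action_eqn'' CuspForm.discriminant (mem_SL γ) τ

/-- **`j` is invariant under `SL₂(ℤ)`** -/
theorem jinv_smul (γ : SL(2, ℤ)) (τ : ℍ) : jinv (γ • τ) = jinv τ := by
  have h3 : UpperHalfPlane.denom (γ : GL (Fin 2) ℝ) (τ : ℂ) ≠ 0 :=
    UpperHalfPlane.denom_ne_zero _ _
  have h4 : (UpperHalfPlane.denom (γ : GL (Fin 2) ℝ) (τ : ℂ) ^ (4 : ℤ)) ^ 3 =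
      UpperHalfPlane.denom (γ : GL (Fin 2) ℝ) (τ : ℂ) ^ (12 : ℤ) := by
    rw [← zpow_natCast, ← zpow_mul]
    norm_num
  have h5 := form_smul E₄ γ τ
  have h6 := disc_smul γ τ
  rw [jinv, jinv, h5, h6, mul_pow, h4, mul_div_mul_left _ _ (zpow_ne_zero _ h3)]

end Fermat.Agent.Cor.Tau
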