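import Fermat.Agent.Corollaries.Tau.More

/-!
# The coefficients of the modular invariant `j = E₄³ / Δ`

`X j = Q³ ∏ (1 - X^(n+1))^(-24)` as a power series over any ring; integrality, the first coefficients,
congruences modulo 2, 3, 5, 7, 11 (Lehner 1949).
-/

set_option autoImplicit false

noncomputable section

open PowerSeries
open scoped ArithmeticFunction.sigma

namespace Fermat.Agent.Cor.Tau

section general

variable (A : Type*) [CommRing A]

/-- `X j(X)` over any ring, `j` the modular invariant -/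
def jser : PowerSeries A := Qn A ^ 3 * pser A ^ 24

theorem phi_pow_mul_jser : phi A ^ 24 * jser A = Qn A ^ 3 := by
  rw [jser, mul_left_comm, ← mul_pow, phi_mul_pser, one_pow, mul_one]

/-- the coefficient `c(n)` of `j = q⁻¹ + 744 + 196884 q + …`, an integer -/
def jcoeff (n : ℕ) : ℤ := (jser ℤ).coeff (n + 1)

variable {A}

theorem map_pser {B : Type*} [CommRing B] (f : A →+* B) :
    PowerSeries.map f (pser A) = pser B := by
  ext n
  rw [PowerSeries.coeff_map, pser, pser, PowerSeries.coeff_mk, PowerSeries.coeff_mk, map_natCast]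

theorem map_jser {B : Type*} [CommRing B] (f : A →+* B) :
    PowerSeries.map f (jser A) = jser B := by
  rw [jser, jser, map_mul, map_pow, map_pow, map_Qn, map_pser]

variable (A)

theorem coeff_jser_succ (n : ℕ) : (jser A).coeff (n + 1) = (jcoeff n : A) := by
  rw [jcoeff, ← map_jser (Int.castRingHom A), PowerSeries.coeff_map, eq_intCast]

theorem coeff_zero_pser : (pser A).coeff 0 = 1 := by
  have h := congrArg (PowerSeries.coeff 0) (phi_mul_pser A)
  rw [PowerSeries.coeff_mul, Finset.Nat.sum_antidiagonal_eq_sum_range_succ_mk,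
    Finset.sum_range_one, Nat.sub_zero, coeff_zero_phi, one_mul, PowerSeries.coeff_zero_one] at h
  exact h

end general

/-- **the criterion for `j` modulo `p`** -/
theorem jcoeff_criterion {p : ℕ} [Fact p.Prime]
    (h : ∀ m, (Qn (ZMod p) ^ 3 * ta (ZMod p) ^ (p - 1) - 744 * ta (ZMod p) ^ p).coeff (p * m) = 0)
    {n : ℕ} (hn : n ≠ 0) : (p : ℤ) ∣ jcoeff (p * n) := by
  have hp : 0 < p := (Fact.out : p.Prime).pos
  set φ := phi (ZMod p) with hφ
  have h0 : φ ^ (24 * p) * (X ^ (p - 1) * jser (ZMod p) - 744 * X ^ p) =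
      Qn (ZMod p) ^ 3 * ta (ZMod p) ^ (p - 1) - 744 * ta (ZMod p) ^ p := by
    have h1 := phi_pow_mul_jser (ZMod p)
    rw [ta_eq_phi, mul_pow, mul_pow, ← pow_mul, ← pow_mul, mul_sub]
    congr 1
    · have h2 : φ ^ (24 * p) = φ ^ (24 * (p - 1)) * φ ^ 24 := by
        rw [← pow_add]; congr 1; omega
      rw [h2]
      calc φ ^ (24 * (p - 1)) * φ ^ 24 * (X ^ (p - 1) * jser (ZMod p)) =
            X ^ (p - 1) * φ ^ (24 * (p - 1)) * (φ ^ 24 * jser (ZMod p)) := by ring
        _ = _ := by rw [h1]; ring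
    · ring
  have h1 : (φ ^ (24 * p)).coeff 0 = 1 := by
    rw [PowerSeries.coeff_zero_eq_constantCoeff_apply, map_pow,
      ← PowerSeries.coeff_zero_eq_constantCoeff_apply, hφ, coeff_zero_phi, one_pow]
  have h2 : ∀ n, ¬ p ∣ n → (φ ^ (24 * p)).coeff n = 0 := fun n hn => by
    rw [pow_mul]
    exact coeff_pow_prime _ hn
  have h3 := coeff_eq_zero_of_mul h1 h2 h0 h (n + 1)
  have h4 : p * (n + 1) = (p * n + 1) + (p - 1) := by
    rw [Nat.mul_succ]; omega
  rw [map_sub] at h3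
  have h5 : (X ^ (p - 1) * jser (ZMod p)).coeff (p * (n + 1)) = (jcoeff (p * n) : ZMod p) := by
    rw [h4, PowerSeries.coeff_X_pow_mul, coeff_jser_succ]
  have h6 : ((744 : PowerSeries (ZMod p)) * X ^ p).coeff (p * (n + 1)) = 0 := by
    rw [coeff_ofNat_mul', PowerSeries.coeff_X_pow, if_neg, mul_zero]
    intro h
    rw [Nat.mul_succ] at h
    have : p * n = 0 := by omega
    rcases Nat.mul_eq_zero.mp this with h | h
    · omega
    · exact hn h
  rw [h5, h6, sub_zero] at h3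
  exact (ZMod.intCast_zmod_eq_zero_iff_dvd _ p).mp h3

theorem zmod_series_eq_zero (p : ℕ) : ((p : ℕ) : PowerSeries (ZMod p)) = 0 := by
  rw [← map_natCast (PowerSeries.C (R := ZMod p)), CharP.cast_eq_zero, map_zero]

/-- **`11 ∣ c(11 n)`** for `n ≥ 1` -/
theorem jcoeff_eleven {n : ℕ} (hn : n ≠ 0) : (11 : ℤ) ∣ jcoeff (11 * n) := by
  refine jcoeff_criterion (p := 11) (fun m => ?_) hn
  have h11 : (11 : PowerSeries (ZMod 11)) = 0 := by exact_mod_cast zmod_series_eq_zero 11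
  have hP : Pn (ZMod 11) = 5 * Qn (ZMod 11) ^ 3 + 7 * Rn (ZMod 11) ^ 2 := by
    have h1 : sg (ZMod 11) 11 = sg (ZMod 11) 1 := sg_fermat (by decide)
    have h2 := sg_eleven (ZMod 11)
    rw [h1] at h2
    have h3 : Pn (ZMod 11) = 1 - 24 * sg (ZMod 11) 1 := rfl
    rw [h3]
    linear_combination 5 * h2 + (-314 - 29784 * sg (ZMod 11) 1 + 200 * Qn (ZMod 11) ^ 3 +
      113 * Rn (ZMod 11) ^ 2) * h11
  have hT := ta_eq (ZMod 11)
  have hθ : th (ta (ZMod 11)) = Pn (ZMod 11) * ta (ZMod 11) := by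
    have hZ : th (ta ℤ) = Pn ℤ * ta ℤ := by
      apply transfer
      rw [map_th, map_mul, map_ta, map_Pn, ta_complex, Pn_complex]
      exact theta_tauSer
    have h1 := congrArg (PowerSeries.map (Int.castRingHom (ZMod 11))) hZ
    rwa [map_th, map_mul, map_ta, map_Pn] at h1
  have h10 := th_pow (ta (ZMod 11)) 9
  rw [hθ] at h10
  have key : Qn (ZMod 11) ^ 3 * ta (ZMod 11) ^ (11 - 1) - 744 * ta (ZMod 11) ^ 11 =
      th (-(ta (ZMod 11) ^ 10)) := by
    have hneg : th (-(ta (ZMod 11) ^ 10)) = -th (ta (ZMod 11) ^ 10) := by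
      ext n
      rw [coeff_th, map_neg, map_neg, coeff_th, mul_neg]
    rw [hneg, show ta (ZMod 11) ^ 10 = ta (ZMod 11) ^ (9 + 1) from rfl, h10, hP]
    push_cast
    set Q := Qn (ZMod 11)
    set R := Rn (ZMod 11)
    set T := ta (ZMod 11)
    linear_combination (-51 * T ^ 10) * hT + T ^ 10 * (11 * R ^ 2 + 7944 * T) * h11
  rw [key]
  exact coeff_th_mul_self _ _

/-- **`5 ∣ c(5 n)`** for `n ≥ 1` -/
theorem jcoeff_five {n : ℕ} (hn : n ≠ 0) : (5 : ℤ) ∣ jcoeff (5 * n) := by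
  refine jcoeff_criterion (p := 5) (fun m => ?_) hn
  have h5 : (5 : PowerSeries (ZMod 5)) = 0 := by exact_mod_cast zmod_series_eq_zero 5
  have hQ : Qn (ZMod 5) = 1 := by
    rw [Qn]
    linear_combination 48 * sg (ZMod 5) 3 * h5
  have hR : Rn (ZMod 5) = Pn (ZMod 5) := by
    have h1 : sg (ZMod 5) 5 = sg (ZMod 5) 1 := sg_fermat (by decide)
    rw [Rn, Pn, h1]
    linear_combination -96 * sg (ZMod 5) 1 * h5
  have hT := ta_eq (ZMod 5)
  have hθ := th_Pn (ZMod 5)
  rw [hQ, hR] at hT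
  rw [hQ] at hθ
  set P := Pn (ZMod 5)
  set T := ta (ZMod 5)
  have hT' : T = 2 - 2 * P ^ 2 := by
    linear_combination 2 * hT - 691 * T * h5
  have hθ' : th P = T := by
    rw [hT']
    linear_combination 3 * hθ + (-7 * th P + P ^ 2 - 1) * h5
  have e2 := th_pow P 2
  have e6 := th_pow P 6
  have e8 := th_pow P 8
  have key : Qn (ZMod 5) ^ 3 * T ^ (5 - 1) - 744 * T ^ 5 =
      4 * th (P + P ^ (2 + 1) + P ^ (6 + 1) + P ^ (8 + 1)) := by
    rw [th_add, th_add, th_add, e2, e6, e8, hθ', hQ, hT']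
    push_cast
    linear_combination ((-4760) * P ^ 0 + (23792) * P ^ 2 + (-47592) * P ^ 4 +
      (47592) * P ^ 6 + (-23808) * P ^ 8 + (4776) * P ^ 10) * h5
  rw [key, coeff_ofNat_mul', coeff_th_mul_self, mul_zero]

/-- **`7 ∣ c(7 n)`** for `n ≥ 1` -/
theorem jcoeff_seven {n : ℕ} (hn : n ≠ 0) : (7 : ℤ) ∣ jcoeff (7 * n) := by
  refine jcoeff_criterion (p := 7) (fun m => ?_) hn
  have h7 : (7 : PowerSeries (ZMod 7)) = 0 := by exact_mod_cast zmod_series_eq_zero 7
  have hR : Rn (ZMod 7) = 1 := by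
    rw [Rn]
    linear_combination -72 * sg (ZMod 7) 5 * h7
  have hP : Pn (ZMod 7) = Qn (ZMod 7) * Qn (ZMod 7) := by
    have h1 : sg (ZMod 7) 7 = sg (ZMod 7) 1 := sg_fermat (by decide)
    rw [Qn_sq, h1, Pn]
    linear_combination -72 * sg (ZMod 7) 1 * h7
  have hT := ta_eq (ZMod 7)
  have hθ := th_Qn (ZMod 7)
  rw [hR] at hT
  rw [hR, hP] at hθ
  set Q := Qn (ZMod 7)
  set T := ta (ZMod 7)
  have hT' : T = 1 - Q ^ 3 := by
    linear_combination -hT + 247 * T * h7
  have hθ' : th Q = 2 * T := by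
    rw [hT']
    linear_combination 5 * hθ + (-2 * th Q + Q ^ 3 - 1) * h7
  have e3 := th_pow Q 3
  have e9 := th_pow Q 9
  have e12 := th_pow Q 12
  have e15 := th_pow Q 15
  have e18 := th_pow Q 18
  have key : Q ^ 3 * T ^ (7 - 1) - 744 * T ^ 7 =
      6 * th (Q + Q ^ (3 + 1) + Q ^ (9 + 1) + Q ^ (12 + 1) + Q ^ (15 + 1) + Q ^ (18 + 1)) := by
    rw [th_add, th_add, th_add, th_add, th_add, e3, e9, e12, e15, e18, hθ', hT']
    push_cast
    linear_combination ((-108) * Q ^ 0 + (739) * Q ^ 3 + (-2226) * Q ^ 6 + (3705) * Q ^ 9 +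
      (-3728) * Q ^ 12 + (2229) * Q ^ 15 + (-750) * Q ^ 18 + (139) * Q ^ 21) * h7
  rw [key, coeff_ofNat_mul', coeff_th_mul_self, mul_zero]

end Fermat.Agent.Cor.Tau
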