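import Fermat.Agent.Corollaries.Tau.JExp

/-!
# Special values of `j`, and its surjectivity
-/

set_option autoImplicit false

noncomputable section

open UpperHalfPlane ModularForm ModularFormClass MatrixGroups EisensteinSeries Filter Asymptotics
open scoped ArithmeticFunction.sigma Topology Manifold Real

namespace Fermat.Agent.Cor.Tau

local notation "𝕢" => Function.Periodic.qParam

theorem denom_S' (τ : ℍ) :
    UpperHalfPlane.denom (ModularGroup.S : GL (Fin 2) ℝ) (τ : ℂ) = τ :=
  ModularGroup.denom_S τ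

/-- **`j(i) = 1728`** -/
theorem jinv_I : jinv UpperHalfPlane.I = 1728 := by
  have hS : ModularGroup.S • UpperHalfPlane.I = UpperHalfPlane.I := by
    rw [modular_S_smul]
    ext1
    simp
  have h6 : E₆ UpperHalfPlane.I = 0 := by
    have h := form_smul E₆ ModularGroup.S UpperHalfPlane.I
    rw [hS, denom_S'] at h
    have h2 : (UpperHalfPlane.I : ℂ) ^ (6 : ℤ) = -1 := by
      rw [show (6 : ℤ) = ((2 * 3 : ℕ) : ℤ) from rfl, zpow_natCast, UpperHalfPlane.coe_I, pow_mul,
        Complex.I_sq]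
      norm_num
    rw [h2] at h
    linear_combination h / 2
  have h1 := discriminant_eq_E₄_cube_sub_E₆_sq UpperHalfPlane.I
  have h2 := discriminant_ne_zero UpperHalfPlane.I
  rw [jinv, div_eq_iff h2, h1, h6]
  ring

/-- **`j(ρ) = 0`**, `ρ = exp(2πi/3)` -/
theorem jinv_rho {ρ : ℍ} (hρ : (ρ : ℂ) ^ 2 + ρ + 1 = 0) : jinv ρ = 0 := by
  have hρ0 : (ρ : ℂ) ≠ 0 := ρ.ne_zero
  have hT : ((ModularGroup.T • ρ : ℍ) : ℂ) = 1 + ρ := by
    rw [modular_T_smul]
    simp
  have hS : ModularGroup.S • (ModularGroup.T • ρ) = ρ := by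
    rw [modular_S_smul]
    ext1
    rw [UpperHalfPlane.coe_mk, hT]
    have h1 : (1 + (ρ : ℂ)) ≠ 0 := by
      intro h
      have : (ρ : ℂ) ^ 2 = 0 := by linear_combination hρ - h
      exact hρ0 (pow_eq_zero_iff (two_ne_zero) |>.mp this)
    rw [inv_eq_iff_eq_inv, eq_comm, inv_eq_iff_eq_inv]
    field_simp
    linear_combination hρ
  have h4 : E₄ ρ = 0 := by
    have h1 := form_smul E₄ ModularGroup.S (ModularGroup.T • ρ)
    have h2 := SlashInvariantForm.vAdd_apply_of_mem_strictPeriods E₄ ρ one_mem_strictPeriods_SL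
    rw [← modular_T_smul] at h2
    rw [hS, denom_S', hT, h2] at h1
    have h5 : (1 + (ρ : ℂ)) ^ (4 : ℤ) = -1 - ρ := by
      rw [show (4 : ℤ) = ((4 : ℕ) : ℤ) from rfl, zpow_natCast]
      linear_combination ((ρ : ℂ) ^ 2 + 3 * ρ + 2) * hρ
    rw [h5] at h1
    have h6 : (2 + (ρ : ℂ)) * E₄ ρ = 0 := by linear_combination h1
    rcases mul_eq_zero.mp h6 with h | h
    · exfalso
      have : (3 : ℂ) = 0 := by linear_combination hρ - ((ρ : ℂ) - 1) * h
      norm_num at this
    · exact h
  rw [jinv, h4]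
  simp

/-- a modular form of level one has a limit at infinity, its constant term -/
theorem tendsto_form {k : ℤ} (F : ModularForm 𝒮ℒ k) :
    Tendsto F atImInfty (𝓝 ((qExpansion 1 F).coeff 0)) := by
  have ha := ModularFormClass.analyticAt_cuspFunction_zero F one_pos one_mem_strictPeriods_SL
  have hp := SlashInvariantFormClass.periodic_comp_ofComplex (h := 1) F one_mem_strictPeriods_SL
  have h1 : (qExpansion 1 F).coeff 0 = cuspFunction 1 F 0 := by
    rw [qExpansion_coeff]
    simp
  rw [h1]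
  refine (ha.continuousAt.tendsto.comp (qParam_tendsto_atImInfty one_pos)).congr fun τ => ?_
  simpa using eq_cuspFunction τ one_ne_zero hp

/-- **`j` is surjective**: every complex number is `j(τ)` for some `τ` -/
theorem jinv_surjective : Function.Surjective jinv := by
  intro c
  by_contra! hc
  have h0 : ∀ τ : ℍ, E₄ τ ^ 3 - c * discriminant τ ≠ 0 := fun τ h => hc τ (by
    rw [jinv, div_eq_iff (discriminant_ne_zero τ)]
    linear_combination h)
  set G : ℍ → ℂ := fun τ => discriminant τ / (E₄ τ ^ 3 - c * discriminant τ) with hG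
  have hinv : ∀ (γ : SL(2, ℤ)) (τ : ℍ), G (γ • τ) = G τ := by
    intro γ τ
    have h3 : UpperHalfPlane.denom (γ : GL (Fin 2) ℝ) (τ : ℂ) ≠ 0 :=
      UpperHalfPlane.denom_ne_zero _ _
    have h4 : (UpperHalfPlane.denom (γ : GL (Fin 2) ℝ) (τ : ℂ) ^ (4 : ℤ)) ^ 3 =
        UpperHalfPlane.denom (γ : GL (Fin 2) ℝ) (τ : ℂ) ^ (12 : ℤ) := by
      rw [← zpow_natCast, ← zpow_mul]
      norm_num
    have h5 := form_smul E₄ γ τ
    have h6 := disc_smul γ τ
    simp only [hG]
    rw [h5, h6, mul_pow, h4, mul_left_comm c, ← mul_sub,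
      mul_div_mul_left _ _ (zpow_ne_zero _ h3)]
  have hslash : ∀ γ : SL(2, ℤ), G ∣[(0 : ℤ)] γ = G := by
    intro γ
    funext τ
    rw [ModularForm.SL_slash_apply, hinv, neg_zero, zpow_zero, mul_one]
  have hmd : MDiff G := by
    rw [UpperHalfPlane.mdifferentiable_iff]
    have h1 := UpperHalfPlane.mdifferentiable_iff.mp (holo E₄)
    have h2 := UpperHalfPlane.mdifferentiable_iff.mp (holo CuspForm.discriminant)
    exact h2.div ((h1.pow 3).sub (h2.const_mul c)) fun z _ => h0 _
  have hlim : Tendsto G atImInfty (𝓝 0) := by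
    have h1 := tendsto_form E₄
    rw [E_qExpansion_coeff_zero _ ⟨2, rfl⟩] at h1
    have h2 : Tendsto discriminant atImInfty (𝓝 0) := discriminant_isZeroAtImInfty
    have h3 := h2.div ((h1.pow 3).sub (h2.const_mul c)) (by simp)
    rw [zero_div] at h3
    exact h3.congr fun τ => rfl
  have hbd : IsBoundedAtImInfty G := hlim.isBigO_one ℝ
  let F : ModularForm 𝒮ℒ 0 :=
    { toFun := G
      slash_action_eq' := fun A hA => by
        obtain ⟨γ, rfl⟩ := hA
        exact hslash γ
      holo' := hmd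
      bdd_at_cusps' := fun hc => by
        rw [Subgroup.IsArithmetic.isCusp_iff_isCusp_SL2Z] at hc
        rw [OnePoint.isBoundedAt_iff_forall_SL2Z hc]
        intro γ _
        rw [hslash γ]
        exact hbd }
  obtain ⟨x, hx⟩ := levelOne_weight_zero_const F
  have hx' : ∀ τ, G τ = x := fun τ => congrFun hx τ
  have hx0 : x = 0 := by
    have h1 : Tendsto G atImInfty (𝓝 x) := by
      refine tendsto_const_nhds.congr fun τ => (hx' τ).symm
    exact tendsto_nhds_unique h1 hlim
  have h1 := hx' UpperHalfPlane.I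
  rw [hx0, hG, div_eq_zero_iff] at h1
  rcases h1 with h | h
  · exact discriminant_ne_zero _ h
  · exact h0 _ h

end Fermat.Agent.Cor.Tau
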