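import Fermat.Agent.Corollaries.Tau.More

/-!
# Euler's recursions, values of `τ`, and `τ(n)` modulo 64 for odd `n`
-/

set_option autoImplicit false

noncomputable section

open PowerSeries
open scoped ArithmeticFunction.sigma

namespace Fermat.Agent.Cor.Tau

/-- **Euler**: `θφ = -σ₁ φ` for `φ = ∏ (1 - X^(n+1))` -/
theorem th_phi : th (phi ℤ) = -(sg ℤ 1 * phi ℤ) := by
  have h1 : th (ta ℤ) = Pn ℤ * ta ℤ := by
    apply transfer
    rw [map_th, map_mul, map_ta, map_Pn, ta_complex, Pn_complex]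
    exact theta_tauSer
  have hX : th (X : PowerSeries ℤ) = X := by
    ext n
    rw [coeff_th, PowerSeries.coeff_X]
    rcases eq_or_ne n 1 with rfl | hn
    · simp
    · simp [hn]
  have h2 : th (phi ℤ ^ 24) = ((24 : ℕ) : PowerSeries ℤ) * phi ℤ ^ 23 * th (phi ℤ) :=
    th_pow _ 23
  rw [ta_eq_phi, th_mul, hX, h2, Pn] at h1
  have hne : (24 : PowerSeries ℤ) * X * phi ℤ ^ 23 ≠ 0 := by
    have h3 : phi ℤ ≠ 0 := fun h => by
      have := coeff_zero_phi ℤ
      rw [h, map_zero] at this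
      exact zero_ne_one this
    refine mul_ne_zero (mul_ne_zero ?_ PowerSeries.X_ne_zero) (pow_ne_zero _ h3)
    intro h
    have := congrArg (PowerSeries.coeff 0) h
    rw [← map_ofNat (PowerSeries.C (R := ℤ)), PowerSeries.coeff_zero_C, map_zero] at this
    norm_num at this
  apply mul_left_cancel₀ hne
  push_cast at h1
  linear_combination h1

/-- `θ ∑ p(n) Xⁿ = σ₁ ∑ p(n) Xⁿ` -/
theorem th_pser : th (pser ℤ) = sg ℤ 1 * pser ℤ := by
  have h1 := congrArg th (phi_mul_pser ℤ)
  rw [th_mul, th_one, th_phi] at h1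
  have h2 := phi_mul_pser ℤ
  linear_combination pser ℤ * h1 + (th (pser ℤ)) * h2 * (-1) + sg ℤ 1 * pser ℤ * h2

/-- **Euler**: `n p(n) = ∑_{m=1}^n σ₁(m) p(n - m)` -/
theorem partition_recursion (n : ℕ) : n * Fintype.card (Nat.Partition n) =
    ∑ m ∈ Finset.range n, σ 1 (m + 1) * Fintype.card (Nat.Partition (n - 1 - m)) := by
  have h := congrArg (PowerSeries.coeff n) th_pser
  rw [coeff_th, PowerSeries.coeff_mul, Finset.Nat.sum_antidiagonal_eq_sum_range_succ_mk, pser,
    PowerSeries.coeff_mk, Finset.sum_range_succ'] at h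
  simp only [sg, PowerSeries.coeff_mk, ArithmeticFunction.map_zero, Nat.cast_zero, zero_mul,
    add_zero] at h
  have h2 : (n : ℤ) * (Fintype.card (Nat.Partition n) : ℤ) =
      ∑ m ∈ Finset.range n, (σ 1 (m + 1) : ℤ) * (Fintype.card (Nat.Partition (n - 1 - m)) : ℤ) := by
    rw [h]
    refine Finset.sum_congr rfl fun m hm => ?_
    rw [show n - 1 - m = n - (m + 1) by omega]
  exact_mod_cast h2

theorem sigma_one_values : σ 1 1 = 1 ∧ σ 1 2 = 3 ∧ σ 1 3 = 4 ∧ σ 1 4 = 7 ∧ σ 1 5 = 6 ∧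
    σ 1 6 = 12 ∧ σ 1 7 = 8 ∧ σ 1 8 = 15 ∧ σ 1 9 = 13 ∧ σ 1 10 = 18 ∧ σ 1 11 = 12 := by
  simp only [ArithmeticFunction.sigma_one_apply]
  decide

/-- **the values `τ(2), …, τ(12)`** -/
theorem tau_values : tau 2 = -24 ∧ tau 3 = 252 ∧ tau 4 = -1472 ∧ tau 5 = 4830 ∧ tau 6 = -6048 ∧
    tau 7 = -16744 ∧ tau 8 = 84480 ∧ tau 9 = -113643 ∧ tau 10 = -115920 ∧ tau 11 = 534612 ∧
    tau 12 = -370944 := by
  obtain ⟨s1, s2, s3, s4, s5, s6, s7, s8, s9, s10, s11⟩ := sigma_one_values
  have t1 := tau_one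
  have t2 : tau 2 = -24 := by
    have h := tau_recursion 2
    norm_num [Finset.sum_Ico_eq_sum_range, Finset.sum_range_succ, s1, t1] at h
    linarith
  have t3 : tau 3 = 252 := by
    have h := tau_recursion 3
    norm_num [Finset.sum_Ico_eq_sum_range, Finset.sum_range_succ, s1, s2, t1, t2] at h
    linarith
  have t4 : tau 4 = -1472 := by
    have h := tau_recursion 4
    norm_num [Finset.sum_Ico_eq_sum_range, Finset.sum_range_succ, s1, s2, s3, t1, t2, t3] at h
    linarith
  have t5 : tau 5 = 4830 := by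
    have h := tau_recursion 5
    norm_num [Finset.sum_Ico_eq_sum_range, Finset.sum_range_succ, s1, s2, s3, s4, t1, t2, t3, t4] at h
    linarith
  have t6 : tau 6 = -6048 := by
    have h := tau_recursion 6
    norm_num [Finset.sum_Ico_eq_sum_range, Finset.sum_range_succ, s1, s2, s3, s4, s5, t1, t2, t3, t4, t5] at h
    linarith
  have t7 : tau 7 = -16744 := by
    have h := tau_recursion 7
    norm_num [Finset.sum_Ico_eq_sum_range, Finset.sum_range_succ, s1, s2, s3, s4, s5, s6, t1, t2, t3, t4, t5, t6] at h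
    linarith
  have t8 : tau 8 = 84480 := by
    have h := tau_recursion 8
    norm_num [Finset.sum_Ico_eq_sum_range, Finset.sum_range_succ, s1, s2, s3, s4, s5, s6, s7, t1, t2, t3, t4, t5, t6, t7] at h
    linarith
  have t9 : tau 9 = -113643 := by
    have h := tau_recursion 9
    norm_num [Finset.sum_Ico_eq_sum_range, Finset.sum_range_succ, s1, s2, s3, s4, s5, s6, s7, s8, t1, t2, t3, t4, t5, t6, t7, t8] at h
    linarith
  have t10 : tau 10 = -115920 := by
    have h := tau_recursion 10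
    norm_num [Finset.sum_Ico_eq_sum_range, Finset.sum_range_succ, s1, s2, s3, s4, s5, s6, s7, s8, s9, t1, t2, t3, t4, t5, t6, t7, t8, t9] at h
    linarith
  have t11 : tau 11 = 534612 := by
    have h := tau_recursion 11
    norm_num [Finset.sum_Ico_eq_sum_range, Finset.sum_range_succ, s1, s2, s3, s4, s5, s6, s7, s8, s9, s10, t1, t2, t3, t4, t5, t6, t7, t8, t9, t10] at h
    linarith
  have t12 : tau 12 = -370944 := by
    have h := tau_recursion 12
    norm_num [Finset.sum_Ico_eq_sum_range, Finset.sum_range_succ, s1, s2, s3, s4, s5, s6, s7, s8, s9, s10, s11, t1, t2, t3, t4, t5, t6, t7, t8, t9, t10, t11] at h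
    linarith
  exact ⟨t2, t3, t4, t5, t6, t7, t8, t9, t10, t11, t12⟩

end Fermat.Agent.Cor.Tau
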