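import Fermat.Agent.Corollaries.Tau.JInv
import Fermat.Agent.Corollaries.Tau.Recur

/-!
# The coefficients of `j`: values, modulo 2 and 3, and the convergent expansion
-/

set_option autoImplicit false

noncomputable section

open PowerSeries
open scoped ArithmeticFunction.sigma

namespace Fermat.Agent.Cor.Tau

theorem coeff_phi_pow (n : ℕ) : (phi ℤ ^ 24).coeff n = tau (n + 1) := by
  have h := congrArg (PowerSeries.coeff (n + 1)) (ta_eq_phi ℤ)
  rw [PowerSeries.coeff_succ_X_mul, ta, PowerSeries.coeff_mk, Int.cast_id] at h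
  exact h.symm

theorem coeff_zero_jser : (jser ℤ).coeff 0 = 1 := by
  have h := congrArg (PowerSeries.coeff 0) (phi_pow_mul_jser ℤ)
  rw [PowerSeries.coeff_mul, Finset.Nat.sum_antidiagonal_eq_sum_range_succ_mk,
    Finset.sum_range_one, Nat.sub_zero, coeff_phi_pow, tau_one, one_mul] at h
  rw [h, PowerSeries.coeff_zero_eq_constantCoeff_apply, map_pow,
    ← PowerSeries.coeff_zero_eq_constantCoeff_apply, Qn, map_add, coeff_ofNat_mul', sg,
    PowerSeries.coeff_mk, ArithmeticFunction.map_zero, PowerSeries.coeff_zero_one]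
  norm_num

theorem coeff_Q_cube (n : ℕ) (hn : n ≠ 0) : (Qn ℤ ^ 3).coeff n =
    240 * (σ 3 n : ℤ) + 480 * σ 7 n + 115200 * conv 3 7 n := by
  have h0 : Qn ℤ ^ 3 = 1 + 240 * sg ℤ 3 + 480 * sg ℤ 7 + 115200 * (sg ℤ 3 * sg ℤ 7) := by
    rw [pow_succ, pow_two, Qn_sq, Qn]; ring
  rw [h0, map_add, map_add, map_add, coeff_ofNat_mul', coeff_ofNat_mul', coeff_ofNat_mul',
    PowerSeries.coeff_one, if_neg hn, coeff_mul_of_zero, sg, sg, PowerSeries.coeff_mk,
    PowerSeries.coeff_mk, conv]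
  · simp only [PowerSeries.coeff_mk]
    push_cast
    ring
  · rw [sg, PowerSeries.coeff_mk, ArithmeticFunction.map_zero, Nat.cast_zero]
  · rw [sg, PowerSeries.coeff_mk, ArithmeticFunction.map_zero, Nat.cast_zero]

/-- the recursion for the coefficients of `j` -/
theorem jcoeff_recursion (n : ℕ) : tau (n + 2) + ∑ i ∈ Finset.range (n + 1),
    tau (i + 1) * jcoeff (n - i) =
      240 * (σ 3 (n + 1) : ℤ) + 480 * σ 7 (n + 1) + 115200 * conv 3 7 (n + 1) := by
  have h := Finset.sum_range_succ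
    (fun k => (phi ℤ ^ 24).coeff k * (jser ℤ).coeff (n + 1 - k)) (n + 1)
  rw [← coeff_Q_cube (n + 1) (by omega), ← phi_pow_mul_jser, PowerSeries.coeff_mul,
    Finset.Nat.sum_antidiagonal_eq_sum_range_succ_mk]
  refine Eq.trans ?_ h.symm
  rw [Nat.sub_self, coeff_zero_jser, mul_one, coeff_phi_pow, add_comm]
  congr 1
  refine Finset.sum_congr rfl fun i hi => ?_
  rw [Finset.mem_range] at hi
  rw [coeff_phi_pow, jcoeff, show n + 1 - i = n - i + 1 by omega]

theorem sigma_values : σ 3 1 = 1 ∧ σ 3 2 = 9 ∧ σ 3 3 = 28 ∧ σ 3 4 = 73 ∧ σ 3 5 = 126 ∧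
    σ 7 1 = 1 ∧ σ 7 2 = 129 ∧ σ 7 3 = 2188 ∧ σ 7 4 = 16513 ∧ σ 7 5 = 78126 := by
  simp only [ArithmeticFunction.sigma_apply]
  decide

/-- **`j = q⁻¹ + 744 + 196884 q + 21493760 q² + 864299970 q³ + 20245856256 q⁴ + …`** -/
theorem jcoeff_values : jcoeff 0 = 744 ∧ jcoeff 1 = 196884 ∧ jcoeff 2 = 21493760 ∧
    jcoeff 3 = 864299970 ∧ jcoeff 4 = 20245856256 := by
  obtain ⟨t2, t3, t4, t5, t6, -⟩ := tau_values
  have t1 := tau_one
  obtain ⟨a1, a2, a3, a4, a5, b1, b2, b3, b4, b5⟩ := sigma_values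
  have j0 : jcoeff 0 = 744 := by
    have h := jcoeff_recursion 0
    norm_num [Finset.sum_range_succ, Finset.sum_Ico_eq_sum_range, conv, t1, t2, a1, b1] at h
    linarith
  have j1 : jcoeff 1 = 196884 := by
    have h := jcoeff_recursion 1
    norm_num [Finset.sum_range_succ, Finset.sum_Ico_eq_sum_range, conv, t1, t2, t3, a1, a2, b1, b2,
      j0] at h
    linarith
  have j2 : jcoeff 2 = 21493760 := by
    have h := jcoeff_recursion 2
    norm_num [Finset.sum_range_succ, Finset.sum_Ico_eq_sum_range, conv, t1, t2, t3, t4, a1, a2, a3,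
      b1, b2, b3, j0, j1] at h
    linarith
  have j3 : jcoeff 3 = 864299970 := by
    have h := jcoeff_recursion 3
    norm_num [Finset.sum_range_succ, Finset.sum_Ico_eq_sum_range, conv, t1, t2, t3, t4, t5, a1, a2,
      a3, a4, b1, b2, b3, b4, j0, j1, j2] at h
    linarith
  have j4 : jcoeff 4 = 20245856256 := by
    have h := jcoeff_recursion 4
    norm_num [Finset.sum_range_succ, Finset.sum_Ico_eq_sum_range, conv, t1, t2, t3, t4, t5, t6, a1,
      a2, a3, a4, a5, b1, b2, b3, b4, b5, j0, j1, j2, j3] at h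
    linarith
  exact ⟨j0, j1, j2, j3, j4⟩

/-- **`3 ∣ c(n)` unless `n ≡ 2 mod 3`** -/
theorem jcoeff_three {n : ℕ} (hn : ¬ n % 3 = 2) : (3 : ℤ) ∣ jcoeff n := by
  have h3 : (3 : PowerSeries (ZMod 3)) = 0 := by exact_mod_cast zmod_series_eq_zero 3
  have hQ : Qn (ZMod 3) = 1 := by
    rw [Qn]
    linear_combination 80 * sg (ZMod 3) 3 * h3
  have h1 : jser (ZMod 3) = (pser (ZMod 3) ^ 8) ^ 3 := by
    rw [jser, hQ, one_pow, one_mul, ← pow_mul]
  have h2 : (jser (ZMod 3)).coeff (n + 1) = 0 := by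
    rw [h1]
    exact coeff_pow_prime _ (by omega)
  rw [coeff_jser_succ] at h2
  exact (ZMod.intCast_zmod_eq_zero_iff_dvd _ 3).mp h2

/-- squares of power series modulo 2 -/
theorem coeff_sq_two (f : PowerSeries (ZMod 2)) {n : ℕ} (hn : (f ^ 2).coeff n ≠ 0) :
    2 ∣ n ∧ f.coeff (n / 2) ≠ 0 := by
  by_cases h2 : 2 ∣ n
  · refine ⟨h2, fun h0 => hn ?_⟩
    obtain ⟨k, rfl⟩ := h2
    rw [Nat.mul_div_cancel_left k (by norm_num)] at h0
    rw [pow_two, PowerSeries.coeff_mul]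
    refine Finset.sum_involution (fun p _ => (p.2, p.1)) ?_ ?_ ?_ ?_
    · rintro ⟨i, j⟩ _
      simp only
      rw [mul_comm (f.coeff j)]
      exact CharTwo.add_self_eq_zero _
    · rintro ⟨i, j⟩ hij hne heq
      rw [Finset.HasAntidiagonal.mem_antidiagonal] at hij
      simp only [Prod.mk.injEq] at heq hij
      obtain rfl : i = k := by omega
      exact hne (by simp only [h0, zero_mul])
    · rintro ⟨i, j⟩ hij
      rw [Finset.HasAntidiagonal.mem_antidiagonal] at hij ⊢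
      simp only at hij ⊢
      omega
    · rintro ⟨i, j⟩ _
      rfl
  · exact absurd (coeff_pow_prime f h2) hn

/-- **`c(n)` is even unless `n ≡ 7 mod 8`** -/
theorem jcoeff_two {n : ℕ} (hn : ¬ n % 8 = 7) : (2 : ℤ) ∣ jcoeff n := by
  have h2 : (2 : PowerSeries (ZMod 2)) = 0 := by exact_mod_cast zmod_series_eq_zero 2
  have hQ : Qn (ZMod 2) = 1 := by
    rw [Qn]
    linear_combination 120 * sg (ZMod 2) 3 * h2
  have h1 : jser (ZMod 2) = (((pser (ZMod 2) ^ 3) ^ 2) ^ 2) ^ 2 := by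
    rw [jser, hQ, one_pow, one_mul, ← pow_mul, ← pow_mul, ← pow_mul]
  have h3 : (jser (ZMod 2)).coeff (n + 1) = 0 := by
    by_contra hne
    rw [h1] at hne
    obtain ⟨e1, hne⟩ := coeff_sq_two _ hne
    obtain ⟨e2, hne⟩ := coeff_sq_two _ hne
    obtain ⟨e3, -⟩ := coeff_sq_two _ hne
    omega
  rw [coeff_jser_succ] at h3
  exact (ZMod.intCast_zmod_eq_zero_iff_dvd _ 2).mp h3

end Fermat.Agent.Cor.Tau
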