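import Fermat.Agent.Corollaries.Tau.LSeries
import Fermat.Agent.Corollaries.Eta.LValue

/-!
# `L(Δ, x) > 0` for `x > 0`

`Δ = η ^ 24` is positive on the imaginary axis and the completed `L`-function is its Mellin transform,
so it is positive on the whole real axis; the only real zeros of `L(Δ, s)` are `0, -1, -2, …`.
-/

set_option autoImplicit false

noncomputable section

open UpperHalfPlane hiding I
open Complex hiding eta
open ModularForm CongruenceSubgroup MeasureTheory
open scoped Real MatrixGroups Topology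

namespace Fermat.Agent.Cor.Tau

open Fermat.Agent.Cor.Eta

section levelOne

variable {k : ℤ}

theorem mellinConvergent_levelOne (hk : 0 < k) (f : CuspForm 𝒮ℒ k) (s : ℂ) :
    MellinConvergent (fun t : ℝ => f (ofComplex (I * (t : ℂ)))) s := by
  have hP := CuspForm.isStrongFEPair hk f
  obtain ⟨a, ha⟩ := exists_gt s.re
  obtain ⟨b, hb⟩ := exists_lt s.re
  exact mellinConvergent_of_isBigO_rpow (weakFEPair hk f).hf_int (hP.hf_top _) ha (hP.hf_zero _) hb

/-- A cusp form of level one which is positive on the imaginary axis has a positive completed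
`L`-function on the real axis. -/
theorem isPos_Λ_levelOne (hk : 0 < k) (f : CuspForm 𝒮ℒ k)
    (hf : ∀ t : ℝ, 0 < t → IsPos (f (ofComplex (I * (t : ℂ))))) (x : ℝ) :
    IsPos (ModularForm.Λ hk f x) := by
  rw [CuspForm.Λ_eq_mellin hk f]
  set g : ℝ → ℝ := fun t => (f (ofComplex (I * (t : ℂ)))).re with hg
  have hg0 : ∀ t : ℝ, 0 < t → 0 < g t ∧ f (ofComplex (I * (t : ℂ))) = g t := by
    intro t ht
    obtain ⟨y, hy, he⟩ := hf t ht
    have h1 : g t = y := by rw [hg]; simp only; rw [he, ofReal_re]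
    rw [h1]
    exact ⟨hy, he⟩
  have hcongr : ∀ t ∈ Set.Ioi (0 : ℝ), (t : ℂ) ^ ((x : ℂ) - 1) • f (ofComplex (I * (t : ℂ))) =
      ((t ^ (x - 1) * g t : ℝ) : ℂ) := by
    intro t ht
    rw [(hg0 t ht).2, smul_eq_mul, ofReal_mul, ofReal_cpow (le_of_lt ht)]
    push_cast
    rfl
  have hint : IntegrableOn (fun t : ℝ => ((t ^ (x - 1) * g t : ℝ) : ℂ)) (Set.Ioi 0) :=
    (mellinConvergent_levelOne hk f x).congr_fun hcongr measurableSet_Ioi
  have hint' : IntegrableOn (fun t : ℝ => t ^ (x - 1) * g t) (Set.Ioi 0) := by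
    have h1 : Integrable (fun t : ℝ => ((t ^ (x - 1) * g t : ℝ) : ℂ)) (volume.restrict (Set.Ioi 0)) :=
      hint
    have h2 := h1.re
    simp only [RCLike.re_to_complex, ofReal_re] at h2
    exact h2
  have hpos : ∀ t ∈ Set.Ioi (0 : ℝ), 0 < t ^ (x - 1) * g t := fun t ht =>
    mul_pos (Real.rpow_pos_of_pos ht _) (hg0 t ht).1
  refine ⟨∫ t in Set.Ioi (0 : ℝ), t ^ (x - 1) * g t, ?_, ?_⟩
  · rw [setIntegral_pos_iff_support_of_nonneg_ae _ hint']
    · refine lt_of_lt_of_le ?_ (measure_mono (μ := volume) (s := Set.Ioi (0 : ℝ)) fun t ht =>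
        ⟨(hpos t ht).ne', ht⟩)
      simp
    · exact (ae_restrict_iff' measurableSet_Ioi).mpr
        (Filter.Eventually.of_forall fun t ht => (hpos t ht).le)
  · rw [mellin, setIntegral_congr_fun measurableSet_Ioi hcongr, integral_complex_ofReal]

end levelOne

/-- `Δ(i t) > 0` -/
theorem discriminant_I_pos {t : ℝ} (ht : 0 < t) :
    IsPos (CuspForm.discriminant (ofComplex (I * (t : ℂ)))) := by
  have h : CuspForm.discriminant (ofComplex (I * (t : ℂ))) =
      eta (ofComplex (I * (t : ℂ)) : ℍ) ^ 24 := by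
    rw [CuspForm.coe_discriminant, discriminant]
  rw [h, HW.coe_ofComplex_I ht]
  exact (eta_I_pos ht).pow 24

/-- the completed `L`-function of `Δ` is positive on the real axis -/
theorem isPos_completedLTau (x : ℝ) : IsPos (completedLTau x) :=
  isPos_Λ_levelOne _ _ (fun _ ht => discriminant_I_pos ht) x

/-- **`L(Δ, x) > 0` for every real `x > 0`** -/
theorem LTau_pos {x : ℝ} (hx : 0 < x) : 0 < (LTau x).re ∧ (LTau x).im = 0 := by
  have h2pi : (0 : ℝ) < 2 * π := by positivity
  have hG : IsPos (Gammaℂ x) := by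
    rw [Gammaℂ_def, Gamma_ofReal]
    refine IsPos.mul (IsPos.mul ⟨2, two_pos, by norm_num⟩ ?_) ⟨_, Real.Gamma_pos_of_pos hx, rfl⟩
    refine ⟨(2 * π) ^ (-x), Real.rpow_pos_of_pos h2pi _, ?_⟩
    rw [ofReal_cpow h2pi.le]
    push_cast
    rfl
  have h : IsPos (LTau x) := by
    rw [LTau, ModularForm.L, div_eq_mul_inv]
    exact (isPos_completedLTau x).mul (IsPos.mul ⟨2, two_pos, by norm_num⟩ hG.inv)
  obtain ⟨y, hy, he⟩ := h
  rw [he]
  exact ⟨by simpa using hy, by simp⟩

/-- **The real zeros of `L(Δ, s)`** are exactly `0, -1, -2, …`. -/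
theorem LTau_real_eq_zero_iff (x : ℝ) : LTau x = 0 ↔ ∃ n : ℕ, x = -n := by
  constructor
  · intro h
    by_contra hn
    push Not at hn
    have hn' : ∀ n : ℕ, (x : ℂ) ≠ -n := fun n hx => hn n (by exact_mod_cast hx)
    have h1 := completedLTau_eq hn'
    rw [h, mul_zero] at h1
    exact (isPos_completedLTau x).ne_zero h1
  · rintro ⟨n, rfl⟩
    have := LTau_neg_nat n
    exact_mod_cast this

end Fermat.Agent.Cor.Tau
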