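import Fermat.Agent.Corollaries.Tau.Mordell
import Mathlib.NumberTheory.ModularForms.LFunction
import Mathlib.NumberTheory.EulerProduct.Basic

/-!
# The `L`-function of `Δ` and of the other eigenforms in one-dimensional spaces

* `Λ_levelOne`: the functional equation `Λ(f, k - s) = i ^ k Λ(f, s)`;
* `HeckeRel.hasProd`: the Euler product;
* `HeckeRel.norm_le`: the bound `|a(n)| ≤ n ^ h σ₁(n)` for the coefficients of an eigenform of weight
  `2 h + 2`, with constant one (Hecke's `O`-bound and the Hecke relations at the powers of a prime);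
* for `Δ`: `abs_tau_le : |τ(n)| ≤ n ^ 5 σ₁(n)`, `abs_tau_prime_le : |τ(p)| ≤ p ^ 6 + p ^ 5`.
-/

set_option autoImplicit false

noncomputable section

open UpperHalfPlane hiding I
open Complex ModularForm CongruenceSubgroup Filter Asymptotics
open scoped MatrixGroups Real Topology

namespace Fermat.Agent.Cor.Tau

/-! ### The functional equation -/

theorem Λ_levelOne {k : ℤ} (hk : 0 < k) (f : CuspForm 𝒮ℒ k) (s : ℂ) :
    ModularForm.Λ hk f (k - s) = I ^ k * ModularForm.Λ hk f s := by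
  have h := (weakFEPair hk f).functional_equation s
  have hP := CuspForm.isStrongFEPair hk f
  have h2 : (weakFEPair hk f).symm.Λ s = ModularForm.Λ hk f s := by
    rw [ModularForm.Λ, hP.symm_Λ_eq, hP.Λ_eq]
    congr 1
    funext t
    have h3 : ⇑f ∣[k] (ModularGroup.S : GL (Fin 2) ℝ) = ⇑f :=
      SlashInvariantFormClass.slash_action_eq f _ ⟨ModularGroup.S, rfl⟩
    change (⇑f ∣[k] (ModularGroup.S : GL (Fin 2) ℝ)) (ofComplex (I * t)) = f (ofComplex (I * t))
    rw [h3]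
  rw [h2] at h
  simpa [ModularForm.Λ] using h

/-! ### The Euler product -/

section Euler

variable {a : ℕ → ℂ} {j : ℕ}

theorem HeckeRel.tsum_pow_mul (H : HeckeRel a (powHom ℂ j)) {s : ℂ}
    (hs : Summable fun n : ℕ => ‖LSeries.term a s n‖) {p : ℕ} (hp : p.Prime) :
    (∑' e : ℕ, LSeries.term a s (p ^ e)) *
      (1 - a p * (p : ℂ) ^ (-s) + (p : ℂ) ^ ((j : ℂ) - 2 * s)) = 1 := by
  have hp0 : (p : ℂ) ≠ 0 := Nat.cast_ne_zero.mpr hp.ne_zero
  set x : ℕ → ℂ := fun e => LSeries.term a s (p ^ e) with hx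
  have hxe : ∀ e, x e = a (p ^ e) * ((p : ℂ) ^ (-s)) ^ e := by
    intro e
    rw [hx]
    simp only
    rw [LSeries.term_of_ne_zero (pow_ne_zero _ hp.ne_zero), div_eq_mul_inv, Nat.cast_pow]
    congr 1
    rw [← cpow_neg, ← cpow_nat_mul, ← natCast_cpow_natCast_mul]
  have hsum : Summable x :=
    (hs.of_norm).comp_injective (Nat.pow_right_injective hp.two_le)
  have h0 : x 0 = 1 := by rw [hxe, pow_zero, pow_zero, mul_one, H.one]
  have h1 : x 1 = a p * (p : ℂ) ^ (-s) := by rw [hxe, pow_one, pow_one]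
  have hpp : (p : ℂ) ^ ((j : ℂ) - 2 * s) = (p : ℂ) ^ j * ((p : ℂ) ^ (-s)) ^ 2 := by
    rw [sub_eq_add_neg, cpow_add _ _ hp0, cpow_natCast, ← cpow_nat_mul]
    congr 2
    push_cast
    ring
  have hrec : ∀ e, x (e + 2) = (a p * (p : ℂ) ^ (-s)) * x (e + 1) -
      (p : ℂ) ^ ((j : ℂ) - 2 * s) * x e := by
    intro e
    rw [hxe, hxe, hxe, H.prime_pow hp e, hpp, powHom_apply]
    ring
  have e1 := hsum.tsum_eq_zero_add
  have hsum1 : Summable fun e => x (e + 1) := (summable_nat_add_iff 1).mpr hsum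
  have e2 := hsum1.tsum_eq_zero_add
  simp only [zero_add] at e2
  rw [h0] at e1
  rw [h1] at e2
  have e3 : ∑' e, x (e + 1 + 1) = (a p * (p : ℂ) ^ (-s)) * ∑' e, x (e + 1) -
      (p : ℂ) ^ ((j : ℂ) - 2 * s) * ∑' e, x e := by
    rw [← tsum_mul_left, ← tsum_mul_left, ← Summable.tsum_sub (hsum1.mul_left _) (hsum.mul_left _)]
    exact tsum_congr hrec
  set S := ∑' e, x e with hS
  rw [e3] at e2
  have e4 : ∑' e, x (e + 1) = S - 1 := by rw [e1]; ring
  rw [e4] at e2
  linear_combination e2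

theorem HeckeRel.tsum_pow (H : HeckeRel a (powHom ℂ j)) {s : ℂ}
    (hs : Summable fun n : ℕ => ‖LSeries.term a s n‖) {p : ℕ} (hp : p.Prime) :
    ∑' e : ℕ, LSeries.term a s (p ^ e) =
      (1 - a p * (p : ℂ) ^ (-s) + (p : ℂ) ^ ((j : ℂ) - 2 * s))⁻¹ :=
  eq_inv_of_mul_eq_one_left (H.tsum_pow_mul hs hp)

/-- **The Euler product** of the `L`-function of a normalised eigenform of level one. -/
theorem HeckeRel.hasProd (H : HeckeRel a (powHom ℂ j)) {s : ℂ} (hs : LSeriesSummable a s) :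
    HasProd (fun p : Nat.Primes =>
      (1 - a p * ((p : ℕ) : ℂ) ^ (-s) + ((p : ℕ) : ℂ) ^ ((j : ℂ) - 2 * s))⁻¹) (LSeries a s) := by
  have hs' : Summable fun n : ℕ => ‖LSeries.term a s n‖ := hs.norm
  have h1 : LSeries.term a s 1 = 1 := by
    rw [LSeries.term_of_ne_zero one_ne_zero, Nat.cast_one, one_cpow, div_one, H.one]
  have hmul : ∀ {m n : ℕ}, m.Coprime n →
      LSeries.term a s (m * n) = LSeries.term a s m * LSeries.term a s n := by
    intro m n hmn
    rcases eq_or_ne m 0 with rfl | hm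
    · rw [zero_mul, LSeries.term_zero, zero_mul]
    rcases eq_or_ne n 0 with rfl | hn
    · rw [mul_zero, LSeries.term_zero, mul_zero]
    rw [LSeries.term_of_ne_zero (mul_ne_zero hm hn), LSeries.term_of_ne_zero hm,
      LSeries.term_of_ne_zero hn, H.mul_of_coprime hmn, Nat.cast_mul,
      natCast_mul_natCast_cpow, mul_div_mul_comm]
  have h := EulerProduct.eulerProduct_hasProd h1 hmul hs' (LSeries.term_zero a s)
  have he : (fun p : Nat.Primes => ∑' e : ℕ, LSeries.term a s ((p : ℕ) ^ e)) =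
      fun p : Nat.Primes => (1 - a p * ((p : ℕ) : ℂ) ^ (-s) + ((p : ℕ) : ℂ) ^ ((j : ℂ) - 2 * s))⁻¹ :=
    funext fun p => H.tsum_pow hs' p.2
  rwa [he] at h

/-- The `L`-series of a normalised eigenform does not vanish where it converges absolutely. -/
theorem HeckeRel.LSeries_ne_zero (H : HeckeRel a (powHom ℂ j)) {s : ℂ}
    (hs : LSeriesSummable a s) : LSeries a s ≠ 0 := by
  have hs' : Summable fun n : ℕ => ‖LSeries.term a s n‖ := hs.norm
  have h := H.hasProd hs
  have he : (fun p : Nat.Primes =>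
      (1 - a p * ((p : ℕ) : ℂ) ^ (-s) + ((p : ℕ) : ℂ) ^ ((j : ℂ) - 2 * s))⁻¹) =
      fun p : Nat.Primes => 1 + ∑' e : ℕ, LSeries.term a s ((p : ℕ) ^ (e + 1)) := by
    funext p
    have hsum : Summable fun e : ℕ => LSeries.term a s ((p : ℕ) ^ e) :=
      (hs'.of_norm).comp_injective (Nat.pow_right_injective p.2.two_le)
    rw [← H.tsum_pow hs' p.2, hsum.tsum_eq_zero_add, pow_zero,
      LSeries.term_of_ne_zero one_ne_zero, Nat.cast_one, one_cpow, div_one, H.one]
  have hne : ∀ p : Nat.Primes, 1 + ∑' e : ℕ, LSeries.term a s ((p : ℕ) ^ (e + 1)) ≠ 0 := by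
    intro p
    rw [← congrFun he p, ← H.tsum_pow hs' p.2]
    exact left_ne_zero_of_mul_eq_one (H.tsum_pow_mul hs' p.2)
  rw [he] at h
  rw [← h.tprod_eq]
  refine tprod_one_add_ne_zero_of_summable hne ?_
  have hinj : Function.Injective fun x : Nat.Primes × ℕ => (x.1 : ℕ) ^ (x.2 + 1) := by
    have h1 := Subtype.val_injective.comp Nat.Primes.prodNatEquiv.injective
    intro x y hxy
    exact h1 hxy
  have hprod : Summable fun x : Nat.Primes × ℕ =>
      ‖LSeries.term a s ((x.1 : ℕ) ^ (x.2 + 1))‖ := hs'.comp_injective hinj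
  refine Summable.of_nonneg_of_le (fun _ => norm_nonneg _) (fun p => ?_) hprod.prod
  exact norm_tsum_le_tsum_norm (hprod.prod_factor p)

end Euler

/-! ### The size of the coefficients -/

section Homog

variable {R : Type*} [CommRing R]

/-- `∑_{i ≤ r} x ^ i y ^ (r - i)` -/
def homog (x y : R) (r : ℕ) : R := ∑ i ∈ Finset.range (r + 1), x ^ i * y ^ (r - i)

theorem homog_zero (x y : R) : homog x y 0 = 1 := by simp [homog]

theorem homog_succ (x y : R) (r : ℕ) : homog x y (r + 1) = x ^ (r + 1) + y * homog x y r := by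
  rw [homog, Finset.sum_range_succ, homog, Finset.mul_sum, Nat.sub_self, pow_zero, mul_one, add_comm]
  congr 1
  refine Finset.sum_congr rfl fun i hi => ?_
  rw [Finset.mem_range] at hi
  rw [show r + 1 - i = (r - i) + 1 by omega]
  ring

theorem homog_succ' (x y : R) (r : ℕ) : homog x y (r + 1) = y ^ (r + 1) + x * homog x y r := by
  rw [homog, Finset.sum_range_succ', homog, Finset.mul_sum, pow_zero, one_mul, Nat.sub_zero,
    add_comm]
  congr 1
  refine Finset.sum_congr rfl fun i _ => ?_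
  rw [show r + 1 - (i + 1) = r - i by omega]
  ring

theorem homog_one (x y : R) : homog x y 1 = x + y := by
  rw [homog_succ, homog_zero, zero_add, pow_one, mul_one]

theorem homog_rec (x y : R) (r : ℕ) :
    homog x y (r + 2) = (x + y) * homog x y (r + 1) - x * y * homog x y r := by
  have h1 := homog_succ x y (r + 1)
  have h2 := homog_succ x y r
  linear_combination h1 - x * h2

theorem homog_add_two (x y : R) (r : ℕ) :
    homog x y (r + 2) = x ^ (r + 2) + y ^ (r + 2) + x * y * homog x y r := by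
  have h1 := homog_succ x y (r + 1)
  have h2 := homog_succ' x y r
  linear_combination h1 + y * h2

theorem sub_mul_homog (x y : R) (r : ℕ) :
    (x - y) * homog x y r = x ^ (r + 1) - y ^ (r + 1) := by
  linear_combination homog_succ x y r - homog_succ' x y r

theorem HeckeRel.pow_eq_homog {a : ℕ → R} {ψ : ℕ →* R} (H : HeckeRel a ψ) {p : ℕ} (hp : p.Prime)
    {x y : R} (h1 : x + y = a p) (h2 : x * y = ψ p) (r : ℕ) : a (p ^ r) = homog x y r := by
  induction r using Nat.twoStepInduction with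
  | zero => rw [pow_zero, H.one, homog_zero]
  | one => rw [pow_one, homog_one, h1]
  | more r ih1 ih2 => rw [H.prime_pow hp r, ih1, ih2, homog_rec, h1, h2]

end Homog

theorem homog_le {x y A B : ℝ} (hx : 0 ≤ x) (hy : 0 ≤ y) (hxA : x ≤ A) (hyA : y ≤ A) (hA : 0 < A)
    (hB : 0 ≤ B) (hxy : x * y = A * B) (r : ℕ) : homog x y r ≤ homog A B r := by
  have key : ∀ n : ℕ, x ^ n + y ^ n ≤ A ^ n + B ^ n := by
    intro n
    have h1 : 0 ≤ (A ^ n - x ^ n) * (A ^ n - y ^ n) :=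
      mul_nonneg (sub_nonneg.mpr (pow_le_pow_left₀ hx hxA n))
        (sub_nonneg.mpr (pow_le_pow_left₀ hy hyA n))
    have h2 : x ^ n * y ^ n = A ^ n * B ^ n := by rw [← mul_pow, hxy, mul_pow]
    have h3 : 0 < A ^ n := pow_pos hA n
    have h4 : A ^ n * (x ^ n + y ^ n) ≤ A ^ n * (A ^ n + B ^ n) := by nlinarith
    exact le_of_mul_le_mul_left h4 h3
  induction r using Nat.twoStepInduction with
  | zero => rw [homog_zero, homog_zero]
  | one =>
    rw [homog_one, homog_one]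
    simpa using key 1
  | more r ih1 ih2 =>
    rw [homog_add_two, homog_add_two, hxy]
    have := key (r + 2)
    have h5 := mul_le_mul_of_nonneg_left ih1 (mul_nonneg hA.le hB)
    linarith

theorem norm_homog_le (x y : ℂ) (r : ℕ) : ‖homog x y r‖ ≤ homog ‖x‖ ‖y‖ r := by
  rw [homog, homog]
  refine (norm_sum_le _ _).trans_eq (Finset.sum_congr rfl fun i _ => ?_)
  rw [norm_mul, norm_pow, norm_pow]

/-- If `∑_{i ≤ r} x ^ i y ^ (r - i) = O(A ^ r)` and `|x y| ≤ A ^ 2`, then `|x| ≤ A`. -/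
theorem norm_le_of_homog {x y : ℂ} {A C : ℝ} (hA : 0 < A) (hxy : ‖x‖ * ‖y‖ ≤ A * A)
    (h : ∀ᶠ r : ℕ in atTop, ‖homog x y r‖ ≤ C * A ^ r) : ‖x‖ ≤ A := by
  by_contra hlt
  rw [not_le] at hlt
  have hy : ‖y‖ ≤ A := by
    by_contra hy
    rw [not_le] at hy
    have := mul_lt_mul'' hlt hy hA.le hA.le
    linarith
  have h1 : 1 < ‖x‖ / A := (one_lt_div hA).mpr hlt
  have h2 := tendsto_pow_atTop_atTop_of_one_lt h1
  have h3 := (tendsto_add_atTop_iff_nat 1).mpr h2
  obtain ⟨r, hr1, hr2⟩ := ((h3.eventually_gt_atTop ((‖x - y‖ * C + A) / A)).and h).exists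
  have h4 : ‖x‖ ^ (r + 1) ≤ ‖x - y‖ * (C * A ^ r) + A ^ (r + 1) := by
    have h5 : x ^ (r + 1) = (x - y) * homog x y r + y ^ (r + 1) := by
      rw [sub_mul_homog]; ring
    rw [← norm_pow, h5]
    refine (norm_add_le _ _).trans (add_le_add ?_ ?_)
    · rw [norm_mul]
      exact mul_le_mul_of_nonneg_left hr2 (norm_nonneg _)
    · rw [norm_pow]
      exact pow_le_pow_left₀ (norm_nonneg _) hy _
  rw [div_pow, lt_div_iff₀ (pow_pos hA _)] at hr1
  have h6 : (‖x - y‖ * C + A) / A * A ^ (r + 1) = ‖x - y‖ * (C * A ^ r) + A ^ (r + 1) := by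
    field_simp
    ring
  rw [h6] at hr1
  exact absurd hr1 (not_lt.mpr h4)

section Size

variable {a : ℕ → ℂ} {h : ℕ}

/-- at the powers of a prime -/
theorem HeckeRel.norm_pow_le (H : HeckeRel a (powHom ℂ (2 * h + 1)))
    (hO : a =O[atTop] fun n : ℕ => (n : ℝ) ^ (h + 1)) {p : ℕ} (hp : p.Prime) (r : ℕ) :
    ‖a (p ^ r)‖ ≤ homog ((p : ℝ) ^ (h + 1)) ((p : ℝ) ^ h) r := by
  have hp0 : (0 : ℝ) < p := Nat.cast_pos.mpr hp.pos
  have hp1 : (1 : ℝ) ≤ p := by exact_mod_cast hp.one_lt.le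
  obtain ⟨z, hz⟩ := IsAlgClosed.exists_pow_nat_eq (a p ^ 2 - 4 * (p : ℂ) ^ (2 * h + 1)) two_pos
  set x : ℂ := (a p + z) / 2 with hx
  set y : ℂ := (a p - z) / 2 with hy
  have h1 : x + y = a p := by rw [hx, hy]; ring
  have h2 : x * y = powHom ℂ (2 * h + 1) p := by
    rw [powHom_apply, hx, hy]
    linear_combination (-1 / 4) * hz
  have h2' : y * x = powHom ℂ (2 * h + 1) p := by rw [mul_comm]; exact h2
  have hn : ‖x‖ * ‖y‖ = (p : ℝ) ^ (h + 1) * (p : ℝ) ^ h := by
    rw [← norm_mul, h2, powHom_apply, norm_pow, norm_natCast, ← pow_add]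
    congr 1
    ring
  have hle : (p : ℝ) ^ (h + 1) * (p : ℝ) ^ h ≤ (p : ℝ) ^ (h + 1) * (p : ℝ) ^ (h + 1) :=
    mul_le_mul_of_nonneg_left (pow_le_pow_right₀ hp1 (Nat.le_succ h)) (by positivity)
  obtain ⟨C, hC⟩ := hO.bound
  have hC2 : ∀ᶠ r : ℕ in atTop, ‖homog x y r‖ ≤ C * ((p : ℝ) ^ (h + 1)) ^ r := by
    have ht : Tendsto (fun r : ℕ => p ^ r) atTop atTop :=
      tendsto_pow_atTop_atTop_of_one_lt hp.one_lt
    filter_upwards [ht.eventually hC] with r hr
    rw [H.pow_eq_homog hp h1 h2] at hr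
    refine hr.trans_eq ?_
    rw [Nat.cast_pow, Real.norm_of_nonneg (by positivity), ← pow_mul, ← pow_mul, mul_comm r]
  have hC3 : ∀ᶠ r : ℕ in atTop, ‖homog y x r‖ ≤ C * ((p : ℝ) ^ (h + 1)) ^ r := by
    filter_upwards [hC2] with r hr
    rwa [← H.pow_eq_homog hp h1 h2, H.pow_eq_homog hp (by rw [add_comm]; exact h1) h2'] at hr
  have hxA : ‖x‖ ≤ (p : ℝ) ^ (h + 1) :=
    norm_le_of_homog (by positivity) (hn.le.trans hle) hC2
  have hyA : ‖y‖ ≤ (p : ℝ) ^ (h + 1) :=
    norm_le_of_homog (by positivity) ((mul_comm ‖y‖ ‖x‖).le.trans (hn.le.trans hle)) hC3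
  rw [H.pow_eq_homog hp h1 h2]
  exact (norm_homog_le x y r).trans
    (homog_le (norm_nonneg _) (norm_nonneg _) hxA hyA (by positivity) (by positivity) hn r)

/-- at the primes: `|a(p)| ≤ p ^ (k / 2) + p ^ (k / 2 - 1)` -/
theorem HeckeRel.norm_prime_le (H : HeckeRel a (powHom ℂ (2 * h + 1)))
    (hO : a =O[atTop] fun n : ℕ => (n : ℝ) ^ (h + 1)) {p : ℕ} (hp : p.Prime) :
    ‖a p‖ ≤ (p : ℝ) ^ (h + 1) + (p : ℝ) ^ h := by
  have := H.norm_pow_le hO hp 1
  rwa [pow_one, homog_one] at this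

theorem homog_pow_eq {p : ℕ} (hp : p.Prime) (h r : ℕ) :
    homog ((p : ℝ) ^ (h + 1)) ((p : ℝ) ^ h) r =
      ((p ^ r : ℕ) : ℝ) ^ h * ∑ d ∈ (p ^ r).divisors, (d : ℝ) := by
  rw [Nat.sum_divisors_prime_pow hp, homog, Finset.mul_sum]
  refine Finset.sum_congr rfl fun i hi => ?_
  rw [Finset.mem_range] at hi
  push_cast
  rw [← pow_mul, ← pow_mul, ← pow_mul, ← pow_add, ← pow_add]
  congr 1
  obtain ⟨t, rfl⟩ := Nat.exists_eq_add_of_le (show i ≤ r by omega)
  rw [Nat.add_sub_cancel_left]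
  ring

/-- **`|a(n)| ≤ n ^ (k / 2 - 1) σ₁(n)`** for the coefficients of a normalised eigenform of level one and
weight `k = 2 h + 2`. -/
theorem HeckeRel.norm_le (H : HeckeRel a (powHom ℂ (2 * h + 1)))
    (hO : a =O[atTop] fun n : ℕ => (n : ℝ) ^ (h + 1)) {n : ℕ} (hn : n ≠ 0) :
    ‖a n‖ ≤ (n : ℝ) ^ h * ∑ d ∈ n.divisors, (d : ℝ) := by
  induction n using Nat.recOnPosPrimePosCoprime with
  | zero => exact absurd rfl hn
  | one => simp [H.one]
  | prime_pow p r hp hr =>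
    exact (H.norm_pow_le hO hp r).trans_eq (homog_pow_eq hp h r)
  | coprime m n hm hn' hmn ihm ihn =>
    rw [H.mul_of_coprime hmn, norm_mul, sum_divisors_mul_of_coprime hmn]
    refine (mul_le_mul (ihm (by omega)) (ihn (by omega)) (norm_nonneg _) (by positivity)).trans_eq ?_
    rw [Nat.cast_mul, mul_pow]
    have e : ∑ x ∈ m.divisors, ∑ y ∈ n.divisors, ((x * y : ℕ) : ℝ) =
        (∑ x ∈ m.divisors, (x : ℝ)) * ∑ y ∈ n.divisors, (y : ℝ) := by
      rw [Finset.sum_mul_sum]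
      simp only [Nat.cast_mul]
    rw [e]
    ring

end Size

/-! ### Cusp forms of level one -/

section Level

variable {k : ℤ}

theorem coeff_isBigO (f : CuspForm 𝒮ℒ k) :
    (fun n : ℕ => (qExpansion 1 f).coeff n) =O[atTop] fun n : ℕ => (n : ℝ) ^ ((k : ℝ) / 2) := by
  have h := CuspFormClass.qExpansion_isBigO (Γ := 𝒮ℒ) f
  rwa [Subgroup.strictWidthInfty_SL2Z] at h

theorem hasSum_term (hk : 0 < k) (f : CuspForm 𝒮ℒ k) {s : ℂ} (hs : (k : ℝ) / 2 + 1 < s.re) :
    HasSum (LSeries.term (fun n => (qExpansion 1 f).coeff n) s) (ModularForm.L hk f s) := by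
  have h := CuspForm.hasSum_L (Γ := 𝒮ℒ) (hk := hk) f hs
  rw [Subgroup.strictWidthInfty_SL2Z, ofReal_one, one_cpow, one_mul] at h
  refine h.congr_fun fun n => ?_
  rcases eq_or_ne n 0 with rfl | hn
  · rw [LSeries.term_zero,
      CuspFormClass.qExpansion_coeff_zero f one_pos one_mem_strictPeriods_SL, zero_div]
  · rw [LSeries.term_of_ne_zero hn]

theorem lseriesSummable (hk : 0 < k) (f : CuspForm 𝒮ℒ k) {s : ℂ} (hs : (k : ℝ) / 2 + 1 < s.re) :
    LSeriesSummable (fun n => (qExpansion 1 f).coeff n) s :=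
  (hasSum_term hk f hs).summable

/-- `L(f, s) = ∑ a(n) n ^ (-s)` for `re s > k / 2 + 1`. -/
theorem L_eq_LSeries (hk : 0 < k) (f : CuspForm 𝒮ℒ k) {s : ℂ} (hs : (k : ℝ) / 2 + 1 < s.re) :
    ModularForm.L hk f s = LSeries (fun n => (qExpansion 1 f).coeff n) s :=
  (hasSum_term hk f hs).tsum_eq.symm

theorem Gammaℂ_mul_L (hk : 0 < k) (f : CuspForm 𝒮ℒ k) {s : ℂ} (hs : ∀ n : ℕ, s ≠ -n) :
    Gammaℂ s * ModularForm.L hk f s = 2 * ModularForm.Λ hk f s := by
  have h : Gammaℂ s ≠ 0 := by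
    rw [Gammaℂ]
    refine mul_ne_zero (mul_ne_zero two_ne_zero ?_) (Gamma_ne_zero hs)
    exact cpow_ne_zero_iff.mpr (Or.inl (mul_ne_zero two_ne_zero (ofReal_ne_zero.mpr Real.pi_ne_zero)))
  rw [ModularForm.L]
  field_simp

/-- the trivial zeros -/
theorem L_neg_nat (hk : 0 < k) (f : CuspForm 𝒮ℒ k) (n : ℕ) : ModularForm.L hk f (-n) = 0 := by
  rw [ModularForm.L, Gammaℂ, Gamma_neg_nat_eq_zero, mul_zero, div_zero, mul_zero]

/-- **The functional equation** of a cusp form of level one. -/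
theorem L_functional (hk : 0 < k) (f : CuspForm 𝒮ℒ k) {s : ℂ} (hs : ∀ n : ℕ, s ≠ -n)
    (hs' : ∀ n : ℕ, (k : ℂ) - s ≠ -n) :
    Gammaℂ (k - s) * ModularForm.L hk f (k - s) = I ^ k * (Gammaℂ s * ModularForm.L hk f s) := by
  rw [Gammaℂ_mul_L hk f hs, Gammaℂ_mul_L hk f hs', Λ_levelOne]
  ring

end Level

/-! ### The `L`-function of `Δ` -/

/-- **The `L`-function of `Δ`**: the entire function with `L(s) = ∑ τ(n) n ^ (-s)` for `re s > 7`. -/
def LTau (s : ℂ) : ℂ := ModularForm.L (k := 12) (by norm_num) CuspForm.discriminant s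

/-- the completed `L`-function `(2 π) ^ (-s) Γ(s) L(s)` -/
def completedLTau (s : ℂ) : ℂ := ModularForm.Λ (k := 12) (by norm_num) CuspForm.discriminant s

theorem coeff_discriminant_eq :
    (fun n => (qExpansion 1 CuspForm.discriminant).coeff n) = fun n => (tau n : ℂ) :=
  funext coeff_discriminant

theorem differentiable_LTau : Differentiable ℂ LTau :=
  CuspForm.differentiable_L (Γ := 𝒮ℒ) (k := 12) (by norm_num) CuspForm.discriminant

theorem differentiable_completedLTau : Differentiable ℂ completedLTau :=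
  CuspForm.differentiable_Λ (Γ := 𝒮ℒ) (k := 12) (by norm_num) CuspForm.discriminant

/-- **`Λ(12 - s) = Λ(s)`** -/
theorem completedLTau_sub (s : ℂ) : completedLTau (12 - s) = completedLTau s := by
  have h := Λ_levelOne (k := 12) (by norm_num) CuspForm.discriminant s
  have h2 : (I : ℂ) ^ (12 : ℤ) = 1 := by
    rw [show (12 : ℤ) = ((4 * 3 : ℕ) : ℤ) by norm_num, zpow_natCast, pow_mul, I_pow_four, one_pow]
  rw [h2, one_mul] at h
  exact_mod_cast h

theorem completedLTau_eq {s : ℂ} (hs : ∀ n : ℕ, s ≠ -n) :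
    completedLTau s = (2 * π) ^ (-s) * Gamma s * LTau s := by
  have h := Gammaℂ_mul_L (k := 12) (by norm_num) CuspForm.discriminant hs
  rw [Gammaℂ] at h
  have h2 : (2 : ℂ) ≠ 0 := two_ne_zero
  apply mul_left_cancel₀ h2
  rw [completedLTau, LTau, ← h]
  ring

theorem lseriesSummable_tau {s : ℂ} (hs : 7 < s.re) : LSeriesSummable (fun n => (tau n : ℂ)) s := by
  rw [← coeff_discriminant_eq]
  exact lseriesSummable (k := 12) (by norm_num) CuspForm.discriminant (by norm_num; exact hs)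

theorem LTau_eq_LSeries {s : ℂ} (hs : 7 < s.re) : LTau s = LSeries (fun n => (tau n : ℂ)) s := by
  rw [← coeff_discriminant_eq]
  exact L_eq_LSeries (k := 12) (by norm_num) CuspForm.discriminant (by norm_num; exact hs)

theorem heckeRel_tau_complex : HeckeRel (fun n => (tau n : ℂ)) (powHom ℂ 11) := by
  refine ⟨by simp only [tau_one, Int.cast_one], fun p hp n => ?_⟩
  have h := tau_prime_mul hp n
  rw [powHom_apply]
  split_ifs at h ⊢ with hd
  · exact_mod_cast h
  · rw [add_zero] at h ⊢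
    exact_mod_cast h

/-- **The Euler product** of `L(Δ, s)`: `L(s) = ∏ (1 - τ(p) p ^ (-s) + p ^ (11 - 2 s))⁻¹`. -/
theorem hasProd_LTau {s : ℂ} (hs : 7 < s.re) :
    HasProd (fun p : Nat.Primes =>
      (1 - (tau p : ℂ) * ((p : ℕ) : ℂ) ^ (-s) + ((p : ℕ) : ℂ) ^ (11 - 2 * s))⁻¹) (LTau s) := by
  rw [LTau_eq_LSeries hs]
  exact_mod_cast heckeRel_tau_complex.hasProd (lseriesSummable_tau hs)

theorem LTau_ne_zero {s : ℂ} (hs : 7 < s.re) : LTau s ≠ 0 := by
  rw [LTau_eq_LSeries hs]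
  exact heckeRel_tau_complex.LSeries_ne_zero (lseriesSummable_tau hs)

/-- the trivial zeros of `L(Δ, s)` -/
theorem LTau_neg_nat (n : ℕ) : LTau (-n) = 0 :=
  L_neg_nat (k := 12) (by norm_num) CuspForm.discriminant n

/-- the zeros outside the strip `5 ≤ re s ≤ 7` are the trivial ones -/
theorem LTau_eq_zero_iff {s : ℂ} (hs : s.re < 5 ∨ 7 < s.re) : LTau s = 0 ↔ ∃ n : ℕ, s = -n := by
  constructor
  · intro h
    rcases hs with hs | hs
    swap
    · exact absurd h (LTau_ne_zero hs)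
    by_contra hn
    push Not at hn
    have h1 : completedLTau s = 0 := by rw [completedLTau_eq hn, h, mul_zero]
    have h2 : 7 < (12 - s).re := by
      simp only [sub_re, re_ofNat]
      linarith
    have h3 : ∀ n : ℕ, (12 - s) ≠ -n := by
      intro n hn
      have := congrArg Complex.re hn
      rw [neg_re, natCast_re] at this
      have h4 : (0 : ℝ) ≤ n := Nat.cast_nonneg n
      linarith
    rw [← completedLTau_sub, completedLTau_eq h3] at h1
    refine mul_ne_zero (mul_ne_zero ?_ (Gamma_ne_zero h3)) (LTau_ne_zero h2) h1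
    exact cpow_ne_zero_iff.mpr (Or.inl (mul_ne_zero two_ne_zero (ofReal_ne_zero.mpr Real.pi_ne_zero)))
  · rintro ⟨n, rfl⟩
    exact LTau_neg_nat n

/-! ### Bounds for `τ(n)` -/

/-- **`τ(n) = O(n ^ 6)`** -/
theorem tau_isBigO : (fun n : ℕ => (tau n : ℂ)) =O[atTop] fun n : ℕ => (n : ℝ) ^ 6 := by
  have h := coeff_isBigO CuspForm.discriminant
  rw [coeff_discriminant_eq] at h
  refine h.congr_right fun n => ?_
  rw [← Real.rpow_natCast]
  congr 1
  norm_num

/-- **`|τ(p)| ≤ p ^ 6 + p ^ 5`** -/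
theorem abs_tau_prime_le {p : ℕ} (hp : p.Prime) : |tau p| ≤ (p : ℤ) ^ 6 + (p : ℤ) ^ 5 := by
  have h := heckeRel_tau_complex.norm_prime_le (h := 5) tau_isBigO hp
  rw [Complex.norm_intCast] at h
  exact_mod_cast h

/-- **`|τ(n)| ≤ n ^ 5 σ₁(n)`** -/
theorem abs_tau_le (n : ℕ) : |tau n| ≤ (n : ℤ) ^ 5 * ∑ d ∈ n.divisors, (d : ℤ) := by
  rcases eq_or_ne n 0 with rfl | hn
  · simp [tau_zero]
  have h := heckeRel_tau_complex.norm_le (h := 5) tau_isBigO hn
  have e : ∑ d ∈ n.divisors, (d : ℝ) = ((∑ d ∈ n.divisors, (d : ℤ) : ℤ) : ℝ) := by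
    push_cast
    rfl
  rw [Complex.norm_intCast, e, ← Int.cast_abs] at h
  exact_mod_cast h

end Fermat.Agent.Cor.Tau
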