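import Fermat.Agent.Corollaries.Tau.Formulas

/-!
# Ramanujan's congruences for `τ(n)`

`τ(n) ≡ σ₁₁(n) mod 691` (`ramanujan_congruence` in `Tau/Ramanujan.lean`), and here: `τ(n) ≡ n σ₉(n) mod 25`,
`τ(n) ≡ n σ₁(n) mod 5`, `τ(n) ≡ n σ₃(n) mod 7`, `τ(n) ≡ n² σ₇(n) mod 540` (in particular mod 27),
`τ(n) ≡ n² σ₁(n) mod 9`, `τ(n) ≡ n² σ₃(n) mod 60`, `τ(n) ≡ n⁴ σ₁(n) mod 24`,
`τ(n) ≡ 15 n⁴ σ₃(n) - 14 n⁵ σ₁(n) mod 840`; and `τ(n)` is odd if and only if `n` is an odd square.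
-/

set_option autoImplicit false

open scoped ArithmeticFunction.sigma

namespace Fermat.Agent.Cor.Tau

theorem dvd_of_mul {a b x : ℤ} (h : Int.gcd a b = 1) (hx : a ∣ b * x) : a ∣ x :=
  (Int.isCoprime_iff_gcd_eq_one.mpr h).dvd_of_dvd_mul_left hx

/-- **`τ(n) ≡ n σ₃(n) mod 7`** (Ramanujan) -/
theorem tau_mod_seven (n : ℕ) : tau n ≡ n * σ 3 n [ZMOD 7] := by
  have h := tau_eq_sigma_three_five n
  set S := ∑ m ∈ Finset.Ico 1 n, (5 * m - 2 * n : ℤ) * (σ 3 m * σ 5 (n - m) : ℕ)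
  refine Int.modEq_iff_dvd.mpr (dvd_of_mul (b := 12) (by decide) ⟨n * σ 3 n - n * σ 5 n + 120 * S, ?_⟩)
  linarith

/-- **`τ(n) ≡ n σ₅(n) mod 5`** -/
theorem tau_mod_five_aux (n : ℕ) : tau n ≡ n * σ 5 n [ZMOD 5] := by
  have h := tau_eq_sigma_three_five n
  set S := ∑ m ∈ Finset.Ico 1 n, (5 * m - 2 * n : ℤ) * (σ 3 m * σ 5 (n - m) : ℕ)
  refine Int.modEq_iff_dvd.mpr (dvd_of_mul (b := 12) (by decide) ⟨n * σ 5 n - n * σ 3 n + 168 * S, ?_⟩)
  linarith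

/-- **`τ(n) ≡ n σ₉(n) mod 25`** (Ramanujan) -/
theorem tau_mod_twenty_five (n : ℕ) : tau n ≡ n * σ 9 n [ZMOD 25] := by
  have h := tau_eq_sigma_nine n
  set S := ∑ m ∈ Finset.Ico 1 n, (m : ℤ) * (σ 3 m * σ 5 (n - m) : ℕ)
  refine Int.modEq_iff_dvd.mpr (dvd_of_mul (b := 36) (by decide) ⟨n * σ 9 n - n * σ 3 n + 504 * S, ?_⟩)
  linarith

/-- **`τ(n) ≡ n² σ₇(n) mod 540`** -/
theorem tau_mod_540 (n : ℕ) : tau n ≡ n ^ 2 * σ 7 n [ZMOD 540] := by
  have h := tau_eq_sigma_seven n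
  exact Int.modEq_iff_dvd.mpr (by rw [h, sub_sub_cancel]; exact dvd_mul_right _ _)

/-- **`τ(n) ≡ n² σ₇(n) mod 27`** (Ramanujan) -/
theorem tau_mod_twenty_seven (n : ℕ) : tau n ≡ n ^ 2 * σ 7 n [ZMOD 27] :=
  (tau_mod_540 n).of_dvd (by norm_num)

/-- **`τ(n) ≡ n² σ₃(n) mod 60`** -/
theorem tau_mod_60 (n : ℕ) : tau n ≡ n ^ 2 * σ 3 n [ZMOD 60] := by
  have h := van_der_pol n
  set S := ∑ m ∈ Finset.Ico 1 n, (2 * n - 3 * m : ℤ) * (n - 3 * m) * (σ 3 m * σ 3 (n - m) : ℕ)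
  exact Int.modEq_iff_dvd.mpr ⟨-S, by rw [h]; ring⟩

/-- **`τ(n) ≡ n⁴ σ₁(n) mod 24`** -/
theorem tau_mod_24 (n : ℕ) : tau n ≡ n ^ 4 * σ 1 n [ZMOD 24] := by
  have h := niebur n
  exact Int.modEq_iff_dvd.mpr (by rw [h, sub_sub_cancel]; exact dvd_mul_right _ _)

/-- **`τ(n) ≡ 15 n⁴ σ₃(n) - 14 n⁵ σ₁(n) mod 840`** -/
theorem tau_mod_840 (n : ℕ) : tau n ≡ 15 * n ^ 4 * σ 3 n - 14 * n ^ 5 * σ 1 n [ZMOD 840] := by
  have h := tau_eq_sigma_one_three n
  exact Int.modEq_iff_dvd.mpr (by rw [h, sub_sub_cancel]; exact dvd_mul_right _ _)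

theorem sigma_modEq {a b n N : ℕ} (h : ∀ d, d ∣ n → d ^ a ≡ d ^ b [MOD N]) :
    σ a n ≡ σ b n [MOD N] := by
  rw [ArithmeticFunction.sigma_apply, ArithmeticFunction.sigma_apply]
  rw [← ZMod.natCast_eq_natCast_iff]
  push_cast
  refine Finset.sum_congr rfl fun d hd => ?_
  have h1 := (ZMod.natCast_eq_natCast_iff _ _ _).mpr (h d (Nat.dvd_of_mem_divisors hd))
  exact_mod_cast h1

/-- **`τ(n) ≡ n σ₁(n) mod 5`** (Ramanujan) -/
theorem tau_mod_five (n : ℕ) : tau n ≡ n * σ 1 n [ZMOD 5] := by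
  refine (tau_mod_five_aux n).trans (Int.ModEq.mul_left _ ?_)
  refine Int.natCast_modEq_iff.mpr (sigma_modEq fun d _ => ?_)
  rw [← ZMod.natCast_eq_natCast_iff]
  push_cast
  generalize (d : ZMod 5) = x
  revert x
  decide

/-- **`τ(n) ≡ n² σ₁(n) mod 9`** -/
theorem tau_mod_nine (n : ℕ) : tau n ≡ n ^ 2 * σ 1 n [ZMOD 9] := by
  refine ((tau_mod_540 n).of_dvd (by norm_num)).trans ?_
  by_cases h3 : 3 ∣ n
  · obtain ⟨k, rfl⟩ := h3
    refine Int.modEq_iff_dvd.mpr ⟨k ^ 2 * (σ 1 (3 * k) - σ 7 (3 * k)), ?_⟩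
    push_cast
    ring
  · refine Int.ModEq.mul_left _ (Int.natCast_modEq_iff.mpr (sigma_modEq fun d hd => ?_))
    have hd3 : ¬ 3 ∣ d := fun h => h3 (h.trans hd)
    have hd0 : d % 9 = 1 ∨ d % 9 = 2 ∨ d % 9 = 4 ∨ d % 9 = 5 ∨ d % 9 = 7 ∨ d % 9 = 8 := by
      omega
    rw [Nat.ModEq, Nat.pow_mod, Nat.pow_mod d 1]
    rcases hd0 with h | h | h | h | h | h <;> rw [h]

/-- the number of divisors is odd exactly for squares -/
theorem card_divisors_zmod {n : ℕ} (hn : n ≠ 0) :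
    (n.divisors.card : ZMod 2) = if IsSquare n then 1 else 0 := by
  classical
  have key : ∀ s : Finset ℕ, (∀ d ∈ s, d ∈ n.divisors) → (∀ d ∈ s, n / d ∈ s) →
      (∀ d ∈ s, d * d ≠ n) → (s.card : ZMod 2) = 0 := by
    intro s h1 h2 h3
    rw [Finset.card_eq_sum_ones, Nat.cast_sum]
    have hdiv : ∀ d ∈ s, d ∣ n := fun d hd => Nat.dvd_of_mem_divisors (h1 d hd)
    refine Finset.sum_involution (fun d _ => n / d) ?_ ?_ ?_ ?_
    · intro d _; decide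
    · intro d hd _ h
      exact h3 d hd (by
        have h4 := Nat.div_mul_cancel (hdiv d hd)
        rwa [h] at h4)
    · intro d hd
      exact h2 d hd
    · intro d hd
      exact Nat.div_div_self (hdiv d hd) hn
  split_ifs with hsq
  · obtain ⟨r, hr⟩ := hsq
    have hr0 : r ≠ 0 := by rintro rfl; exact hn (by simpa using hr)
    have hmem : r ∈ n.divisors := Nat.mem_divisors.mpr ⟨⟨r, hr⟩, hn⟩
    have h1 := key (n.divisors.erase r) (fun d hd => Finset.mem_of_mem_erase hd) ?_ ?_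
    · rw [← Finset.card_erase_add_one hmem]
      push_cast
      rw [h1, zero_add]
    · intro d hd
      obtain ⟨hdr, hd⟩ := Finset.mem_erase.mp hd
      have hdn := Nat.dvd_of_mem_divisors hd
      refine Finset.mem_erase.mpr ⟨fun h => hdr ?_, Nat.mem_divisors.mpr
        ⟨Nat.div_dvd_of_dvd hdn, hn⟩⟩
      have h4 := Nat.div_mul_cancel hdn
      rw [h, hr] at h4
      exact Nat.eq_of_mul_eq_mul_left (Nat.pos_of_ne_zero hr0) h4
    · intro d hd h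
      obtain ⟨hdr, -⟩ := Finset.mem_erase.mp hd
      rw [hr] at h
      exact hdr (Nat.mul_self_inj.mp h)
  · refine key n.divisors (fun _ h => h) (fun d hd => ?_) fun d _ h => hsq ⟨d, h.symm⟩
    exact Nat.mem_divisors.mpr ⟨Nat.div_dvd_of_dvd (Nat.dvd_of_mem_divisors hd), hn⟩

/-- **`τ(n)` is odd if and only if `n` is an odd square** -/
theorem odd_tau_iff (n : ℕ) : Odd (tau n) ↔ Odd n ∧ IsSquare n := by
  rcases eq_or_ne n 0 with rfl | hn
  · rw [tau_zero]; simp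
  have h1 : ((tau n : ℤ) : ZMod 2) = (n : ZMod 2) ^ 4 * (σ 1 n : ZMod 2) := by
    have h := (tau_mod_24 n).of_dvd (show (2 : ℤ) ∣ 24 by norm_num)
    have h2 := (ZMod.intCast_eq_intCast_iff _ _ 2).mpr h
    push_cast at h2
    exact h2
  have hodd : Odd (tau n) ↔ ((tau n : ℤ) : ZMod 2) = 1 := by
    rw [Int.odd_iff]
    constructor
    · intro h
      have : (tau n : ZMod 2) = ((1 : ℤ) : ZMod 2) :=
        (ZMod.intCast_eq_intCast_iff _ _ 2).mpr (by exact h)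
      rw [this, Int.cast_one]
    · intro h
      have := (ZMod.intCast_eq_intCast_iff (tau n) 1 2).mp (by rw [h, Int.cast_one])
      exact this
  rw [hodd, h1]
  rcases Nat.even_or_odd n with he | ho
  · have h0 : (n : ZMod 2) = 0 := (ZMod.natCast_eq_zero_iff _ _).mpr he.two_dvd
    rw [h0, zero_pow (by norm_num), zero_mul]
    constructor
    · intro h; exact absurd h (by decide)
    · rintro ⟨h, -⟩; exact absurd he (Nat.not_even_iff_odd.mpr h)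
  · have h0 : ∀ d, d ∣ n → (d : ZMod 2) = 1 := fun d hd => by
      have hd' : Odd d := ho.of_dvd_nat hd
      exact (ZMod.natCast_eq_one_iff_odd).mpr hd'
    have h2 : (σ 1 n : ZMod 2) = (n.divisors.card : ZMod 2) := by
      rw [ArithmeticFunction.sigma_one_apply, Nat.cast_sum, Finset.card_eq_sum_ones, Nat.cast_sum]
      exact Finset.sum_congr rfl fun d hd => by
        rw [h0 d (Nat.dvd_of_mem_divisors hd), Nat.cast_one]
    rw [h0 n dvd_rfl, one_pow, one_mul, h2, card_divisors_zmod hn]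
    split_ifs with hsq
    · simp [ho, hsq]
    · simp [hsq]

end Fermat.Agent.Cor.Tau
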