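import Fermat.Agent.Corollaries.Tau.LSeries
import Fermat.Agent.Corollaries.Tau.Ramanujan
import Fermat.Agent.Corollaries.Tau.Main
import Fermat.Agent.Corollaries.Tau.Two
import Fermat.Agent.Corollaries.Tau.Recur

/-!
# Lehmer's theorem on the zeros of Ramanujan's function

If `τ(n) = 0` for some `n ≥ 1`, then `n` has a prime factor `p` with `τ(p) = 0`, and for such a prime
`p ≡ -1 mod 2 ^ 6 · 3 ^ 3 · 5 ^ 2 · 691` and `p` is a non-residue modulo `7`. So `τ(n) ≠ 0` for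
`0 < n < 388065599`.
-/

set_option autoImplicit false

noncomputable section

open scoped ArithmeticFunction.sigma

namespace Fermat.Agent.Cor.Tau

/-! ### Powers of primes -/

/-- the values at the powers of `p` if `τ(p)` is not divisible by `p ^ 6` -/
theorem tau_pow_eq {p : ℕ} (hp : p.Prime) {v : ℕ} (hv : v ≤ 5) {a : ℤ} (ha : ¬ (p : ℤ) ∣ a)
    (h : tau p = (p : ℤ) ^ v * a) (r : ℕ) :
    ∃ w : ℤ, tau (p ^ r) = (p : ℤ) ^ (r * v) * w ∧ ¬ (p : ℤ) ∣ w := by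
  have hpp : Prime (p : ℤ) := Nat.prime_iff_prime_int.mp hp
  induction r using Nat.twoStepInduction with
  | zero =>
    refine ⟨1, by rw [pow_zero, tau_one, zero_mul, pow_zero, one_mul], fun h1 => ?_⟩
    exact hpp.not_isUnit (isUnit_of_dvd_one h1)
  | one => exact ⟨a, by rw [pow_one, one_mul, h], ha⟩
  | more r ih1 ih2 =>
    obtain ⟨w1, h1, h1'⟩ := ih1
    obtain ⟨w2, h2, h2'⟩ := ih2
    refine ⟨a * w2 - (p : ℤ) ^ (11 - 2 * v) * w1, ?_, fun h3 => ?_⟩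
    · rw [tau_prime_pow hp r, h1, h2, h]
      obtain ⟨t, ht⟩ : ∃ t, 11 = 2 * v + t := ⟨11 - 2 * v, by omega⟩
      have e1 : (p : ℤ) ^ 11 = (p : ℤ) ^ (2 * v) * (p : ℤ) ^ t := by rw [← pow_add, ← ht]
      have e2 : 11 - 2 * v = t := by omega
      have e3 : (p : ℤ) ^ ((r + 2) * v) = (p : ℤ) ^ (r * v) * (p : ℤ) ^ (2 * v) := by
        rw [← pow_add]; congr 1; ring
      have e4 : (p : ℤ) ^ v * (p : ℤ) ^ ((r + 1) * v) = (p : ℤ) ^ (r * v) * (p : ℤ) ^ (2 * v) := by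
        rw [← pow_add, ← pow_add]; congr 1; ring
      rw [e1, e2, e3]
      linear_combination a * w2 * e4
    · have h4 : (p : ℤ) ∣ (p : ℤ) ^ (11 - 2 * v) * w1 :=
        (dvd_pow_self _ (by omega)).mul_right w1
      have h5 : (p : ℤ) ∣ a * w2 := by
        have := dvd_add h3 h4
        rwa [sub_add_cancel] at this
      exact (hpp.dvd_or_dvd h5).elim ha h2'

/-- the case `τ(p) = ± p ^ 6` -/
theorem growth {u : ℕ → ℤ} {P : ℤ} (hP : 5 ≤ P) (h0 : u 0 = 1) (habs : |u 1| = P ^ 6)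
    (hrec : ∀ r, u (r + 2) = u 1 * u (r + 1) - P ^ 11 * u r) (r : ℕ) :
    0 < |u r| ∧ P ^ 6 * |u r| ≤ 2 * |u (r + 1)| := by
  have hP0 : 0 < P := by linarith
  have h5 : 0 < P ^ 5 := pow_pos hP0 5
  have h6 : 0 < P ^ 6 := pow_pos hP0 6
  induction r with
  | zero =>
    rw [h0, zero_add, habs, abs_one]
    exact ⟨one_pos, by linarith⟩
  | succ r ih =>
    obtain ⟨ih1, ih2⟩ := ih
    have h7 : 0 < |u (r + 1)| := by
      have : 0 < P ^ 6 * |u r| := mul_pos h6 ih1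
      linarith
    refine ⟨h7, ?_⟩
    have h8 : u 1 * u (r + 1) = u (r + 2) + P ^ 11 * u r := by
      rw [hrec r]; ring
    have h9 : P ^ 6 * |u (r + 1)| ≤ |u (r + 2)| + P ^ 11 * |u r| := by
      rw [← habs, ← abs_mul, h8]
      refine (abs_add_le _ _).trans_eq ?_
      rw [abs_mul (P ^ 11), abs_of_nonneg (by positivity : (0 : ℤ) ≤ P ^ 11)]
    have h10 : P ^ 11 * |u r| ≤ P ^ 5 * (2 * |u (r + 1)|) := by
      have : P ^ 11 * |u r| = P ^ 5 * (P ^ 6 * |u r|) := by ring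
      rw [this]
      exact mul_le_mul_of_nonneg_left ih2 h5.le
    have h11 : 5 * P ^ 5 ≤ P ^ 6 := by
      have : P ^ 6 = P * P ^ 5 := by ring
      rw [this]
      exact mul_le_mul_of_nonneg_right hP h5.le
    have h12 : 5 * P ^ 5 * |u (r + 1)| ≤ P ^ 6 * |u (r + 1)| :=
      mul_le_mul_of_nonneg_right h11 h7.le
    have h13 : 0 ≤ P ^ 5 * |u (r + 1)| := mul_nonneg h5.le h7.le
    have h14 : P ^ 5 * (2 * |u (r + 1)|) = 2 * (P ^ 5 * |u (r + 1)|) := by ring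
    have h15 : 5 * P ^ 5 * |u (r + 1)| = 5 * (P ^ 5 * |u (r + 1)|) := by ring
    rw [h14] at h10
    rw [h15] at h12
    linarith

theorem abs_eq_of_dvd {P t : ℤ} (hP : 2 ≤ P) (ht : t ≠ 0) (hd : P ^ 6 ∣ t)
    (h : |t| ≤ P ^ 6 + P ^ 5) : |t| = P ^ 6 := by
  have hP0 : 0 < P := by linarith
  have h5 : 0 < P ^ 5 := pow_pos hP0 5
  have h6 : 0 < P ^ 6 := pow_pos hP0 6
  obtain ⟨b, rfl⟩ := hd
  have hb0 : b ≠ 0 := by rintro rfl; exact ht (mul_zero _)
  have h8 : 1 ≤ |b| := Int.one_le_abs hb0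
  rw [abs_mul, abs_of_pos h6] at h ⊢
  have h10 : |b| < 2 := by
    by_contra hge
    rw [not_lt] at hge
    have h11 : P ^ 6 * 2 ≤ P ^ 6 * |b| := mul_le_mul_of_nonneg_left hge h6.le
    have h12 : P ^ 5 < P ^ 6 := by
      have : P ^ 6 = P ^ 5 * P := by ring
      rw [this]
      exact lt_mul_of_one_lt_right h5 (by linarith)
    linarith
  have h13 : |b| = 1 := by omega
  rw [h13, mul_one]

/-- **`τ(p) ≠ 0` implies `τ(p ^ r) ≠ 0`** -/
theorem tau_prime_pow_ne_zero {p : ℕ} (hp : p.Prime) (h : tau p ≠ 0) (r : ℕ) :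
    tau (p ^ r) ≠ 0 := by
  have hp0 : (p : ℤ) ≠ 0 := by exact_mod_cast hp.ne_zero
  by_cases h6 : (p : ℤ) ^ 6 ∣ tau p
  · -- `τ(p) = ± p ^ 6`
    have h5 : 5 ≤ p := by
      by_contra hlt
      have h7 := hp.two_le
      have h8 : p = 2 ∨ p = 3 ∨ p = 4 := by omega
      rcases h8 with rfl | rfl | rfl
      · rw [tau_values.1] at h6
        norm_num at h6
      · rw [tau_values.2.1] at h6
        norm_num at h6
      · exact absurd hp (by norm_num)
    have habs := abs_eq_of_dvd (by exact_mod_cast hp.two_le) h h6 (abs_tau_prime_le hp)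
    have key := growth (u := fun r => tau (p ^ r)) (P := (p : ℤ)) (by exact_mod_cast h5)
      (by rw [pow_zero, tau_one]) (by rw [pow_one]; exact habs)
      (fun r => by
        have := tau_prime_pow hp r
        rwa [pow_one])
    exact abs_pos.mp (key r).1
  · -- `p ^ 6 ∤ τ(p)`
    have hfin : FiniteMultiplicity (p : ℤ) (tau p) :=
      Int.finiteMultiplicity_iff.mpr ⟨by rw [Int.natAbs_natCast]; exact hp.ne_one, h⟩
    obtain ⟨a, ha, ha'⟩ := hfin.exists_eq_pow_mul_and_not_dvd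
    have hv : multiplicity (p : ℤ) (tau p) ≤ 5 := by
      by_contra hlt
      rw [not_le] at hlt
      exact h6 ((pow_dvd_pow _ hlt).trans ⟨a, ha⟩)
    obtain ⟨w, hw, hw'⟩ := tau_pow_eq hp hv ha' ha r
    rw [hw]
    refine mul_ne_zero (pow_ne_zero _ hp0) ?_
    rintro rfl
    exact hw' (dvd_zero _)

/-- if `τ` does not vanish at the prime factors of `n ≥ 1`, then `τ(n) ≠ 0` -/
theorem tau_ne_zero_of_prime {n : ℕ} (hn : n ≠ 0) (h : ∀ p : ℕ, p.Prime → p ∣ n → tau p ≠ 0) :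
    tau n ≠ 0 := by
  induction n using Nat.recOnPosPrimePosCoprime with
  | zero => exact absurd rfl hn
  | one => rw [tau_one]; exact one_ne_zero
  | prime_pow p r hp hr => exact tau_prime_pow_ne_zero hp (h p hp (dvd_pow_self p hr.ne')) r
  | coprime m n hm hn' hmn ihm ihn =>
    rw [tau_mul_of_coprime hmn]
    exact mul_ne_zero (ihm (by omega) fun p hp hd => h p hp (hd.mul_right n))
      (ihn (by omega) fun p hp hd => h p hp (hd.mul_left m))

/-! ### Primes with `τ(p) = 0` -/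

theorem sigma_prime {p : ℕ} (hp : p.Prime) (k : ℕ) : σ k p = 1 + p ^ k := by
  rw [ArithmeticFunction.sigma_apply, hp.sum_divisors, add_comm, one_pow]

theorem zmod_691 : ∀ x : ZMod 691, 1 + x ^ 11 = 0 → x + 1 = 0 := by decide +kernel

theorem zmod_64 : ∀ x : ZMod 64, 1 + x ^ 11 = 0 → x + 1 = 0 := by decide +kernel

theorem zmod_27 : ∀ x : ZMod 27, x ^ 2 * (1 + x ^ 7) = 0 → x + 1 = 0 ∨ 9 * x = 0 := by
  decide +kernel

theorem zmod_25 : ∀ x : ZMod 25, x * (1 + x ^ 9) = 0 → x + 1 = 0 ∨ 5 * x = 0 := by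
  decide +kernel

theorem zmod_7 : ∀ x : ZMod 7, x * (1 + x ^ 3) = 0 → x = 0 ∨ x = 3 ∨ x = 5 ∨ x = 6 := by
  decide +kernel

theorem dvd_691 {p : ℕ} (hp : p.Prime) (h : tau p = 0) : 691 ∣ p + 1 := by
  have h1 := (ZMod.intCast_eq_intCast_iff _ _ 691).mpr (ramanujan_congruence p)
  rw [h, sigma_prime hp] at h1
  push_cast at h1
  have h2 := zmod_691 (p : ZMod 691) h1.symm
  exact (ZMod.natCast_eq_zero_iff (p + 1) 691).mp (by push_cast; exact h2)

theorem dvd_64 {p : ℕ} (hp : p.Prime) (hp2 : p ≠ 2) (h : tau p = 0) : 64 ∣ p + 1 := by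
  have h1 := (ZMod.intCast_eq_intCast_iff _ _ 64).mpr (tau_mod_64 (hp.odd_of_ne_two hp2))
  rw [h, sigma_prime hp] at h1
  push_cast at h1
  have h2 := zmod_64 (p : ZMod 64) h1.symm
  exact (ZMod.natCast_eq_zero_iff (p + 1) 64).mp (by push_cast; exact h2)

theorem dvd_27 {p : ℕ} (hp : p.Prime) (hp3 : p ≠ 3) (h : tau p = 0) : 27 ∣ p + 1 := by
  have h1 := (ZMod.intCast_eq_intCast_iff _ _ 27).mpr (tau_mod_twenty_seven p)
  rw [h, sigma_prime hp] at h1
  push_cast at h1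
  rcases zmod_27 (p : ZMod 27) h1.symm with h2 | h2
  · exact (ZMod.natCast_eq_zero_iff (p + 1) 27).mp (by push_cast; exact h2)
  · have h3 : 27 ∣ 9 * p := (ZMod.natCast_eq_zero_iff (9 * p) 27).mp (by push_cast; exact h2)
    have h4 : 3 ∣ p := by omega
    exact absurd ((Nat.prime_dvd_prime_iff_eq Nat.prime_three hp).mp h4).symm hp3

theorem dvd_25 {p : ℕ} (hp : p.Prime) (hp5 : p ≠ 5) (h : tau p = 0) : 25 ∣ p + 1 := by
  have h1 := (ZMod.intCast_eq_intCast_iff _ _ 25).mpr (tau_mod_twenty_five p)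
  rw [h, sigma_prime hp] at h1
  push_cast at h1
  rcases zmod_25 (p : ZMod 25) h1.symm with h2 | h2
  · exact (ZMod.natCast_eq_zero_iff (p + 1) 25).mp (by push_cast; exact h2)
  · have h3 : 25 ∣ 5 * p := (ZMod.natCast_eq_zero_iff (5 * p) 25).mp (by push_cast; exact h2)
    have h4 : 5 ∣ p := by omega
    exact absurd ((Nat.prime_dvd_prime_iff_eq Nat.prime_five hp).mp h4).symm hp5

theorem mod_seven {p : ℕ} (hp : p.Prime) (hp7 : p ≠ 7) (h : tau p = 0) :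
    p % 7 = 3 ∨ p % 7 = 5 ∨ p % 7 = 6 := by
  have h1 := (ZMod.intCast_eq_intCast_iff _ _ 7).mpr (tau_mod_seven p)
  rw [h, sigma_prime hp] at h1
  push_cast at h1
  have hmod : ∀ a : ℕ, a < 7 → (p : ZMod 7) = a → p % 7 = a := by
    intro a ha h2
    have h3 := (ZMod.natCast_eq_natCast_iff' p a 7).mp h2
    rwa [Nat.mod_eq_of_lt ha] at h3
  rcases zmod_7 (p : ZMod 7) h1.symm with h2 | h2 | h2 | h2
  · have h3 : 7 ∣ p := (ZMod.natCast_eq_zero_iff p 7).mp h2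
    exact absurd ((Nat.prime_dvd_prime_iff_eq (by norm_num) hp).mp h3).symm hp7
  · exact Or.inl (hmod 3 (by norm_num) h2)
  · exact Or.inr (Or.inl (hmod 5 (by norm_num) h2))
  · exact Or.inr (Or.inr (hmod 6 (by norm_num) h2))

theorem dvd_all {a : ℕ} (h1 : 691 ∣ a) (h2 : 64 ∣ a) (h3 : 27 ∣ a) (h4 : 25 ∣ a) :
    29851200 ∣ a := by
  have h5 : 691 * 64 ∣ a := Nat.Coprime.mul_dvd_of_dvd_of_dvd (by norm_num) h1 h2
  have h6 : 691 * 64 * 27 ∣ a := Nat.Coprime.mul_dvd_of_dvd_of_dvd (by norm_num) h5 h3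
  have h7 : 691 * 64 * 27 * 25 ∣ a := Nat.Coprime.mul_dvd_of_dvd_of_dvd (by norm_num) h6 h4
  have h8 : 29851200 = 691 * 64 * 27 * 25 := by norm_num
  rw [h8]
  exact h7

/-- **A prime with `τ(p) = 0`** satisfies `p ≡ -1` modulo `29851200 = 2 ^ 6 · 3 ^ 3 · 5 ^ 2 · 691` and is not a
square modulo `7`. -/
theorem dvd_of_tau_eq_zero {p : ℕ} (hp : p.Prime) (h : tau p = 0) :
    29851200 ∣ p + 1 ∧ (p % 7 = 3 ∨ p % 7 = 5 ∨ p % 7 = 6) := by
  obtain ⟨v2, v3, -, v5, -, v7, -⟩ := tau_values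
  have hp2 : p ≠ 2 := by rintro rfl; rw [v2] at h; norm_num at h
  have hp3 : p ≠ 3 := by rintro rfl; rw [v3] at h; norm_num at h
  have hp5 : p ≠ 5 := by rintro rfl; rw [v5] at h; norm_num at h
  have hp7 : p ≠ 7 := by rintro rfl; rw [v7] at h; norm_num at h
  have h691 := dvd_691 hp h
  have h64 := dvd_64 hp hp2 h
  have h27 := dvd_27 hp hp3 h
  have h25 := dvd_25 hp hp5 h
  exact ⟨dvd_all h691 h64 h27 h25, mod_seven hp hp7 h⟩

/-- **Lehmer's theorem**: if `τ(n) = 0` for some `n ≥ 1`, then `τ(p) = 0` for a prime factor `p` of `n` (in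
particular the smallest such `n` is a prime), and `p ≡ -1` modulo `29851200`, `p ≡ 3, 5, 6` modulo `7`. -/
theorem lehmer {n : ℕ} (hn : n ≠ 0) (h : tau n = 0) :
    ∃ p : ℕ, p.Prime ∧ p ∣ n ∧ tau p = 0 ∧ 29851200 ∣ p + 1 ∧
      (p % 7 = 3 ∨ p % 7 = 5 ∨ p % 7 = 6) := by
  by_contra hne
  refine tau_ne_zero_of_prime hn (fun p hp hd h0 => hne ?_) h
  exact ⟨p, hp, hd, h0, dvd_of_tau_eq_zero hp h0⟩

/-- **`τ(n) ≠ 0` for `1 ≤ n < 388065599`** -/
theorem tau_ne_zero {n : ℕ} (hn : n ≠ 0) (h : n < 388065599) : tau n ≠ 0 := by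
  intro h0
  obtain ⟨p, hp, hd, -, ⟨m, hm⟩, h7⟩ := lehmer hn h0
  have hle : p ≤ n := Nat.le_of_dvd (Nat.pos_of_ne_zero hn) hd
  have hm13 : m < 13 := by omega
  have hm0 : 0 < m := by
    rcases Nat.eq_zero_or_pos m with rfl | h1
    · omega
    · exact h1
  obtain rfl : p = 29851200 * m - 1 := by omega
  interval_cases m
  all_goals first
    | omega
    | norm_num at hp

end Fermat.Agent.Cor.Tau
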