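import Fermat.Agent.Corollaries.Tau.Partition

/-!
# Ramanujan's congruences for the number of partitions

`p(5n + 4) ≡ 0 mod 5`, `p(7n + 5) ≡ 0 mod 7`, `p(11n + 6) ≡ 0 mod 11` (Ramanujan 1919, 1921), and
`τ(n) ≡ 0 mod 23` if `n` is not a square modulo 23.
-/

set_option autoImplicit false

noncomputable section

open PowerSeries
open scoped ArithmeticFunction.sigma

namespace Fermat.Agent.Cor.Tau

section general

variable {A : Type*} [CommRing A]

theorem th_add (f g : PowerSeries A) : th (f + g) = th f + th g := by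
  ext n
  rw [coeff_th, map_add, map_add, coeff_th, coeff_th, mul_add]

theorem th_sub (f g : PowerSeries A) : th (f - g) = th f - th g := by
  ext n
  rw [coeff_th, map_sub, map_sub, coeff_th, coeff_th, mul_sub]

theorem th_ofNat (k : ℕ) [k.AtLeastTwo] : th (ofNat(k) : PowerSeries A) = 0 := by
  ext n
  rw [coeff_th, ← map_ofNat (PowerSeries.C (R := A)), PowerSeries.coeff_C]
  rcases eq_or_ne n 0 with rfl | hn
  · simp
  · simp [hn]

variable (A)

theorem th2_Pn : 72 * th (th (Pn A)) = Pn A ^ 3 - 3 * (Pn A * Qn A) + 2 * Rn A := by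
  have h1 := th_Pn A
  have h2 := th_Qn A
  have h := congrArg th h1
  simp only [th_mul, th_sub, th_ofNat, zero_mul, zero_add] at h
  linear_combination 6 * h + Pn A * h1 - 2 * h2

theorem th3_Pn : 288 * th (th (th (Pn A))) =
    Pn A ^ 4 - 6 * (Pn A ^ 2 * Qn A) + 8 * (Pn A * Rn A) - 3 * Qn A ^ 2 := by
  have h1 := th_Pn A
  have h2 := th_Qn A
  have h3 := th_Rn A
  have h5 := th2_Pn A
  have h := congrArg th h5
  simp only [pow_succ, pow_zero, one_mul, th_mul, th_sub, th_add, th_ofNat, zero_mul, zero_add] at h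
  linear_combination 4 * h + (Pn A ^ 2 - Qn A) * h1 - 4 * Pn A * h2 + 4 * h3

theorem th4_Pn : 864 * th (th (th (th (Pn A)))) = Pn A ^ 5 - 10 * (Pn A ^ 3 * Qn A) +
    20 * (Pn A ^ 2 * Rn A) - 15 * (Pn A * Qn A ^ 2) + 4 * (Qn A * Rn A) := by
  have h1 := th_Pn A
  have h2 := th_Qn A
  have h3 := th_Rn A
  have h6 := th3_Pn A
  have h := congrArg th h6
  simp only [pow_succ, pow_zero, one_mul, th_mul, th_sub, th_add, th_ofNat, zero_mul, zero_add] at h
  linear_combination 3 * h + (Pn A ^ 3 - 3 * Pn A * Qn A + 2 * Rn A) * h1 -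
    (6 * Pn A ^ 2 + 6 * Qn A) * h2 + 12 * Pn A * h3

theorem th2_Qn : 36 * th (th (Qn A)) =
    5 * (Pn A ^ 2 * Qn A) - 10 * (Pn A * Rn A) + 5 * Qn A ^ 2 := by
  have h1 := th_Pn A
  have h2 := th_Qn A
  have h3 := th_Rn A
  have h := congrArg th h2
  simp only [th_mul, th_sub, th_ofNat, zero_mul, zero_add] at h
  linear_combination 12 * h + Qn A * h1 + 4 * Pn A * h2 - 6 * h3

theorem th3_Qn : 216 * th (th (th (Qn A))) = 15 * (Pn A ^ 3 * Qn A) +
    45 * (Pn A * Qn A ^ 2) - 45 * (Pn A ^ 2 * Rn A) - 15 * (Qn A * Rn A) := by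
  have h1 := th_Pn A
  have h2 := th_Qn A
  have h3 := th_Rn A
  have h4 := th2_Qn A
  have h := congrArg th h4
  simp only [pow_succ, pow_zero, one_mul, th_mul, th_sub, th_add, th_ofNat, zero_mul, zero_add] at h
  linear_combination 6 * h + (5 * Pn A * Qn A - 5 * Rn A) * h1 +
    (10 * Pn A ^ 2 + 20 * Qn A) * h2 - 30 * Pn A * h3

theorem th2_Rn : 24 * th (th (Rn A)) =
    7 * (Pn A ^ 2 * Rn A) + 7 * (Qn A * Rn A) - 14 * (Pn A * Qn A ^ 2) := by
  have h1 := th_Pn A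
  have h2 := th_Qn A
  have h3 := th_Rn A
  have h := congrArg th h3
  simp only [th_mul, th_sub] at h
  have h0 : th (2 : PowerSeries A) = 0 := th_ofNat 2
  rw [h0, zero_mul, zero_add] at h
  linear_combination 12 * h + Rn A * h1 - 8 * Qn A * h2 + 6 * Pn A * h3

theorem th_Qn_sq : 3 * th (Qn A ^ 2) = 2 * (Pn A * Qn A ^ 2) - 2 * (Qn A * Rn A) := by
  have h2 := th_Qn A
  rw [pow_two, th_mul]
  linear_combination 2 * Qn A * h2

end general

/-- Fermat's little theorem for sums of powers of divisors -/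
theorem sg_fermat {p a b : ℕ} [Fact p.Prime] (h : ∀ x : ZMod p, x ^ a = x ^ b) :
    sg (ZMod p) a = sg (ZMod p) b := by
  ext n
  rw [sg, sg, PowerSeries.coeff_mk, PowerSeries.coeff_mk, ZMod.natCast_eq_natCast_iff]
  refine sigma_modEq fun d _ => ?_
  rw [← ZMod.natCast_eq_natCast_iff]
  push_cast
  exact h _

theorem coeff_ofNat_mul' {A : Type*} [CommRing A] (k : ℕ) [k.AtLeastTwo] (f : PowerSeries A)
    (n : ℕ) : ((OfNat.ofNat k : PowerSeries A) * f).coeff n = OfNat.ofNat k * f.coeff n := by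
  rw [← map_ofNat (PowerSeries.C (R := A)), PowerSeries.coeff_C_mul]

theorem coeff_th_mul_self {p : ℕ} [Fact p.Prime] (f : PowerSeries (ZMod p)) (m : ℕ) :
    (th f).coeff (p * m) = 0 := by
  rw [coeff_th]
  push_cast
  rw [CharP.cast_eq_zero, zero_mul, zero_mul]

instance fact_prime_five : Fact (Nat.Prime 5) := ⟨by norm_num⟩
instance fact_prime_seven : Fact (Nat.Prime 7) := ⟨by norm_num⟩
instance fact_prime_eleven : Fact (Nat.Prime 11) := ⟨by norm_num⟩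

/-- **Ramanujan: `p(5n + 4) ≡ 0 mod 5`** -/
theorem partition_five (n : ℕ) : 5 ∣ Fintype.card (Nat.Partition (5 * n + 4)) := by
  refine partition_criterion (p := 5) (a := 1) (by norm_num) (fun m => ?_) (n + 1) _ (by ring)
  rw [pow_one, ta, PowerSeries.coeff_mk]
  have h := tau_mod_five (5 * m)
  have h1 : tau (5 * m) ≡ 0 [ZMOD 5] := by
    refine h.trans (Int.modEq_zero_iff_dvd.mpr ⟨m * σ 1 (5 * m), ?_⟩)
    push_cast
    ring
  exact (ZMod.intCast_zmod_eq_zero_iff_dvd _ 5).mpr (Int.modEq_zero_iff_dvd.mp h1)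

/-- modulo 7: `(1728 Δ)² = 72 θ²P + 3 θQ` -/
theorem ta_sq_seven : (1728 * ta (ZMod 7)) ^ 2 =
    72 * th (th (Pn (ZMod 7))) + 3 * th (Qn (ZMod 7)) := by
  have h7 : (7 : PowerSeries (ZMod 7)) = 0 := by
    rw [← map_ofNat (PowerSeries.C (R := ZMod 7)), show (OfNat.ofNat 7 : ZMod 7) = 0 from rfl,
      map_zero]
  have hR : Rn (ZMod 7) = 1 := by
    rw [Rn]
    linear_combination -72 * sg (ZMod 7) 5 * h7
  have hP : Qn (ZMod 7) * Qn (ZMod 7) = Pn (ZMod 7) := by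
    have h1 : sg (ZMod 7) 7 = sg (ZMod 7) 1 := sg_fermat (by decide)
    rw [Qn_sq, h1, Pn]
    linear_combination 72 * sg (ZMod 7) 1 * h7
  rw [th2_Pn, th_Qn, ta_eq, hR, ← hP]
  ring

/-- **Ramanujan: `p(7n + 5) ≡ 0 mod 7`** -/
theorem partition_seven (n : ℕ) : 7 ∣ Fintype.card (Nat.Partition (7 * n + 5)) := by
  refine partition_criterion (p := 7) (a := 2) (by norm_num) (fun m => ?_) (n + 1) _ (by ring)
  have h := congrArg (PowerSeries.coeff (7 * m)) ta_sq_seven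
  rw [map_add, coeff_ofNat_mul', coeff_ofNat_mul', coeff_th_mul_self, coeff_th_mul_self, mul_zero,
    mul_zero, add_zero, mul_pow, ← map_ofNat (PowerSeries.C (R := ZMod 7)), ← map_pow,
    PowerSeries.coeff_C_mul, mul_eq_zero] at h
  exact h.resolve_left (by decide)

/-- modulo 11: `(Q³ - R²)⁵ = 864 θ⁴P - 216 θ³Q - 48 θ²R + 15 θ(Q²)` -/
theorem ta_pow_eleven : (1728 * ta (ZMod 11)) ^ 5 =
    864 * th (th (th (th (Pn (ZMod 11))))) - 216 * th (th (th (Qn (ZMod 11)))) -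
      48 * th (th (Rn (ZMod 11))) + 15 * th (Qn (ZMod 11) ^ 2) := by
  have h11 : (11 : PowerSeries (ZMod 11)) = 0 := by
    rw [← map_ofNat (PowerSeries.C (R := ZMod 11)), show (OfNat.ofNat 11 : ZMod 11) = 0 from rfl,
      map_zero]
  have hQR : Qn (ZMod 11) * Rn (ZMod 11) = 1 := by
    rw [Qn_mul_Rn]
    linear_combination -24 * sg (ZMod 11) 9 * h11
  have hP : Pn (ZMod 11) = 5 * Qn (ZMod 11) ^ 3 + 7 * Rn (ZMod 11) ^ 2 := by
    have h1 : sg (ZMod 11) 11 = sg (ZMod 11) 1 := sg_fermat (by decide)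
    have h2 := sg_eleven (ZMod 11)
    rw [h1] at h2
    have h3 : Pn (ZMod 11) = 1 - 24 * sg (ZMod 11) 1 := rfl
    rw [h3]
    linear_combination 5 * h2 + (-314 - 29784 * sg (ZMod 11) 1 + 200 * Qn (ZMod 11) ^ 3 +
      113 * Rn (ZMod 11) ^ 2) * h11
  have e1 := th4_Pn (ZMod 11)
  have e2 := th3_Qn (ZMod 11)
  have e3 := th2_Rn (ZMod 11)
  have e4 := th_Qn_sq (ZMod 11)
  rw [ta_eq]
  set Q := Qn (ZMod 11)
  set R := Rn (ZMod 11)
  set P := Pn (ZMod 11)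
  have key : (Q ^ 3 - R ^ 2) ^ 5 = P ^ 5 - 3 * (P ^ 3 * Q) - 4 * (P ^ 2 * R) + 6 * (Q * R) := by
    rw [hP]
    linear_combination ((-1) * Q ^ 11 * R ^ 1 + (-1) * Q ^ 10 * R ^ 0 + (-3) * Q ^ 8 * R ^ 3 +
      (-3) * Q ^ 7 * R ^ 2 + (-1) * Q ^ 6 * R ^ 1 + (-4) * Q ^ 5 * R ^ 5 + (-4) * Q ^ 4 * R ^ 4 +
      (1) * Q ^ 3 * R ^ 3 + (-4) * Q ^ 2 * R ^ 7 + (-5) * Q ^ 2 * R ^ 2 + (-4) * Q ^ 1 * R ^ 6 +
      (-5) * Q ^ 1 * R ^ 1 + (2) * Q ^ 0 * R ^ 5) * hQR +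
      ((-284) * Q ^ 15 * R ^ 0 + (-1989) * Q ^ 12 * R ^ 2 + (34) * Q ^ 10 * R ^ 0 +
      (-5567) * Q ^ 9 * R ^ 4 + (143) * Q ^ 7 * R ^ 2 + (-7796) * Q ^ 6 * R ^ 6 +
      (9) * Q ^ 6 * R ^ 1 + (200) * Q ^ 4 * R ^ 4 + (-5456) * Q ^ 3 * R ^ 8 +
      (26) * Q ^ 3 * R ^ 3 + (93) * Q ^ 1 * R ^ 6 + (-1) * Q ^ 1 * R ^ 1 +
      (-1528) * Q ^ 0 * R ^ 10 + (18) * Q ^ 0 * R ^ 5) * h11
  linear_combination key - e1 + e2 + 2 * e3 - 5 * e4 +
    (2 * P * Q ^ 2 + 2 * P ^ 3 * Q - 5 * P ^ 2 * R + Q * R) * h11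

/-- **Ramanujan: `p(11n + 6) ≡ 0 mod 11`** -/
theorem partition_eleven (n : ℕ) : 11 ∣ Fintype.card (Nat.Partition (11 * n + 6)) := by
  refine partition_criterion (p := 11) (a := 5) (by norm_num) (fun m => ?_) (n + 1) _ (by ring)
  have h := congrArg (PowerSeries.coeff (11 * m)) ta_pow_eleven
  rw [map_add, map_sub, map_sub, coeff_ofNat_mul', coeff_ofNat_mul', coeff_ofNat_mul',
    coeff_ofNat_mul', coeff_th_mul_self, coeff_th_mul_self, coeff_th_mul_self, coeff_th_mul_self,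
    mul_zero, mul_zero, mul_zero, mul_zero, sub_zero, sub_zero, add_zero, mul_pow,
    ← map_ofNat (PowerSeries.C (R := ZMod 11)), ← map_pow, PowerSeries.coeff_C_mul,
    mul_eq_zero] at h
  exact h.resolve_left (by decide)

end Fermat.Agent.Cor.Tau
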