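import Fermat.Agent.Corollaries.Tau.Ramanujan
import Mathlib.NumberTheory.ModularForms.Derivative

/-!
# The expansion of the derivative of a function on the upper half plane
-/

set_option autoImplicit false

noncomputable section

open UpperHalfPlane ModularForm ModularFormClass MatrixGroups EisensteinSeries Filter Derivative
open scoped ArithmeticFunction.sigma Topology Manifold Real Nat

namespace Fermat.Agent.Cor.Tau

local notation "𝕢" => Function.Periodic.qParam

theorem hasSum_ball {F : ℍ → ℂ} {c : ℕ → ℂ}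
    (hF : ∀ τ : ℍ, HasSum (fun m : ℕ => c m * 𝕢 1 (τ : ℂ) ^ m) (F τ)) {q : ℂ} (hq : ‖q‖ < 1) :
    HasSum (fun m : ℕ => c m * q ^ m) (∑' m : ℕ, c m * q ^ m) := by
  refine Summable.hasSum ?_
  rcases eq_or_ne q 0 with rfl | hq0
  · refine summable_of_ne_finset_zero (s := {0}) fun m hm => ?_
    rw [zero_pow (by simpa using hm), mul_zero]
  · have h1 := (hF ⟨Function.Periodic.invQParam 1 q,
      Function.Periodic.im_invQParam_pos_of_norm_lt_one one_pos hq hq0⟩).summable
    have h2 : 𝕢 1 (Function.Periodic.invQParam 1 q) = q :=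
      Function.Periodic.qParam_right_inv one_ne_zero hq0
    simpa only [UpperHalfPlane.coe_mk, h2] using h1

theorem hasFPowerSeriesOnBall_tsum {F : ℍ → ℂ} {c : ℕ → ℂ}
    (hF : ∀ τ : ℍ, HasSum (fun m : ℕ => c m * 𝕢 1 (τ : ℂ) ^ m) (F τ)) :
    HasFPowerSeriesOnBall (fun q : ℂ => ∑' m : ℕ, c m * q ^ m) (.ofScalars ℂ c) 0 1 := by
  constructor
  · refine le_of_forall_lt_imp_le_of_dense fun r hr ↦ ?_
    lift r to NNReal using hr.ne_top
    apply FormalMultilinearSeries.le_radius_of_summable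
    have h1 := (hasSum_ball hF (q := (r : ℂ)) (by simpa using hr)).summable.norm
    simpa [smul_eq_mul, norm_mul, mul_comm, mul_left_comm, mul_assoc] using h1
  · simp
  · intro y hy
    rw [← ENNReal.coe_one, Metric.eball_coe, NNReal.coe_one, mem_ball_zero_iff] at hy
    simpa [mul_comm] using hasSum_ball hF hy

/-- the derivative `D = (2πi)⁻¹ d/dz = q d/dq` on expansions -/
theorem hasSum_D {F : ℍ → ℂ} {c : ℕ → ℂ}
    (hF : ∀ τ : ℍ, HasSum (fun m : ℕ => c m * 𝕢 1 (τ : ℂ) ^ m) (F τ)) (τ : ℍ) :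
    HasSum (fun m : ℕ => ((m : ℂ) * c m) * 𝕢 1 (τ : ℂ) ^ m) (normalizedDerivOfComplex F τ) := by
  set g : ℂ → ℂ := fun q => ∑' m : ℕ, c m * q ^ m with hg
  have hp := hasFPowerSeriesOnBall_tsum hF
  have hball : Metric.eball (0 : ℂ) 1 = Metric.ball 0 1 := by
    rw [← ENNReal.coe_one, Metric.eball_coe, NNReal.coe_one]
  have hd : DifferentiableOn ℂ g (Metric.ball 0 1) := by
    have := hp.differentiableOn
    rwa [hball] at this
  have hd' : DifferentiableOn ℂ (deriv g) (Metric.ball 0 1) := hd.deriv Metric.isOpen_ball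
  have hit : ∀ n : ℕ, iteratedDeriv n g 0 = n ! * c n := by
    intro n
    rw [iteratedDeriv_eq_iteratedFDeriv, ← hp.factorial_smul 1 n]
    simp
  set q : ℂ := 𝕢 1 (τ : ℂ) with hqdef
  have hq : ‖q‖ < 1 := Function.Periodic.norm_qParam_lt_one one_pos τ.im_pos
  have h1 := Complex.hasSum_taylorSeries_on_ball hd' (z := q) (by simpa using hq)
  have h2 : HasSum (fun n : ℕ => ((n + 1 : ℕ) : ℂ) * c (n + 1) * q ^ (n + 1)) (q * deriv g q) := by
    refine (h1.mul_left q).congr_fun fun n => ?_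
    have h3 : iteratedDeriv n (deriv g) 0 = ((n + 1)! : ℕ) * c (n + 1) := by
      rw [← iteratedDeriv_succ', hit]
    have h4 : ((n ! : ℕ) : ℂ) ≠ 0 := by exact_mod_cast Nat.factorial_ne_zero n
    rw [h3, sub_zero, Nat.factorial_succ, smul_eq_mul, smul_eq_mul]
    push_cast
    field_simp
    ring
  have h5 : HasSum (fun m : ℕ => ((m : ℂ) * c m) * q ^ m) (q * deriv g q) := by
    rw [← hasSum_nat_add_iff' 1]
    simpa using h2
  have h6 : normalizedDerivOfComplex F τ = q * deriv g q := by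
    have h7 : F ∘ ofComplex =ᶠ[𝓝 (τ : ℂ)] fun w => g (𝕢 1 w) := by
      have h8 : ∀ᶠ w : ℂ in 𝓝 (τ : ℂ), 0 < w.im :=
        (Complex.continuous_im.isOpen_preimage _ isOpen_Ioi).mem_nhds τ.im_pos
      filter_upwards [h8] with w hw
      rw [Function.comp_apply, ofComplex_apply_of_im_pos hw]
      exact (hF ⟨w, hw⟩).tsum_eq.symm
    have h9 : HasDerivAt (𝕢 1) (2 * π * Complex.I * q) (τ : ℂ) := by
      have h10 : HasDerivAt (fun w : ℂ => Complex.exp (2 * π * Complex.I * w))
          (Complex.exp (2 * π * Complex.I * τ) * (2 * π * Complex.I)) (τ : ℂ) := by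
        simpa using ((hasDerivAt_id (τ : ℂ)).const_mul (2 * π * Complex.I)).cexp
      have h11 : 𝕢 1 = fun w : ℂ => Complex.exp (2 * π * Complex.I * w) := by
        funext w
        simp [Function.Periodic.qParam]
      rw [hqdef, h11, mul_comm (2 * π * Complex.I)]
      exact h10
    have h12 : HasDerivAt g (deriv g q) q :=
      (hd.differentiableAt (Metric.isOpen_ball.mem_nhds (by simpa using hq))).hasDerivAt
    have h13 : deriv (fun w => g (𝕢 1 w)) (τ : ℂ) = deriv g q * (2 * π * Complex.I * q) :=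
      (HasDerivAt.comp (h₂ := g) (h := 𝕢 1) (τ : ℂ) h12 h9).deriv
    rw [normalizedDerivOfComplex, h7.deriv_eq, h13]
    have h14 : (2 * π * Complex.I : ℂ) ≠ 0 := Complex.two_pi_I_ne_zero
    field_simp
  rw [h6]
  exact h5

/-- products of expansions -/
theorem hasSum_mul {f g : PowerSeries ℂ} {q x y : ℂ}
    (hf : HasSum (fun n : ℕ => f.coeff n * q ^ n) x)
    (hg : HasSum (fun n : ℕ => g.coeff n * q ^ n) y) :
    HasSum (fun n : ℕ => (f * g).coeff n * q ^ n) (x * y) := by
  have h1 : (fun n : ℕ => (f * g).coeff n * q ^ n) = fun n =>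
      ∑ kl ∈ Finset.HasAntidiagonal.antidiagonal n,
        (f.coeff kl.1 * q ^ kl.1) * (g.coeff kl.2 * q ^ kl.2) := by
    funext n
    rw [PowerSeries.coeff_mul, Finset.sum_mul]
    refine Finset.sum_congr rfl fun kl hkl => ?_
    rw [← Finset.HasAntidiagonal.mem_antidiagonal.mp hkl, pow_add]
    ring
  have hf' := hf.summable.norm
  have hg' := hg.summable.norm
  rw [h1, ← hf.tsum_eq, ← hg.tsum_eq,
    tsum_mul_tsum_eq_tsum_sum_antidiagonal_of_summable_norm hf' hg']
  exact (summable_norm_sum_mul_antidiagonal_of_summable_norm hf' hg').of_norm.hasSum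

/-- `θ = X d/dX` on power series -/
def theta (f : PowerSeries ℂ) : PowerSeries ℂ := PowerSeries.mk fun n => (n : ℂ) * f.coeff n

theorem coeff_theta (f : PowerSeries ℂ) (n : ℕ) : (theta f).coeff n = (n : ℂ) * f.coeff n :=
  PowerSeries.coeff_mk _ _

/-- the function `F` on the upper half plane has the expansion `f` -/
def HasExp (F : ℍ → ℂ) (f : PowerSeries ℂ) : Prop :=
  ∀ τ : ℍ, HasSum (fun n : ℕ => f.coeff n * 𝕢 1 (τ : ℂ) ^ n) (F τ)

theorem HasExp.mul {F G : ℍ → ℂ} {f g : PowerSeries ℂ} (hF : HasExp F f) (hG : HasExp G g) :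
    HasExp (F * G) (f * g) := fun τ => hasSum_mul (hF τ) (hG τ)

theorem HasExp.smul {F : ℍ → ℂ} {f : PowerSeries ℂ} (a : ℂ) (hF : HasExp F f) :
    HasExp (a • F) (a • f) := fun τ => by
  refine ((hF τ).mul_left a).congr_fun fun n => ?_
  rw [PowerSeries.coeff_smul, smul_eq_mul, mul_assoc]

theorem HasExp.sub {F G : ℍ → ℂ} {f g : PowerSeries ℂ} (hF : HasExp F f) (hG : HasExp G g) :
    HasExp (F - G) (f - g) := fun τ => by
  refine ((hF τ).sub (hG τ)).congr_fun fun n => ?_
  rw [map_sub, sub_mul]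

theorem HasExp.D {F : ℍ → ℂ} {f : PowerSeries ℂ} (hF : HasExp F f) :
    HasExp (normalizedDerivOfComplex F) (theta f) := fun τ => by
  refine (hasSum_D hF τ).congr_fun fun n => ?_
  rw [coeff_theta]

/-- the expansion of `E₂` -/
def P : PowerSeries ℂ := 1 - 24 * sig 1

theorem hasExp_E2 : HasExp E2 P := fun τ => by
  have hq : 𝕢 1 (τ : ℂ) = Complex.exp (2 * π * Complex.I * τ) := by
    simp [Function.Periodic.qParam]
  refine (hasSum_qExpansion_E2 (z := τ)).congr_fun fun n => ?_
  rw [hq, P, map_sub, coeff_ofNat_mul, coeff_sig, PowerSeries.coeff_one, smul_eq_mul]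
  rcases eq_or_ne n 0 with rfl | hn
  · simp
  · rw [if_neg hn, if_neg hn]
    ring

theorem hasExp_form {k : ℤ} (F : ModularForm 𝒮ℒ k) : HasExp F (qExpansion 1 F) := fun τ =>
  ModularForm.hasSum_qExpansion F one_pos one_mem_strictPeriods_SL τ

/-- a holomorphic function on the upper half plane which is invariant and has an expansion is a modular form -/
def mkForm {k : ℤ} (G : ℍ → ℂ) (hG : MDiff G) (hs : ∀ γ : SL(2, ℤ), G ∣[k] γ = G)
    (g : PowerSeries ℂ) (hg : HasExp G g) : ModularForm 𝒮ℒ k where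
  toFun := G
  slash_action_eq' A hA := by
    obtain ⟨γ, rfl⟩ := hA
    exact hs γ
  holo' := hG
  bdd_at_cusps' hc := by
    rw [Subgroup.IsArithmetic.isCusp_iff_isCusp_SL2Z] at hc
    rw [OnePoint.isBoundedAt_iff_forall_SL2Z hc]
    intro γ _
    rw [hs γ]
    exact isBoundedAtImInfty_of_hasSum_qExpansion one_pos fun τ => hg τ

theorem qExpansion_mkForm {k : ℤ} (G : ℍ → ℂ) (hG : MDiff G) (hs : ∀ γ : SL(2, ℤ), G ∣[k] γ = G)
    (g : PowerSeries ℂ) (hg : HasExp G g) : qExpansion 1 (mkForm G hG hs g hg) = g := by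
  ext n
  exact (ModularFormClass.qExpansion_coeff_unique one_pos one_mem_strictPeriods_SL
    (f := mkForm G hG hs g hg) (c := fun n => g.coeff n) (fun τ => hg τ) n).symm

/-- the Serre derivative of a modular form of level one -/
def serreForm {k : ℤ} (F : ModularForm 𝒮ℒ k) : ModularForm 𝒮ℒ (k + 2) :=
  mkForm (serreDerivative k F) (serreDerivative_mdifferentiable _ (holo F))
    (fun γ => serreDerivative_slash_invariant (holo F) (F.slash_action_eq' _ ⟨γ, rfl⟩))
    (theta (qExpansion 1 F) - ((k : ℂ) * 12⁻¹) • (P * qExpansion 1 F))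
    (((hasExp_form F).D).sub ((hasExp_E2.mul (hasExp_form F)).smul ((k : ℂ) * 12⁻¹)) |> fun h => by
      convert h using 1
      funext z
      simp [mul_assoc])

theorem qExpansion_serreForm {k : ℤ} (F : ModularForm 𝒮ℒ k) : qExpansion 1 (serreForm F) =
    theta (qExpansion 1 F) - ((k : ℂ) * 12⁻¹) • (P * qExpansion 1 F) :=
  qExpansion_mkForm _ _ _ _ _

theorem coeff_zero_P : P.coeff 0 = 1 := by
  rw [P, map_sub, coeff_ofNat_mul, coeff_sig_zero, mul_zero, sub_zero, PowerSeries.coeff_zero_one]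

theorem coeff_zero_serreForm {k : ℤ} (F : ModularForm 𝒮ℒ k) (h : (qExpansion 1 F).coeff 0 = 1) :
    (qExpansion 1 (serreForm F)).coeff 0 = -((k : ℂ) * 12⁻¹) := by
  rw [qExpansion_serreForm, map_sub, coeff_theta, PowerSeries.coeff_smul, coeff_zero_mul,
    coeff_zero_P, h, smul_eq_mul]
  push_cast
  ring

/-- **Ramanujan's differential equation for `Q = E₄`**: `3 θQ = P Q - R` -/
theorem theta_Q : 3 * theta (qExpansion 1 E₄) = P * qExpansion 1 E₄ - qExpansion 1 E₆ := by
  have h1 : qExpansion 1 ⇑(serreForm E₄ : ModularForm 𝒮ℒ ((6 : ℕ) : ℤ)) =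
      qExpansion 1 ⇑((-1 / 3 : ℂ) • E₆ : ModularForm 𝒮ℒ ((6 : ℕ) : ℤ)) := by
    refine qExpansion_congr (k := 6) _ _ fun n hn => ?_
    obtain rfl : n = 0 := by omega
    rw [FunLike.coe_smul, ModularForm.qExpansion_smul one_pos one_mem_strictPeriods_SL,
      PowerSeries.coeff_smul, E_qExpansion_coeff_zero _ ⟨3, rfl⟩, smul_eq_mul]
    refine (coeff_zero_serreForm E₄ (E_qExpansion_coeff_zero _ ⟨2, rfl⟩)).trans ?_
    push_cast
    norm_num
  have h2 := (qExpansion_serreForm E₄).symm.trans h1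
  rw [FunLike.coe_smul, ModularForm.qExpansion_smul one_pos one_mem_strictPeriods_SL] at h2
  rw [← smul_ofNat]
  push_cast at h2
  have h3 := congrArg (fun f => (3 : ℂ) • f) h2
  simp only [smul_sub, smul_smul] at h3
  norm_num at h3
  linear_combination h3

/-- **Ramanujan's differential equation for `R = E₆`**: `2 θR = P R - Q²` -/
theorem theta_R : 2 * theta (qExpansion 1 E₆) =
    P * qExpansion 1 E₆ - qExpansion 1 E₄ * qExpansion 1 E₄ := by
  have h1 : qExpansion 1 ⇑(serreForm E₆ : ModularForm 𝒮ℒ ((8 : ℕ) : ℤ)) =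
      qExpansion 1 ⇑((-1 / 2 : ℂ) • E₈ : ModularForm 𝒮ℒ ((8 : ℕ) : ℤ)) := by
    refine qExpansion_congr (k := 8) _ _ fun n hn => ?_
    obtain rfl : n = 0 := by omega
    rw [FunLike.coe_smul, ModularForm.qExpansion_smul one_pos one_mem_strictPeriods_SL,
      PowerSeries.coeff_smul, E_qExpansion_coeff_zero _ ⟨4, rfl⟩, smul_eq_mul]
    refine (coeff_zero_serreForm E₆ (E_qExpansion_coeff_zero _ ⟨3, rfl⟩)).trans ?_
    push_cast
    norm_num
  have h2 := (qExpansion_serreForm E₆).symm.trans h1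
  rw [FunLike.coe_smul, ModularForm.qExpansion_smul one_pos one_mem_strictPeriods_SL] at h2
  rw [← smul_ofNat, E₄_mul_E₄]
  push_cast at h2
  have h3 := congrArg (fun f => (2 : ℂ) • f) h2
  simp only [smul_sub, smul_smul] at h3
  norm_num at h3
  linear_combination h3

end Fermat.Agent.Cor.Tau
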