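import Fermat.Agent.Corollaries.Tau.Quasi

/-!
# Ramanujan's differential equation for `P = E₂`: `12 θP = P² - Q`
-/

set_option autoImplicit false

noncomputable section

open UpperHalfPlane ModularForm ModularFormClass MatrixGroups EisensteinSeries Filter Derivative
open scoped ArithmeticFunction.sigma Topology Manifold Real Nat

namespace Fermat.Agent.Cor.Tau

local notation "𝕢" => Function.Periodic.qParam

theorem hasDerivAt_D2 (γ : SL(2, ℤ)) (z : ℍ) :
    HasDerivAt (D2 γ ∘ ofComplex)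
      (-(2 * π * Complex.I) * ((γ 1 0 : ℂ) / denom γ z) ^ 2) (z : ℂ) := by
  have h1 : D2 γ ∘ ofComplex =ᶠ[𝓝 (z : ℂ)]
      fun w => (2 * π * Complex.I * (γ 1 0 : ℂ)) / ((γ 1 0 : ℂ) * w + (γ 1 1 : ℂ)) := by
    have h8 : ∀ᶠ w : ℂ in 𝓝 (z : ℂ), 0 < w.im :=
      (Complex.continuous_im.isOpen_preimage _ isOpen_Ioi).mem_nhds z.im_pos
    filter_upwards [h8] with w hw
    rw [Function.comp_apply, ofComplex_apply_of_im_pos hw, D2, ModularGroup.denom_apply]
  have h2 : (γ 1 0 : ℂ) * z + (γ 1 1 : ℂ) ≠ 0 := by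
    have h3 := denom_ne_zero (γ : GL (Fin 2) ℝ) z
    rwa [ModularGroup.denom_apply] at h3
  have h4 : HasDerivAt (fun w : ℂ => (γ 1 0 : ℂ) * w + (γ 1 1 : ℂ)) (γ 1 0 : ℂ) (z : ℂ) := by
    simpa using ((hasDerivAt_id (z : ℂ)).const_mul (γ 1 0 : ℂ)).add_const (γ 1 1 : ℂ)
  have h5 := (h4.inv h2).const_mul (2 * π * Complex.I * (γ 1 0 : ℂ))
  refine HasDerivAt.congr_of_eventuallyEq (h5.congr_deriv ?_) h1
  rw [ModularGroup.denom_apply, div_pow]
  ring

theorem mdiff_D2 (γ : SL(2, ℤ)) : MDiff (D2 γ) := by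
  rw [UpperHalfPlane.mdifferentiable_iff]
  intro w hw
  exact (hasDerivAt_D2 γ ⟨w, hw⟩).differentiableAt.differentiableWithinAt

theorem D_D2 (γ : SL(2, ℤ)) (z : ℍ) :
    normalizedDerivOfComplex (D2 γ) z = -((γ 1 0 : ℂ) / denom γ z) ^ 2 := by
  rw [normalizedDerivOfComplex, (hasDerivAt_D2 γ z).deriv]
  have h14 : (2 * π * Complex.I : ℂ) ≠ 0 := Complex.two_pi_I_ne_zero
  field_simp

/-- the Serre derivative of `E₂` (weight 1!) is invariant of weight 4 -/
theorem serre_E2_slash (γ : SL(2, ℤ)) :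
    (serreDerivative 1 E2) ∣[(4 : ℤ)] γ = serreDerivative 1 E2 := by
  have hE2 : (E2 ∣[(2 : ℤ)] γ) = E2 - (1 / (2 * riemannZeta 2)) • D2 γ := E2_slash_action γ
  ext z
  set u : ℂ := (γ 1 0 : ℂ) / denom γ z with hu
  have hD2 : D2 γ z = 2 * π * Complex.I * u := by
    rw [D2, hu]; ring
  have hE2z : (E2 ∣[(2 : ℤ)] γ) z = E2 z - 1 / (2 * riemannZeta 2) * D2 γ z := by
    rw [hE2]; rfl
  have h1 : (serreDerivative 1 E2 ∣[(4 : ℤ)] γ) z =
      (normalizedDerivOfComplex E2 ∣[(2 : ℤ) + 2] γ) z -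
        12⁻¹ * ((E2 ∣[(2 : ℤ)] γ) z * (E2 ∣[(2 : ℤ)] γ) z) := by
    grind [ModularForm.SL_slash_apply, serreDerivative_apply, Pi.mul_apply,
      congrFun (ModularForm.mul_slash_SL2 2 2 γ E2 E2) z]
  have h2 : (normalizedDerivOfComplex (E2 ∣[(2 : ℤ)] γ)) z =
      (normalizedDerivOfComplex E2 ∣[(2 : ℤ) + 2] γ) z -
        (2 * (2 * π * Complex.I)⁻¹ * u * (E2 ∣[(2 : ℤ)] γ) z) := by
    rw [normalizedDerivOfComplex_SL_slash E2_mdifferentiable]
    simp [hu]
  have h3 : (normalizedDerivOfComplex (E2 ∣[(2 : ℤ)] γ)) z =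
      normalizedDerivOfComplex E2 z + 1 / (2 * riemannZeta 2) * u ^ 2 := by
    rw [hE2, normalizedDerivOfComplex_sub _ _ E2_mdifferentiable ((mdiff_D2 γ).const_smul _),
      normalizedDerivOfComplex_smul _ _ (mdiff_D2 γ), Pi.sub_apply, Pi.smul_apply, D_D2,
      smul_eq_mul]
    ring
  have hpi : (π : ℂ) ≠ 0 := by exact_mod_cast Real.pi_ne_zero
  have hI : Complex.I ≠ 0 := Complex.I_ne_zero
  have h4 : (normalizedDerivOfComplex E2 ∣[(2 : ℤ) + 2] γ) z =
      normalizedDerivOfComplex E2 z + 1 / (2 * riemannZeta 2) * u ^ 2 +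
        (2 * (2 * π * Complex.I)⁻¹ * u * (E2 ∣[(2 : ℤ)] γ) z) := by
    rw [← h3, h2]; ring
  rw [h1, h4, hE2z, hD2, serreDerivative_apply, riemannZeta_two]
  have hI3 : Complex.I ^ 3 = -Complex.I := by rw [pow_succ, Complex.I_sq]; ring
  field_simp
  ring_nf
  simp only [hI3, Complex.I_sq]
  ring

/-- `12 ϑP = 12 θP - P²` is a modular form of weight 4 -/
def serreP : ModularForm 𝒮ℒ ((4 : ℕ) : ℤ) :=
  mkForm (serreDerivative 1 E2) (serreDerivative_mdifferentiable _ E2_mdifferentiable)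
    serre_E2_slash (theta P - (12⁻¹ : ℂ) • (P * P))
    (hasExp_E2.D.sub ((hasExp_E2.mul hasExp_E2).smul 12⁻¹) |> fun h => by
      convert h using 1
      funext z
      simp [mul_assoc])

/-- **Ramanujan's differential equation for `P = E₂`**: `12 θP = P² - Q` -/
theorem theta_P : 12 * theta P = P * P - qExpansion 1 E₄ := by
  have h0 : qExpansion 1 serreP = theta P - (12⁻¹ : ℂ) • (P * P) := qExpansion_mkForm _ _ _ _ _
  have h1 : qExpansion 1 serreP =
      qExpansion 1 ⇑((-1 / 12 : ℂ) • E₄ : ModularForm 𝒮ℒ ((4 : ℕ) : ℤ)) := by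
    refine qExpansion_congr (k := 4) _ _ fun n hn => ?_
    obtain rfl : n = 0 := by omega
    rw [h0, FunLike.coe_smul, ModularForm.qExpansion_smul one_pos one_mem_strictPeriods_SL,
      PowerSeries.coeff_smul, E_qExpansion_coeff_zero _ ⟨2, rfl⟩, smul_eq_mul, map_sub,
      coeff_theta, PowerSeries.coeff_smul, coeff_zero_mul, coeff_zero_P, smul_eq_mul]
    push_cast
    norm_num
  have h2 := h0.symm.trans h1
  rw [FunLike.coe_smul, ModularForm.qExpansion_smul one_pos one_mem_strictPeriods_SL] at h2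
  rw [← smul_ofNat]
  have h3 := congrArg (fun f => (12 : ℂ) • f) h2
  simp only [smul_sub, smul_smul] at h3
  norm_num at h3
  linear_combination h3

end Fermat.Agent.Cor.Tau
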