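import Fermat.Agent.Corollaries.Tau.Quasi2

/-!
# Consequences of Ramanujan's differential equations for the power series
-/

set_option autoImplicit false

noncomputable section

open UpperHalfPlane ModularForm EisensteinSeries
open scoped ArithmeticFunction.sigma

namespace Fermat.Agent.Cor.Tau

theorem theta_mul (f g : PowerSeries ℂ) : theta (f * g) = theta f * g + f * theta g := by
  ext n
  rw [coeff_theta, map_add, PowerSeries.coeff_mul, PowerSeries.coeff_mul, PowerSeries.coeff_mul,
    Finset.mul_sum, ← Finset.sum_add_distrib]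
  refine Finset.sum_congr rfl fun kl hkl => ?_
  rw [coeff_theta, coeff_theta, ← Finset.HasAntidiagonal.mem_antidiagonal.mp hkl]
  push_cast
  ring

theorem theta_add (f g : PowerSeries ℂ) : theta (f + g) = theta f + theta g := by
  ext n
  rw [coeff_theta, map_add, map_add, coeff_theta, coeff_theta, mul_add]

theorem theta_sub (f g : PowerSeries ℂ) : theta (f - g) = theta f - theta g := by
  ext n
  rw [coeff_theta, map_sub, map_sub, coeff_theta, coeff_theta, mul_sub]

theorem theta_one : theta 1 = 0 := by
  ext n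
  rw [coeff_theta, PowerSeries.coeff_one]
  rcases eq_or_ne n 0 with rfl | hn
  · simp
  · simp [hn]

theorem theta_ofNat_mul (k : ℕ) [k.AtLeastTwo] (f : PowerSeries ℂ) :
    theta (OfNat.ofNat k * f) = OfNat.ofNat k * theta f := by
  ext n
  rw [coeff_theta, coeff_ofNat_mul, coeff_ofNat_mul, coeff_theta]
  ring

/-- the expansion of `E₄` -/
abbrev Q : PowerSeries ℂ := qExpansion 1 E₄
/-- the expansion of `E₆` -/
abbrev R : PowerSeries ℂ := qExpansion 1 E₆

theorem theta_P_eq : theta P = -24 * theta (sig 1) := by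
  rw [P, theta_sub, theta_one, theta_ofNat_mul]; ring

theorem theta_Q_eq : theta Q = 240 * theta (sig 3) := by
  rw [show Q = _ from Q_eq, theta_add, theta_one, theta_ofNat_mul]; ring

theorem theta_R_eq : theta R = -504 * theta (sig 5) := by
  rw [show R = _ from R_eq, theta_sub, theta_one, theta_ofNat_mul]; ring

/-- `5 σ₃ + σ₁ = 12 σ₁ * σ₁ + 6 n σ₁` -/
theorem sig_11 : 5 * sig 3 + sig 1 = 12 * (sig 1 * sig 1) + 6 * theta (sig 1) := by
  apply ofNat_mul_cancel 48
  have h := theta_P
  rw [theta_P_eq, P, Q_eq] at h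
  linear_combination h

theorem sig_13_conv : 21 * sig 5 + 10 * sig 3 =
    sig 1 + 30 * theta (sig 3) + 240 * (sig 1 * sig 3) := by
  apply ofNat_mul_cancel 24
  have h := theta_Q
  rw [show theta (qExpansion 1 E₄) = _ from theta_Q_eq, P, Q_eq, R_eq] at h
  linear_combination -h

theorem sig_15_conv : 20 * sig 7 + 21 * sig 5 + sig 1 =
    42 * theta (sig 5) + 504 * (sig 1 * sig 5) := by
  apply ofNat_mul_cancel 24
  have h := theta_R
  rw [show theta (qExpansion 1 E₆) = _ from theta_R_eq, E₄_mul_E₄, P, E₈_eq, R_eq] at h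
  linear_combination h

/-- `1728 Δ = 3 R θQ - 2 Q θR` -/
theorem tau_bracket : 1728 * tauSer = 3 * (R * theta Q) - 2 * (Q * theta R) := by
  have h1 := discriminant_eq
  have h2 : 3 * theta Q = P * Q - R := theta_Q
  have h3 : 2 * theta R = P * R - Q * Q := theta_R
  linear_combination h1 - R * h2 + Q * h3

theorem tau_sig_35 : 12 * tauSer + 2520 * (theta (sig 3) * sig 5) =
    5 * theta (sig 3) + 7 * theta (sig 5) + 1680 * (sig 3 * theta (sig 5)) := by
  apply ofNat_mul_cancel 144
  have h := tau_bracket
  rw [theta_Q_eq, theta_R_eq, show R = _ from R_eq, show Q = _ from Q_eq] at h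
  linear_combination h

/-- `θΔ = P Δ` -/
theorem theta_tauSer : theta tauSer = P * tauSer := by
  apply ofNat_mul_cancel 1728
  have h1 : 1728 * tauSer = Q ^ 3 - R ^ 2 := discriminant_eq
  have h2 : 3 * theta Q = P * Q - R := theta_Q
  have h3 : 2 * theta R = P * R - Q * Q := theta_R
  rw [← theta_ofNat_mul, h1, theta_sub, pow_succ, pow_two, pow_two, theta_mul, theta_mul,
    theta_mul]
  linear_combination Q ^ 2 * h2 - R * h3 - P * h1

/-- `960 Δ = 4 Q θ²Q - 5 (θQ)²` -/
theorem tau_van_der_pol : 960 * tauSer = 4 * (Q * theta (theta Q)) - 5 * (theta Q * theta Q) := by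
  apply ofNat_mul_cancel 9
  have h0 := discriminant_eq
  have h1 : 12 * theta P = P * P - Q := theta_P
  have h2 : 3 * theta Q = P * Q - R := theta_Q
  have h3 : 2 * theta R = P * R - Q * Q := theta_R
  have h4 : 3 * theta (theta Q) = theta P * Q + P * theta Q - theta R := by
    rw [← theta_ofNat_mul, h2, theta_sub, theta_mul]
  linear_combination 5 * h0 - 12 * Q * h4 - Q ^ 2 * h1 - 4 * P * Q * h2 + 6 * Q * h3 +
    5 * (3 * theta Q + P * Q - R) * h2

/-- `-24 Δ = P θ⁴P - 16 θP θ³P + 18 (θ²P)²` -/
theorem tau_niebur : -24 * tauSer = P * theta (theta (theta (theta P))) -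
    16 * (theta P * theta (theta (theta P))) + 18 * (theta (theta P) * theta (theta P)) := by
  apply ofNat_mul_cancel 864
  have h0 := discriminant_eq
  have h1 : 12 * theta P = P * P - Q := theta_P
  have h2 : 3 * theta Q = P * Q - R := theta_Q
  have h3 : 2 * theta R = P * R - Q * Q := theta_R
  have h5 : 72 * theta (theta P) = P * P * P - 3 * (P * Q) + 2 * R := by
    have h := congrArg theta h1
    rw [theta_ofNat_mul, theta_sub, theta_mul] at h
    linear_combination 6 * h + P * h1 - 2 * h2
  have h6 : 288 * theta (theta (theta P)) =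
      P * P * P * P - 6 * (P * P * Q) + 8 * (P * R) - 3 * (Q * Q) := by
    have h := congrArg theta h5
    rw [theta_ofNat_mul, theta_add, theta_sub, theta_mul, theta_mul, theta_ofNat_mul, theta_mul,
      theta_ofNat_mul] at h
    linear_combination 4 * h + (P ^ 2 - Q) * h1 - 4 * P * h2 + 4 * h3
  have h7 : 864 * theta (theta (theta (theta P))) = P * P * P * P * P - 10 * (P * P * P * Q) +
      20 * (P * P * R) - 15 * (P * Q * Q) + 4 * (Q * R) := by
    have h := congrArg theta h6
    rw [theta_ofNat_mul, theta_sub, theta_add, theta_sub, theta_mul, theta_mul, theta_mul,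
      theta_ofNat_mul, theta_mul, theta_mul, theta_ofNat_mul, theta_mul, theta_ofNat_mul,
      theta_mul] at h
    linear_combination 3 * h + (P ^ 3 - 3 * P * Q + 2 * R) * h1 - (6 * P ^ 2 + 6 * Q) * h2 +
      12 * P * h3
  linear_combination -12 * h0 - P * h7 + 4 * (288 * theta (theta (theta P))) * h1 +
    4 * (P * P - Q) * h6 -
    3 * (72 * theta (theta P) + (P * P * P - 3 * (P * Q) + 2 * R)) * h5

end Fermat.Agent.Cor.Tau
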