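import Fermat.Agent.Corollaries.Tau.WiltonPow
import Fermat.Agent.Corollaries.Div.TauExact

/-!
# The values of `τ` which are not divisible by 23

`#{n ≤ x : 23 ∤ τ(n)} ~ C x / (log x) ^ (1 / 2)`, `C > 0` (Ramanujan's manuscript, Serre).
-/

set_option autoImplicit false

noncomputable section

open Filter Topology

namespace Fermat.Agent.Cor.Tau

theorem dvd_tau_prime_iff {p : ℕ} (hp : p.Prime) (h23 : p ≠ 23) :
    ((23 : ℕ) : ℤ) ∣ tau p ↔ (p : ZMod 23) ^ 11 = -1 := by
  rw [← ZMod.intCast_zmod_eq_zero_iff_dvd, (wilton hp h23).1]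
  constructor
  · exact pow_eleven_nonsq hp
  · intro h hsq
    rw [pow_eleven_sq hp h23 hsq] at h
    exact absurd h (by decide)

theorem card_neg_one : Nat.card {u : (ZMod 23)ˣ | (u : ZMod 23) ^ 11 = -1} = 11 := by
  rw [Nat.card_eq_fintype_card]
  decide +kernel

/-- **`#{n ≤ x : 23 ∤ τ(n)} ~ C x / (log x) ^ (1 / 2)`, `C > 0`** -/
theorem card_not_dvd_tau_twenty_three : ∃ C : ℝ, 0 < C ∧ Tendsto (fun x : ℝ =>
      (((Finset.Icc 1 ⌊x⌋₊).filter fun n => ¬ (23 : ℤ) ∣ tau n).card : ℝ) /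
        (x / Real.log x ^ (1 / 2 : ℝ))) atTop (𝓝 C) := by
  have h23 : Nat.Prime 23 := by norm_num
  obtain ⟨C, hC, h⟩ := Div.card_not_dvd_of_residue h23 tau_one
    (fun m n h => tau_mul_of_coprime h) (q := 23) (U := {u : (ZMod 23)ˣ | (u : ZMod 23) ^ 11 = -1})
    (by
      intro h
      have h1 : (1 : (ZMod 23)ˣ) ∈ {u : (ZMod 23)ˣ | (u : ZMod 23) ^ 11 = -1} := h ▸ Set.mem_univ _
      rw [Set.mem_ofPred_eq, Units.val_one, one_pow] at h1
      exact absurd h1 (by decide))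
    (fun p hp hpq => by
      have hne : p ≠ 23 := by
        rintro rfl
        exact hpq dvd_rfl
      rw [dvd_tau_prime_iff hp hne]
      have hcop : p.Coprime 23 := (Nat.Prime.coprime_iff_not_dvd hp).mpr hpq
      constructor
      · intro h
        refine ⟨ZMod.unitOfCoprime p hcop, ?_, ZMod.coe_unitOfCoprime p hcop⟩
        rw [Set.mem_ofPred_eq, ZMod.coe_unitOfCoprime]
        exact h
      · rintro ⟨u, hu, hup⟩
        rw [← hup]
        exact hu)
  refine ⟨C, hC, ?_⟩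
  have e : (Nat.card {u : (ZMod 23)ˣ | (u : ZMod 23) ^ 11 = -1} : ℝ) / Nat.totient 23 =
      1 / 2 := by
    rw [card_neg_one, Nat.totient_prime h23]
    norm_num
  rw [e] at h
  exact_mod_cast h

end Fermat.Agent.Cor.Tau
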