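import Fermat.Agent.Corollaries.Tau.More
import Fermat.Agent.Corollaries.Tau.Lehmer
import Fermat.Agent.Corollaries.Ray.Reduced

/-!
# Wilton's congruence for `τ(p)` modulo 23
-/

set_option autoImplicit false

noncomputable section

open PowerSeries Pentagonal

namespace Fermat.Agent.Cor.Tau

/-! ### The coefficients modulo 23 -/

theorem coeff_pow_mul {p : ℕ} [Fact p.Prime] (f : PowerSeries (ZMod p)) (m : ℕ) :
    (f ^ p).coeff (p * m) = f.coeff m := by
  have hp : 0 < p := (Fact.out : p.Prime).pos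
  have hle : m ≤ p * m := Nat.le_mul_of_pos_left m hp
  have h1 : (f ^ p).coeff (p * m) = (PowerSeries.trunc (p * m + 1) (f ^ p)).coeff (p * m) := by
    rw [PowerSeries.coeff_trunc, if_pos (Nat.lt_succ_self _)]
  rw [h1, ← PowerSeries.trunc_trunc_pow, PowerSeries.coeff_trunc, if_pos (Nat.lt_succ_self _),
    ← Polynomial.coe_pow, Polynomial.coeff_coe, ← ZMod.expand_card, mul_comm p m,
    Polynomial.coeff_expand_mul hp, PowerSeries.coeff_trunc, if_pos]
  rw [mul_comm m p]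
  omega

/-- the term of the sum -/
def wterm (t : ℕ × ℕ) : ZMod 23 := (phi (ZMod 23)).coeff t.1 * (phi (ZMod 23) ^ 23).coeff t.2

theorem tau_eq_sum (n : ℕ) : ((tau (n + 1) : ℤ) : ZMod 23) =
    ∑ t ∈ Finset.HasAntidiagonal.antidiagonal n, wterm t := by
  have h1 : ta (ZMod 23) = X * (phi (ZMod 23) * phi (ZMod 23) ^ 23) := by
    rw [ta_eq_phi, ← pow_succ']
  have h2 := congrArg (PowerSeries.coeff (n + 1)) h1
  rw [ta, PowerSeries.coeff_mk, PowerSeries.coeff_succ_X_mul, PowerSeries.coeff_mul] at h2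
  exact h2

theorem wterm_eq (a b : ℤ) : wterm (pentagonal a, 23 * pentagonal b) =
    (((a.negOnePow : ℤ) * (b.negOnePow : ℤ) : ℤ) : ZMod 23) := by
  rw [wterm, coeff_pow_mul, phi, coeff_pentagonalSeries_pentagonal,
    coeff_pentagonalSeries_pentagonal]
  push_cast
  rfl

theorem exists_of_wterm {t : ℕ × ℕ} (h : wterm t ≠ 0) :
    ∃ a b : ℤ, t = (pentagonal a, 23 * pentagonal b) := by
  rw [wterm] at h
  have h1 := left_ne_zero_of_mul h
  have h2 := right_ne_zero_of_mul h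
  have h3 : t.1 ∈ Set.range pentagonal := by
    by_contra hn
    exact h1 (coeff_pentagonalSeries_eq_zero _ hn)
  obtain ⟨a, ha⟩ := h3
  by_cases hd : 23 ∣ t.2
  swap
  · exact absurd (coeff_pow_prime _ hd) h2
  obtain ⟨m, hm⟩ := hd
  rw [hm, coeff_pow_mul] at h2
  have h4 : m ∈ Set.range pentagonal := by
    by_contra hn
    exact h2 (coeff_pentagonalSeries_eq_zero _ hn)
  obtain ⟨b, hb⟩ := h4
  exact ⟨a, b, Prod.ext ha.symm (by rw [hm, ← hb])⟩

theorem sq_eq_pentagonal (k : ℤ) : (1 - 6 * k) ^ 2 = 24 * (pentagonal k : ℤ) + 1 := by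
  have h := two_mul_natCast_pentagonal k
  linear_combination (-12) * h

/-! ### The equation `x² + 23 y² = 24 p` -/

theorem dvd_of_sq_dvd_aux {P A B : ℤ} (hP : Prime P) (h : A ^ 2 + 23 * B ^ 2 = 576 * P ^ 2)
    (hB : P ∣ B) : P ∣ A := by
  refine hP.dvd_of_dvd_pow (n := 2) ?_
  obtain ⟨c, rfl⟩ := hB
  exact ⟨576 * P - 23 * P * c ^ 2, by linear_combination h⟩

/-- two solutions which are congruent to `(1, 1)` modulo 6 -/
theorem partner {P x y x' y' : ℤ} (hP : Prime P) (hP6 : P % 6 = 1 ∨ P % 6 = 5)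
    (hx : x % 6 = 1) (hy : y % 6 = 1) (hx' : x' % 6 = 1) (hy' : y' % 6 = 1)
    (h : x ^ 2 + 23 * y ^ 2 = 24 * P) (h' : x' ^ 2 + 23 * y' ^ 2 = 24 * P) :
    (x' = x ∧ y' = y) ∨
      ∃ e : ℤ, (P % 6 = 1 ∧ e = -1 ∨ P % 6 = 5 ∧ e = 1) ∧ 12 * x' = e * (11 * x - 23 * y) ∧
        12 * y' = -e * (x + 11 * y) := by
  have hP0 : P ≠ 0 := hP.ne_zero
  have hprod : P ∣ (x * y' - x' * y) * (x * y' + x' * y) :=
    ⟨24 * (y' ^ 2 - y ^ 2), by linear_combination y' ^ 2 * h - y ^ 2 * h'⟩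
  obtain ⟨a, rfl⟩ : ∃ a, x = 6 * a + 1 := ⟨x / 6, by omega⟩
  obtain ⟨b, rfl⟩ : ∃ b, y = 6 * b + 1 := ⟨y / 6, by omega⟩
  obtain ⟨a', rfl⟩ : ∃ a', x' = 6 * a' + 1 := ⟨x' / 6, by omega⟩
  obtain ⟨b', rfl⟩ : ∃ b', y' = 6 * b' + 1 := ⟨y' / 6, by omega⟩
  have hbd : ∀ U V : ℤ, U ^ 2 + 23 * V ^ 2 = 576 → -5 ≤ V ∧ V ≤ 5 ∧ -24 ≤ U ∧ U ≤ 24 := by
    intro U V hUV
    refine ⟨?_, ?_, ?_, ?_⟩ <;> nlinarith [sq_nonneg U, sq_nonneg V]
  rcases hP.dvd_or_dvd hprod with hd | hd
  · left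
    have e1 : ((6 * a + 1) * (6 * a' + 1) + 23 * (6 * b + 1) * (6 * b' + 1)) ^ 2 +
        23 * ((6 * a + 1) * (6 * b' + 1) - (6 * a' + 1) * (6 * b + 1)) ^ 2 = 576 * P ^ 2 := by
      linear_combination ((6 * a' + 1) ^ 2 + 23 * (6 * b' + 1) ^ 2) * h + 24 * P * h'
    obtain ⟨U, hU⟩ := dvd_of_sq_dvd_aux hP e1 hd
    obtain ⟨V, hV⟩ := hd
    have e2 : U ^ 2 + 23 * V ^ 2 = 576 := by
      rw [hU, hV] at e1
      have : P ^ 2 * (U ^ 2 + 23 * V ^ 2) = P ^ 2 * 576 := by linear_combination e1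
      exact mul_left_cancel₀ (pow_ne_zero 2 hP0) this
    obtain ⟨hb1, hb2, hb3, hb4⟩ := hbd U V e2
    have hV6 : (6 : ℤ) ∣ V := by
      have h1 : (6 : ℤ) ∣ P * V :=
        ⟨a + b' - a' - b + 6 * a * b' - 6 * a' * b, by rw [← hV]; ring⟩
      have h2 : IsCoprime (6 : ℤ) P := by
        rcases hP6 with h3 | h3
        · exact ⟨-(P / 6), 1, by omega⟩
        · exact ⟨P / 6 + 1, -1, by omega⟩
      exact h2.dvd_of_dvd_mul_left h1
    obtain rfl : V = 0 := by omega
    have hU2 : U = 24 ∨ U = -24 := by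
      have : (U - 24) * (U + 24) = 0 := by linear_combination e2
      rcases mul_eq_zero.mp this with h1 | h1
      · left; linarith
      · right; linarith
    have e3 : (6 * a' + 1) * (24 * P) = (6 * a + 1) * (P * U) := by
      linear_combination (-(6 * a' + 1)) * h + (6 * a + 1) * hU - 23 * (6 * b + 1) * hV
    have e4 : (6 * b' + 1) * (24 * P) = (6 * b + 1) * (P * U) := by
      linear_combination (-(6 * b' + 1)) * h + (6 * b + 1) * hU + (6 * a + 1) * hV
    rcases hU2 with rfl | rfl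
    · have e5 : P * (24 * (6 * a' + 1)) = P * (24 * (6 * a + 1)) := by linear_combination e3
      have e6 : P * (24 * (6 * b' + 1)) = P * (24 * (6 * b + 1)) := by linear_combination e4
      have e7 := mul_left_cancel₀ hP0 e5
      have e8 := mul_left_cancel₀ hP0 e6
      omega
    · have e5 : P * (24 * (6 * a' + 1)) = P * (-24 * (6 * a + 1)) := by linear_combination e3
      have e7 := mul_left_cancel₀ hP0 e5
      omega
  · right
    have e1 : ((6 * a + 1) * (6 * a' + 1) - 23 * (6 * b + 1) * (6 * b' + 1)) ^ 2 +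
        23 * ((6 * a + 1) * (6 * b' + 1) + (6 * a' + 1) * (6 * b + 1)) ^ 2 = 576 * P ^ 2 := by
      linear_combination ((6 * a' + 1) ^ 2 + 23 * (6 * b' + 1) ^ 2) * h + 24 * P * h'
    obtain ⟨U, hU⟩ := dvd_of_sq_dvd_aux hP e1 hd
    obtain ⟨V, hV⟩ := hd
    have e2 : U ^ 2 + 23 * V ^ 2 = 576 := by
      rw [hU, hV] at e1
      have : P ^ 2 * (U ^ 2 + 23 * V ^ 2) = P ^ 2 * 576 := by linear_combination e1
      exact mul_left_cancel₀ (pow_ne_zero 2 hP0) this
    obtain ⟨hb1, hb2, hb3, hb4⟩ := hbd U V e2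
    have hVV : V = 2 ∨ V = -2 ∨ V = 0 ∨ V = 5 ∨ V = -5 := by
      have hU' : 0 ≤ U + 24 := by omega
      have hU'' : U < 25 := by omega
      interval_cases V
      all_goals first
        | (left; rfl)
        | (right; left; rfl)
        | (right; right; left; rfl)
        | (right; right; right; left; rfl)
        | (right; right; right; right; rfl)
        | (exfalso; interval_cases U <;> omega)
    -- congruences modulo 6
    have h6 : P * V = 6 * (a + b' + a' + b + 6 * a * b' + 6 * a' * b) + 2 := by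
      rw [← hV]; ring
    have h6' : P * U = 6 * (a + a' - 23 * b - 23 * b' + 6 * a * a' - 138 * b * b' - 4) + 2 := by
      rw [← hU]; ring
    obtain ⟨K, hK⟩ : ∃ K, P * V = 6 * K + 2 := ⟨_, h6⟩
    obtain ⟨K', hK'⟩ : ∃ K', P * U = 6 * K' + 2 := ⟨_, h6'⟩
    clear h6 h6'
    have e3 : (6 * a' + 1) * (24 * P) = (6 * a + 1) * (P * U) + 23 * (6 * b + 1) * (P * V) := by
      linear_combination (-(6 * a' + 1)) * h + (6 * a + 1) * hU + 23 * (6 * b + 1) * hV
    have e4 : (6 * b' + 1) * (24 * P) = (6 * a + 1) * (P * V) - (6 * b + 1) * (P * U) := by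
      linear_combination (-(6 * b' + 1)) * h + (6 * a + 1) * hV - (6 * b + 1) * hU
    have hsq : ∀ V : ℤ, U ^ 2 + 23 * V ^ 2 = 576 → (V = 2 ∨ V = -2) → U = 22 ∨ U = -22 := by
      intro V h1 h2
      have : (U - 22) * (U + 22) = 0 := by
        rcases h2 with rfl | rfl <;> linear_combination h1
      rcases mul_eq_zero.mp this with h3 | h3
      · left; linarith
      · right; linarith
    rcases hVV with rfl | rfl | rfl | rfl | rfl
    · have hP1 : P % 6 = 1 := by omega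
      have hU22 : U = -22 := by
        rcases hsq 2 e2 (Or.inl rfl) with rfl | rfl
        · omega
        · rfl
      subst hU22
      refine ⟨-1, Or.inl ⟨hP1, rfl⟩, ?_, ?_⟩
      · have e5 : P * (24 * (6 * a' + 1)) = P * (-22 * (6 * a + 1) + 46 * (6 * b + 1)) := by
          linear_combination e3
        have e7 := mul_left_cancel₀ hP0 e5
        linarith
      · have e5 : P * (24 * (6 * b' + 1)) = P * (2 * (6 * a + 1) + 22 * (6 * b + 1)) := by
          linear_combination e4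
        have e7 := mul_left_cancel₀ hP0 e5
        linarith
    · have hP1 : P % 6 = 5 := by omega
      have hU22 : U = 22 := by
        rcases hsq (-2) e2 (Or.inr rfl) with rfl | rfl
        · rfl
        · omega
      subst hU22
      refine ⟨1, Or.inr ⟨hP1, rfl⟩, ?_, ?_⟩
      · have e5 : P * (24 * (6 * a' + 1)) = P * (22 * (6 * a + 1) - 46 * (6 * b + 1)) := by
          linear_combination e3
        have e7 := mul_left_cancel₀ hP0 e5
        linarith
      · have e5 : P * (24 * (6 * b' + 1)) = P * (-2 * (6 * a + 1) - 22 * (6 * b + 1)) := by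
          linear_combination e4
        have e7 := mul_left_cancel₀ hP0 e5
        linarith
    · omega
    · omega
    · omega

/-! ### The three cases -/

section cases

variable {p : ℕ} (hp : p.Prime) (h5 : 5 ≤ p)

include hp h5 in
theorem mod_six_cases : (p : ℤ) % 6 = 1 ∨ (p : ℤ) % 6 = 5 := by
  have h2 : ¬ 2 ∣ p := fun h => by
    have := (Nat.prime_dvd_prime_iff_eq Nat.prime_two hp).mp h
    omega
  have h3 : ¬ 3 ∣ p := fun h => by
    have := (Nat.prime_dvd_prime_iff_eq Nat.prime_three hp).mp h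
    omega
  omega

/-- the pairs of indices which contribute to the sum -/
theorem mem_iff {a b : ℤ} (hp0 : 0 < p) : (pentagonal a, 23 * pentagonal b) ∈
    Finset.HasAntidiagonal.antidiagonal (p - 1) ↔
      (1 - 6 * a) ^ 2 + 23 * (1 - 6 * b) ^ 2 = 24 * (p : ℤ) := by
  rw [Finset.HasAntidiagonal.mem_antidiagonal, sq_eq_pentagonal, sq_eq_pentagonal]
  simp only
  constructor
  · intro h
    have h1 : ((pentagonal a + 23 * pentagonal b : ℕ) : ℤ) = ((p - 1 : ℕ) : ℤ) := by rw [h]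
    push_cast [Nat.cast_sub (show 1 ≤ p from hp0)] at h1
    linear_combination 24 * h1
  · intro h
    omega

theorem negOnePow_mul_eq (a b : ℤ) : ((a.negOnePow : ℤ) * (b.negOnePow : ℤ) : ℤ) =
    if Even (a + b) then 1 else -1 := by
  have h1 : ((a.negOnePow : ℤ) * (b.negOnePow : ℤ) : ℤ) = (((a + b).negOnePow : ℤˣ) : ℤ) := by
    rw [Int.negOnePow_add]; rfl
  rw [h1]
  split_ifs with h
  · rw [Int.negOnePow_even _ h]; rfl
  · rw [Int.negOnePow_odd _ (Int.not_even_iff_odd.mp h)]; rfl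

theorem wterm_even {a b : ℤ} (h : Even (a + b)) :
    wterm (pentagonal a, 23 * pentagonal b) = 1 := by
  rw [wterm_eq, negOnePow_mul_eq, if_pos h, Int.cast_one]

theorem wterm_odd {a b : ℤ} (h : ¬ Even (a + b)) :
    wterm (pentagonal a, 23 * pentagonal b) = -1 := by
  rw [wterm_eq, negOnePow_mul_eq, if_neg h, Int.cast_neg, Int.cast_one]

include hp h5 in
/-- a solution with `a + b` odd is the only one, and `τ(p) ≡ -1` -/
theorem tau_eq_neg_one {a b : ℤ} (h : (1 - 6 * a) ^ 2 + 23 * (1 - 6 * b) ^ 2 = 24 * (p : ℤ))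
    (hab : ¬ Even (a + b)) : ((tau p : ℤ) : ZMod 23) = -1 := by
  have hp0 := hp.pos
  have hpp : Prime (p : ℤ) := Nat.prime_iff_prime_int.mp hp
  have h0 := tau_eq_sum (p - 1)
  rw [Nat.sub_add_cancel hp0] at h0
  rw [h0, Finset.sum_eq_single (pentagonal a, 23 * pentagonal b), wterm_odd hab]
  · intro t ht hne
    by_contra hw
    obtain ⟨a', b', rfl⟩ := exists_of_wterm hw
    have h' := (mem_iff hp0).mp ht
    rcases partner hpp (mod_six_cases hp h5) (by omega) (by omega) (by omega) (by omega) h h' with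
      ⟨h1, h2⟩ | ⟨e, he, -, h2⟩
    · have h3 : a' = a := by omega
      have h4 : b' = b := by omega
      exact hne (by rw [h3, h4])
    · apply hab
      rw [Int.even_iff]
      rcases he with ⟨-, rfl⟩ | ⟨-, rfl⟩ <;> omega
  · intro ht
    exact absurd ((mem_iff hp0).mpr h) ht

include hp h5 in
/-- if there is a solution with `a + b` even then there are exactly two, and `τ(p) ≡ 2` -/
theorem tau_eq_two (h23 : p ≠ 23) {a b : ℤ}
    (h : (1 - 6 * a) ^ 2 + 23 * (1 - 6 * b) ^ 2 = 24 * (p : ℤ))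
    (hab : Even (a + b)) : ((tau p : ℤ) : ZMod 23) = 2 := by
  have hp0 := hp.pos
  have hpp : Prime (p : ℤ) := Nat.prime_iff_prime_int.mp hp
  obtain ⟨w, hw⟩ : ∃ w, a = b - 2 * w := by
    obtain ⟨r, hr⟩ := hab
    exact ⟨b - r, by omega⟩
  have hP : (p : ℤ) = (1 - 6 * b) ^ 2 + (1 - 6 * b) * w + 6 * w ^ 2 := by
    have : 24 * (p : ℤ) = 24 * ((1 - 6 * b) ^ 2 + (1 - 6 * b) * w + 6 * w ^ 2) := by
      rw [← h, hw]; ring
    linarith
  obtain ⟨K, hK⟩ : ∃ K, (p : ℤ) = 1 + w + 6 * K :=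
    ⟨-2 * b + 6 * b ^ 2 - b * w + w ^ 2, by rw [hP]; ring⟩
  -- the second solution
  obtain ⟨a'', b'', h'', hab'', hne, huniq⟩ : ∃ a'' b'' : ℤ,
      (1 - 6 * a'') ^ 2 + 23 * (1 - 6 * b'') ^ 2 = 24 * (p : ℤ) ∧ Even (a'' + b'') ∧
      ¬ (a'' = a ∧ b'' = b) ∧ ∀ a' b' e : ℤ, ((p : ℤ) % 6 = 1 ∧ e = -1 ∨ (p : ℤ) % 6 = 5 ∧ e = 1) →
        12 * (1 - 6 * a') = e * (11 * (1 - 6 * a) - 23 * (1 - 6 * b)) →
        12 * (1 - 6 * b') = -e * ((1 - 6 * a) + 11 * (1 - 6 * b)) → a' = a'' ∧ b' = b'' := by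
    rcases mod_six_cases hp h5 with h6 | h6
    · obtain ⟨k, rfl⟩ : ∃ k, w = 6 * k := ⟨w / 6, by omega⟩
      refine ⟨b + 11 * k, b - k, ?_, ⟨b + 5 * k, by ring⟩, ?_, ?_⟩
      · rw [hP]; ring
      · rintro ⟨-, h2⟩
        have hk0 : k = 0 := by omega
        subst hk0
        have h3 : (p : ℤ) = (1 - 6 * b) * (1 - 6 * b) := by rw [hP]; ring
        rcases hpp.irreducible.isUnit_or_isUnit h3 with h4 | h4 <;>
        · have h5' := h4.mul h4
          rw [← h3] at h5'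
          exact hpp.not_isUnit h5'
      · intro a' b' e he e1 e2
        rcases he with ⟨-, rfl⟩ | ⟨h7, -⟩
        · omega
        · omega
    · obtain ⟨k, rfl⟩ : ∃ k, w = 6 * k + 4 := ⟨w / 6, by omega⟩
      refine ⟨-7 - b - 11 * k, 1 - b + k, ?_, ⟨-3 - b - 5 * k, by ring⟩, ?_, ?_⟩
      · rw [hP]; ring
      · rintro ⟨-, h2⟩
        obtain rfl : k = 2 * b - 1 := by omega
        have h3 : (p : ℤ) = 23 * (1 - 6 * b) ^ 2 := by rw [hP]; ring
        have h4 : (23 : ℤ) ∣ p := ⟨_, h3⟩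
        have h5' : 23 ∣ p := by exact_mod_cast h4
        exact h23 ((Nat.prime_dvd_prime_iff_eq (by norm_num) hp).mp h5').symm
      · intro a' b' e he e1 e2
        rcases he with ⟨h7, -⟩ | ⟨-, rfl⟩
        · omega
        · omega
  have hne2 : (pentagonal a, 23 * pentagonal b) ≠ (pentagonal a'', 23 * pentagonal b'') := by
    intro h1
    have h2 := congrArg Prod.fst h1
    have h3 := congrArg Prod.snd h1
    simp only at h2 h3
    have h4 := pentagonal_injective h2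
    have h5' := pentagonal_injective (show pentagonal b = pentagonal b'' by omega)
    exact hne ⟨h4.symm, h5'.symm⟩
  have h0 := tau_eq_sum (p - 1)
  rw [Nat.sub_add_cancel hp0] at h0
  have hsub : ({(pentagonal a, 23 * pentagonal b), (pentagonal a'', 23 * pentagonal b'')} :
      Finset (ℕ × ℕ)) ⊆ Finset.HasAntidiagonal.antidiagonal (p - 1) := by
    intro t ht
    rw [Finset.mem_insert, Finset.mem_singleton] at ht
    rcases ht with rfl | rfl
    · exact (mem_iff hp0).mpr h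
    · exact (mem_iff hp0).mpr h''
  rw [h0, ← Finset.sum_subset hsub, Finset.sum_pair hne2, wterm_even hab, wterm_even hab'']
  · norm_num
  · intro t ht hnot
    by_contra hw'
    obtain ⟨a', b', rfl⟩ := exists_of_wterm hw'
    have h' := (mem_iff hp0).mp ht
    apply hnot
    rw [Finset.mem_insert, Finset.mem_singleton]
    rcases partner hpp (mod_six_cases hp h5) (by omega) (by omega) (by omega) (by omega) h h' with
      ⟨h1, h2⟩ | ⟨e, he, h1, h2⟩
    · left
      have h3 : a' = a := by omega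
      have h4 : b' = b := by omega
      rw [h3, h4]
    · right
      obtain ⟨h3, h4⟩ := huniq a' b' e he h1 h2
      rw [h3, h4]

end cases

/-! ### Forms of discriminant `-23` -/

theorem isSquare_neg_twenty_three {p : ℕ} [Fact p.Prime] (h2 : p ≠ 2) (h23 : p ≠ 23)
    (hsq : IsSquare (p : ZMod 23)) : IsSquare ((-23 : ℤ) : ZMod p) := by
  have hp : p.Prime := Fact.out
  have hp0 : ((p : ℤ) : ZMod 23) ≠ 0 := by
    intro h
    rw [Int.cast_natCast, ZMod.natCast_eq_zero_iff] at h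
    exact h23 ((Nat.prime_dvd_prime_iff_eq (by norm_num) hp).mp h).symm
  have hn0 : ((-23 : ℤ) : ZMod p) ≠ 0 := by
    intro h
    rw [ZMod.intCast_zmod_eq_zero_iff_dvd, Int.dvd_neg] at h
    have h' : p ∣ 23 := by exact_mod_cast h
    exact h23 ((Nat.prime_dvd_prime_iff_eq hp (by norm_num)).mp h')
  have h1 : legendreSym 23 p = 1 := (legendreSym.eq_one_iff 23 hp0).mpr (by
    rw [Int.cast_natCast]; exact hsq)
  have hq := legendreSym.quadratic_reciprocity' (p := p) (q := 23) h2 (by norm_num)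
  have hodd : p % 2 = 1 := Nat.odd_iff.mp (hp.odd_of_ne_two h2)
  have h3 : legendreSym p (-23) = 1 := by
    rw [show (-23 : ℤ) = (-1) * 23 by norm_num, legendreSym.mul, legendreSym.at_neg_one h2,
      ZMod.χ₄_eq_neg_one_pow hodd]
    rw [h1, pow_mul] at hq
    have hq' : (1 : ℤ) = ((-1) ^ (p / 2)) ^ 11 * legendreSym p 23 := hq
    rcases neg_one_pow_eq_or ℤ (p / 2) with h | h
    · rw [h] at hq' ⊢
      linarith
    · rw [h] at hq' ⊢
      linarith
  exact (legendreSym.eq_one_iff p hn0).mp h3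

/-- a prime which is a square modulo 23 is represented by one of the two forms of discriminant
`-23` -/
theorem exists_form {p : ℕ} (hp : p.Prime) (h2 : p ≠ 2) (h23 : p ≠ 23)
    (hsq : IsSquare (p : ZMod 23)) :
    (∃ u v : ℤ, (p : ℤ) = u ^ 2 + u * v + 6 * v ^ 2) ∨
      ∃ u v : ℤ, (p : ℤ) = 2 * u ^ 2 + u * v + 3 * v ^ 2 := by
  have : Fact p.Prime := ⟨hp⟩
  obtain ⟨s, hs⟩ := isSquare_neg_twenty_three h2 h23 hsq
  have hodd : p % 2 = 1 := Nat.odd_iff.mp (hp.odd_of_ne_two h2)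
  have hpos : 0 < p := hp.pos
  -- an odd root
  obtain ⟨t, ht2, htp⟩ : ∃ t : ℤ, t % 2 = 1 ∧ (p : ℤ) ∣ t ^ 2 + 23 := by
    have h0 : ∀ t : ℤ, (t : ZMod p) = s → (p : ℤ) ∣ t ^ 2 + 23 := by
      intro t ht
      rw [← ZMod.intCast_zmod_eq_zero_iff_dvd]
      push_cast
      rw [ht, pow_two, ← hs]
      push_cast
      ring
    have h1 : (((s.val : ℕ) : ℤ) : ZMod p) = s := by
      rw [Int.cast_natCast, ZMod.natCast_zmod_val]
    rcases Int.emod_two_eq_zero_or_one (s.val : ℤ) with h | h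
    · refine ⟨(s.val : ℤ) + p, by omega, h0 _ ?_⟩
      rw [Int.cast_add, h1, Int.cast_natCast, ZMod.natCast_self, add_zero]
    · exact ⟨(s.val : ℤ), h, h0 _ h1⟩
  obtain ⟨c, hc⟩ : ∃ c : ℤ, t ^ 2 + 23 = 4 * p * c := by
    have h4 : (4 : ℤ) ∣ t ^ 2 + 23 := by
      obtain ⟨k, rfl⟩ : ∃ k, t = 2 * k + 1 := ⟨t / 2, by omega⟩
      exact ⟨k ^ 2 + k + 6, by ring⟩
    have hcop : IsCoprime (4 : ℤ) p := by
      have : Nat.Coprime 4 p := by
        rw [show 4 = 2 ^ 2 by norm_num]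
        exact Nat.Coprime.pow_left 2 (Nat.coprime_two_left.mpr (Nat.odd_iff.mpr hodd))
      exact_mod_cast Nat.isCoprime_iff_coprime.mpr this
    exact hcop.mul_dvd h4 htp
  obtain ⟨a', b', c', hE, ⟨r1, r2, -⟩, hpos'⟩ := Ray.exists_reduced (a := (p : ℤ)) (b := t)
    (c := c) (by exact_mod_cast hpos) (by rw [show t ^ 2 - 4 * p * c = -23 by linarith]; norm_num)
  have hd := hE.discr
  rw [show t ^ 2 - 4 * p * c = -23 by linarith] at hd
  have hb1 := (abs_le.mp r1).1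
  have hb2 := (abs_le.mp r1).2
  have ha3 : a' < 3 := by
    by_contra hge
    have h3 : 3 ≤ a' := not_lt.mp hge
    have h4 : b' ^ 2 ≤ a' ^ 2 := sq_le_sq.mpr (by rwa [abs_of_pos hpos'])
    nlinarith
  obtain ⟨P, Q, R, S, -, hp1, -, -⟩ := hE.symm
  have hbb : -2 ≤ b' := by omega
  have hbb' : b' < 3 := by omega
  have hd' : b' ^ 2 + 23 = 4 * a' * c' := by linarith
  have key : (a' = 1 ∧ (b' = 1 ∨ b' = -1) ∧ c' = 6) ∨ (a' = 2 ∧ (b' = 1 ∨ b' = -1) ∧ c' = 3) := by
    clear hp1 hE hd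
    interval_cases a' <;> interval_cases b' <;> norm_num at hd' hb1 hb2 ⊢ <;> omega
  rcases key with ⟨rfl, hb, rfl⟩ | ⟨rfl, hb, rfl⟩
  · left
    rcases hb with rfl | rfl
    · exact ⟨P, R, by rw [hp1]; ring⟩
    · exact ⟨P, -R, by rw [hp1]; ring⟩
  · right
    rcases hb with rfl | rfl
    · exact ⟨P, R, by rw [hp1]; ring⟩
    · exact ⟨P, -R, by rw [hp1]; ring⟩

/-! ### The congruence -/

theorem exists_one_sub {y : ℤ} (h2 : y % 2 = 1) (h3 : y % 3 ≠ 0) :
    ∃ b : ℤ, y = 1 - 6 * b ∨ -y = 1 - 6 * b := by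
  rcases (by omega : y % 6 = 1 ∨ y % 6 = 5) with h | h
  · exact ⟨-(y / 6), Or.inl (by omega)⟩
  · exact ⟨y / 6 + 1, Or.inr (by omega)⟩

/-- `τ(p) ≡ 2` modulo 23 if `p` is represented by the principal form -/
theorem tau_of_form_one {p : ℕ} (hp : p.Prime) (h5 : 5 ≤ p) (h23 : p ≠ 23) {u v : ℤ}
    (h : (p : ℤ) = u ^ 2 + u * v + 6 * v ^ 2) : ((tau p : ℤ) : ZMod 23) = 2 := by
  have h6 := mod_six_cases hp h5
  have h2 : (u + v) % 2 = 1 := by
    by_contra hne
    obtain ⟨k, hk⟩ : ∃ k, u + v = 2 * k := ⟨(u + v) / 2, by omega⟩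
    have h1 : (p : ℤ) = 2 * (u * k + 3 * v ^ 2) := by linear_combination h + u * hk
    omega
  have h3 : (u + v) % 3 ≠ 0 := by
    intro hne
    obtain ⟨k, hk⟩ : ∃ k, u + v = 3 * k := ⟨(u + v) / 3, by omega⟩
    have h1 : (p : ℤ) = 3 * (u * k + 2 * v ^ 2) := by linear_combination h + u * hk
    omega
  obtain ⟨b, hb | hb⟩ := exists_one_sub h2 h3
  · refine tau_eq_two hp h5 h23 (a := b + 2 * v) (b := b) ?_ ⟨b + v, by ring⟩
    rw [show 1 - 6 * (b + 2 * v) = u - 11 * v by linarith, ← hb, h]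
    ring
  · refine tau_eq_two hp h5 h23 (a := b - 2 * v) (b := b) ?_ ⟨b - v, by ring⟩
    rw [show 1 - 6 * (b - 2 * v) = -u + 11 * v by linarith, ← hb, h]
    ring

/-- `τ(p) ≡ -1` modulo 23 if `p` is represented by the form `(2, 1, 3)` -/
theorem tau_of_form_two {p : ℕ} (hp : p.Prime) {u v : ℤ}
    (h : (p : ℤ) = 2 * u ^ 2 + u * v + 3 * v ^ 2) : ((tau p : ℤ) : ZMod 23) = -1 := by
  rcases lt_or_ge p 5 with hlt | h5
  · have h1 := hp.two_le
    obtain ⟨v2, v3, -⟩ := tau_values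
    have h4 : p ≠ 4 := by rintro rfl; exact absurd hp (by norm_num)
    rcases (by omega : p = 2 ∨ p = 3) with rfl | rfl
    · rw [v2]; decide
    · rw [v3]; decide
  · have h6 := mod_six_cases hp h5
    have h2 : (v + u) % 2 = 1 := by
      by_contra hne
      obtain ⟨k, hk⟩ : ∃ k, v + u = 2 * k := ⟨(v + u) / 2, by omega⟩
      have h1 : (p : ℤ) = 2 * (v * k + u ^ 2 + v ^ 2) := by linear_combination h + v * hk
      omega
    have h3 : (v - u) % 3 ≠ 0 := by
      intro hne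
      obtain ⟨k, hk⟩ : ∃ k, v - u = 3 * k := ⟨(v - u) / 3, by omega⟩
      have h1 : (p : ℤ) = 3 * (u * k + u ^ 2 + v ^ 2) := by linear_combination h + u * hk
      omega
    obtain ⟨b, hb | hb⟩ := exists_one_sub (y := v - u) (by omega) h3
    · refine tau_eq_neg_one hp h5 (a := b - (u + v)) (b := b) ?_ (by rw [Int.even_iff]; omega)
      rw [show 1 - 6 * (b - (u + v)) = 5 * u + 7 * v by linarith, ← hb, h]
      ring
    · refine tau_eq_neg_one hp h5 (a := b + (u + v)) (b := b) ?_ (by rw [Int.even_iff]; omega)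
      rw [show 1 - 6 * (b + (u + v)) = -5 * u - 7 * v by linarith, ← hb, h]
      ring

/-- `x ^ 2 + 23 y ^ 2` and the principal form represent the same odd numbers -/
theorem form_one_iff {P : ℤ} (h2 : P % 2 = 1) :
    (∃ u v : ℤ, P = u ^ 2 + u * v + 6 * v ^ 2) ↔ ∃ x y : ℤ, P = x ^ 2 + 23 * y ^ 2 := by
  constructor
  · rintro ⟨u, v, h⟩
    obtain ⟨k, rfl⟩ : ∃ k, v = 2 * k := by
      refine ⟨v / 2, ?_⟩
      by_contra hne
      have hv : v % 2 = 1 := by omega
      rcases Int.emod_two_eq_zero_or_one u with hu | hu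
      · obtain ⟨k, rfl⟩ : ∃ k, u = 2 * k := ⟨u / 2, by omega⟩
        have h1 : P = 2 * (2 * k ^ 2 + k * v + 3 * v ^ 2) := by rw [h]; ring
        omega
      · obtain ⟨k, hk⟩ : ∃ k, u + v = 2 * k := ⟨(u + v) / 2, by omega⟩
        have h1 : P = 2 * (u * k + 3 * v ^ 2) := by linear_combination h + u * hk
        omega
    exact ⟨u + k, k, by rw [h]; ring⟩
  · rintro ⟨x, y, h⟩
    exact ⟨x - y, 2 * y, by rw [h]; ring⟩

/-- **Wilton's congruence**: for a prime `p ≠ 23`, modulo 23, `τ(p) ≡ 0` if `p` is not a square modulo 23,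
`τ(p) ≡ 2` if `p = x ^ 2 + 23 y ^ 2` and `τ(p) ≡ -1` if `p = 2 x ^ 2 + x y + 3 y ^ 2`; there is no other
possibility. -/
theorem wilton {p : ℕ} (hp : p.Prime) (h23 : p ≠ 23) :
    (((tau p : ℤ) : ZMod 23) = 0 ↔ ¬ IsSquare (p : ZMod 23)) ∧
    (((tau p : ℤ) : ZMod 23) = 2 ↔ ∃ x y : ℤ, (p : ℤ) = x ^ 2 + 23 * y ^ 2) ∧
    (((tau p : ℤ) : ZMod 23) = -1 ↔ ∃ x y : ℤ, (p : ℤ) = 2 * x ^ 2 + x * y + 3 * y ^ 2) := by
  have c1 : (0 : ZMod 23) ≠ 2 := by decide
  have c2 : (0 : ZMod 23) ≠ -1 := by decide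
  have c3 : (2 : ZMod 23) ≠ -1 := by decide
  -- the three implications
  have i1 : ¬ IsSquare (p : ZMod 23) → ((tau p : ℤ) : ZMod 23) = 0 := fun h =>
    (ZMod.intCast_zmod_eq_zero_iff_dvd _ 23).mpr (tau_mod_twenty_three h)
  have i2 : (∃ x y : ℤ, (p : ℤ) = x ^ 2 + 23 * y ^ 2) → ((tau p : ℤ) : ZMod 23) = 2 := by
    rintro ⟨x, y, h⟩
    have h5 : 5 ≤ p := by
      by_contra hlt
      have h1 := hp.two_le
      have h4 : p ≠ 4 := by rintro rfl; exact absurd hp (by norm_num)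
      have hy : y = 0 := by
        by_contra hy0
        have : 0 < y ^ 2 := by positivity
        nlinarith [sq_nonneg x]
      subst hy
      have hz : (p : ℤ) ≤ 3 := by omega
      have hx : (p : ℤ) = x ^ 2 := by rw [h]; ring
      have h6 : -2 < x := by nlinarith
      have h7 : x < 2 := by nlinarith
      interval_cases x <;> omega
    exact tau_of_form_one hp h5 h23 (u := x - y) (v := 2 * y) (by rw [h]; ring)
  have i3 : (∃ x y : ℤ, (p : ℤ) = 2 * x ^ 2 + x * y + 3 * y ^ 2) →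
      ((tau p : ℤ) : ZMod 23) = -1 := by
    rintro ⟨x, y, h⟩
    exact tau_of_form_two hp h
  -- one of the three holds
  have htri : ¬ IsSquare (p : ZMod 23) ∨ (∃ x y : ℤ, (p : ℤ) = x ^ 2 + 23 * y ^ 2) ∨
      ∃ x y : ℤ, (p : ℤ) = 2 * x ^ 2 + x * y + 3 * y ^ 2 := by
    by_cases hsq : IsSquare (p : ZMod 23)
    · right
      rcases eq_or_ne p 2 with rfl | h2
      · right
        exact ⟨1, 0, by norm_num⟩
      · rcases exists_form hp h2 h23 hsq with h | h
        · left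
          have hodd := Nat.odd_iff.mp (hp.odd_of_ne_two h2)
          exact (form_one_iff (by omega)).mp h
        · right
          exact h
    · exact Or.inl hsq
  refine ⟨⟨fun h => ?_, i1⟩, ⟨fun h => ?_, i2⟩, ⟨fun h => ?_, i3⟩⟩
  · rcases htri with h1 | h1 | h1
    · exact h1
    · exact absurd (h.symm.trans (i2 h1)) c1
    · exact absurd (h.symm.trans (i3 h1)) c2
  · rcases htri with h1 | h1 | h1
    · exact absurd ((i1 h1).symm.trans h) c1
    · exact h1
    · exact absurd (h.symm.trans (i3 h1)) c3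
  · rcases htri with h1 | h1 | h1
    · exact absurd ((i1 h1).symm.trans h) c2
    · exact absurd ((i2 h1).symm.trans h) c3
    · exact h1

/-! ### Zeros of `τ` -/

/-- a prime `p` with `τ(p) = 0` is not a square modulo 23 -/
theorem not_isSquare_of_tau_eq_zero {p : ℕ} (hp : p.Prime) (h : tau p = 0) :
    ¬ IsSquare (p : ZMod 23) := by
  have h23 : p ≠ 23 := by
    rintro rfl
    exact tau_ne_zero (by norm_num) (by norm_num) h
  exact (wilton hp h23).1.mp (by rw [h, Int.cast_zero])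

theorem zmod_23 : ∀ r < 23, IsSquare ((r : ℕ) : ZMod 23) ∨ r = 5 ∨ r = 7 ∨ r = 10 ∨ r = 11 ∨ r = 14 ∨
    r = 15 ∨ r = 17 ∨ r = 19 ∨ r = 20 ∨ r = 21 ∨ r = 22 := by decide +kernel

/-- the non-squares modulo 23 -/
theorem mod_of_not_isSquare {p : ℕ} (h : ¬ IsSquare (p : ZMod 23)) : p % 23 = 5 ∨ p % 23 = 7 ∨
    p % 23 = 10 ∨ p % 23 = 11 ∨ p % 23 = 14 ∨ p % 23 = 15 ∨ p % 23 = 17 ∨ p % 23 = 19 ∨
    p % 23 = 20 ∨ p % 23 = 21 ∨ p % 23 = 22 := by
  rw [← ZMod.natCast_mod] at h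
  exact (zmod_23 (p % 23) (Nat.mod_lt p (by norm_num))).resolve_left h

/-- **`τ(n) ≠ 0` for `1 ≤ n < 1223899199`** -/
theorem tau_ne_zero_of_lt {n : ℕ} (hn : n ≠ 0) (h : n < 1223899199) : tau n ≠ 0 := by
  intro h0
  obtain ⟨p, hp, hd, hp0, ⟨m, hm⟩, h7⟩ := lehmer hn h0
  have hns := not_isSquare_of_tau_eq_zero hp hp0
  have hle : p ≤ n := Nat.le_of_dvd (Nat.pos_of_ne_zero hn) hd
  have h23 := mod_of_not_isSquare hns
  have hm41 : m < 41 := by omega
  have hm0 : 0 < m := by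
    rcases Nat.eq_zero_or_pos m with rfl | h1
    · omega
    · exact h1
  obtain rfl : p = 29851200 * m - 1 := by omega
  clear hns hp0 hd h0 hle h
  interval_cases m
  all_goals first
    | omega
    | norm_num at hp

end Fermat.Agent.Cor.Tau
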