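import Fermat.Agent.Corollaries.Tau.Wilton

/-!
# The values of `τ` modulo 23 (Ramanujan)

The values of `τ` modulo 23 on the prime powers, and the numbers `n` with `23 ∣ τ(n)`.
-/

set_option autoImplicit false

noncomputable section

open PowerSeries Pentagonal

namespace Fermat.Agent.Cor.Tau

/-- exactly one of the three cases of `wilton` holds; here: at least one -/
theorem wilton_cases {p : ℕ} (hp : p.Prime) (h23 : p ≠ 23) :
    ¬ IsSquare (p : ZMod 23) ∨ (∃ x y : ℤ, (p : ℤ) = x ^ 2 + 23 * y ^ 2) ∨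
      ∃ x y : ℤ, (p : ℤ) = 2 * x ^ 2 + x * y + 3 * y ^ 2 := by
  by_cases hsq : IsSquare (p : ZMod 23)
  · right
    rcases eq_or_ne p 2 with rfl | h2
    · right
      exact ⟨1, 0, by norm_num⟩
    · rcases exists_form hp h2 h23 hsq with h | h
      · left
        have hodd := Nat.odd_iff.mp (hp.odd_of_ne_two h2)
        exact (form_one_iff (by omega)).mp h
      · right
        exact h
  · exact Or.inl hsq

theorem natCast_ne_zero {p : ℕ} (hp : p.Prime) (h23 : p ≠ 23) : (p : ZMod 23) ≠ 0 := by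
  rw [Ne, ZMod.natCast_eq_zero_iff]
  intro h
  exact h23 ((Nat.prime_dvd_prime_iff_eq (by norm_num) hp).mp h).symm

/-- the recursion modulo 23 -/
theorem tau_pow_recur {p : ℕ} (hp : p.Prime) (r : ℕ) : ((tau (p ^ (r + 2)) : ℤ) : ZMod 23) =
    ((tau p : ℤ) : ZMod 23) * ((tau (p ^ (r + 1)) : ℤ) : ZMod 23) -
      (p : ZMod 23) ^ 11 * ((tau (p ^ r) : ℤ) : ZMod 23) := by
  rw [tau_prime_pow hp]
  push_cast
  rfl

theorem pow_eleven_nonsq {p : ℕ} (hp : p.Prime) (h : ¬ IsSquare (p : ZMod 23)) :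
    (p : ZMod 23) ^ 11 = -1 := by
  have h23 : p ≠ 23 := by
    rintro rfl
    exact h ⟨0, by decide⟩
  have h0 := natCast_ne_zero hp h23
  have h1 := ZMod.pow_div_two_eq_neg_one_or_one 23 h0
  have h2 := (ZMod.euler_criterion 23 h0).not.mp h
  exact h1.resolve_left h2

theorem pow_eleven_sq {p : ℕ} (hp : p.Prime) (h23 : p ≠ 23) (h : IsSquare (p : ZMod 23)) :
    (p : ZMod 23) ^ 11 = 1 :=
  (ZMod.euler_criterion 23 (natCast_ne_zero hp h23)).mp h

/-- **`τ(p ^ r)` modulo 23 for a non-square `p`**: `1, 0, 1, 0, …` -/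
theorem tau_pow_nonsq {p : ℕ} (hp : p.Prime) (h : ¬ IsSquare (p : ZMod 23)) (r : ℕ) :
    ((tau (p ^ r) : ℤ) : ZMod 23) = if Even r then 1 else 0 := by
  have h23 : p ≠ 23 := by
    rintro rfl
    exact h ⟨0, by decide⟩
  have h0 := (wilton hp h23).1.mpr h
  induction r using Nat.twoStepInduction with
  | zero => rw [pow_zero, tau_one, if_pos (by decide), Int.cast_one]
  | one => rw [pow_one, h0, if_neg (by decide)]
  | more r ih1 _ =>
    rw [tau_pow_recur hp, h0, pow_eleven_nonsq hp h, ih1]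
    have h1 : Even (r + 2) ↔ Even r := by rw [Nat.even_iff, Nat.even_iff]; omega
    rw [zero_mul, zero_sub, neg_mul, one_mul, neg_neg]
    exact if_congr h1.symm rfl rfl

/-- a prime `x ^ 2 + 23 y ^ 2` is a square modulo 23 -/
theorem isSquare_of_form {p : ℕ} {x y : ℤ} (h : (p : ℤ) = x ^ 2 + 23 * y ^ 2) :
    IsSquare (p : ZMod 23) := by
  refine ⟨(x : ZMod 23), ?_⟩
  have h1 := congrArg (Int.cast : ℤ → ZMod 23) h
  push_cast at h1
  rw [h1, show (23 : ZMod 23) = 0 by decide]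
  ring

/-- **`τ(p ^ r)` modulo 23 for `p = x ^ 2 + 23 y ^ 2`**: `1, 2, 3, …` -/
theorem tau_pow_form_one {p : ℕ} (hp : p.Prime) (h23 : p ≠ 23)
    (h : ∃ x y : ℤ, (p : ℤ) = x ^ 2 + 23 * y ^ 2) (r : ℕ) :
    ((tau (p ^ r) : ℤ) : ZMod 23) = (r + 1 : ℕ) := by
  have h0 := (wilton hp h23).2.1.mpr h
  obtain ⟨x, y, hxy⟩ := h
  have hs := pow_eleven_sq hp h23 (isSquare_of_form hxy)
  induction r using Nat.twoStepInduction with
  | zero => rw [pow_zero, tau_one, Int.cast_one]; decide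
  | one => rw [pow_one, h0]; decide
  | more r ih1 ih2 =>
    rw [tau_pow_recur hp, h0, hs, ih1, ih2]
    push_cast
    ring

/-- **`τ(p ^ r)` modulo 23 for `p = 2 x ^ 2 + x y + 3 y ^ 2`**: `1, -1, 0, 1, -1, 0, …` -/
theorem tau_pow_form_two {p : ℕ} (hp : p.Prime)
    (h : ∃ x y : ℤ, (p : ℤ) = 2 * x ^ 2 + x * y + 3 * y ^ 2) (r : ℕ) :
    ((tau (p ^ r) : ℤ) : ZMod 23) = if r % 3 = 0 then 1 else if r % 3 = 1 then -1 else 0 := by
  have h0 : ((tau p : ℤ) : ZMod 23) = -1 := by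
    obtain ⟨x, y, hxy⟩ := h
    exact tau_of_form_two hp hxy
  have h23 : p ≠ 23 := by
    rintro rfl
    obtain ⟨x, y, hxy⟩ := h
    have h1 : (4 * x + y) ^ 2 + 23 * y ^ 2 = 184 := by push_cast at hxy; linear_combination -8 * hxy
    have h2 : -3 < y := by nlinarith [sq_nonneg (4 * x + y)]
    have h3 : y < 3 := by nlinarith [sq_nonneg (4 * x + y)]
    have h4 : -14 < 4 * x + y := by nlinarith [sq_nonneg y]
    have h5 : 4 * x + y < 14 := by nlinarith [sq_nonneg y]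
    obtain ⟨z, hz⟩ : ∃ z, z = 4 * x + y := ⟨_, rfl⟩
    rw [← hz] at h1 h4 h5
    interval_cases y <;> interval_cases z <;> omega
  have hsq : IsSquare (p : ZMod 23) := by
    by_contra hn
    have h1 := (wilton hp h23).1.mpr hn
    rw [h0] at h1
    exact absurd h1 (by decide)
  have hs := pow_eleven_sq hp h23 hsq
  induction r using Nat.twoStepInduction with
  | zero => rw [pow_zero, tau_one, if_pos rfl, Int.cast_one]
  | one => rw [pow_one, h0]; decide
  | more r ih1 ih2 =>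
    rw [tau_pow_recur hp, h0, hs, ih1, ih2]
    rcases (by omega : r % 3 = 0 ∨ r % 3 = 1 ∨ r % 3 = 2) with h3 | h3 | h3
    · have e1 : (r + 1) % 3 = 1 := by omega
      have e2 : (r + 2) % 3 = 2 := by omega
      rw [h3, e1, e2]; decide
    · have e1 : (r + 1) % 3 = 2 := by omega
      have e2 : (r + 2) % 3 = 0 := by omega
      rw [h3, e1, e2]; decide
    · have e1 : (r + 1) % 3 = 0 := by omega
      have e2 : (r + 2) % 3 = 1 := by omega
      rw [h3, e1, e2]; decide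

/-- `τ(23) ≡ 1` modulo 23 -/
theorem tau_twenty_three : ((tau 23 : ℤ) : ZMod 23) = 1 := by
  have h0 := tau_eq_sum 22
  have h1 : wterm (pentagonal 4, 23 * pentagonal 0) = 1 := wterm_even (by decide)
  have h4 : pentagonal 4 = 22 := by decide
  have h5 : pentagonal 0 = 0 := by decide
  rw [h4, h5, mul_zero] at h1
  rw [h0, Finset.sum_eq_single (22, 0), h1]
  · intro t ht hne
    rw [Finset.HasAntidiagonal.mem_antidiagonal] at ht
    rw [wterm, coeff_pow_prime, mul_zero]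
    intro hd
    apply hne
    have h2 : t.2 = 0 := by omega
    exact Prod.ext (by simp only; omega) h2
  · intro hn
    exact absurd (Finset.HasAntidiagonal.mem_antidiagonal.mpr (show 22 + 0 = 22 from rfl)) hn

/-- `τ(23 ^ r) ≡ 1` modulo 23 -/
theorem tau_pow_twenty_three (r : ℕ) : ((tau (23 ^ r) : ℤ) : ZMod 23) = 1 := by
  induction r using Nat.twoStepInduction with
  | zero => rw [pow_zero, tau_one, Int.cast_one]
  | one => rw [pow_one, tau_twenty_three]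
  | more r _ ih2 =>
    rw [tau_pow_recur (by norm_num), tau_twenty_three, ih2]
    have h : ((23 : ℕ) : ZMod 23) = 0 := by decide
    rw [h]
    ring

/-- the prime powers with `23 ∣ τ(p ^ r)` -/
theorem dvd_tau_pow_iff {p : ℕ} (hp : p.Prime) (r : ℕ) : (23 : ℤ) ∣ tau (p ^ r) ↔ p ≠ 23 ∧
    ((¬ IsSquare (p : ZMod 23) ∧ Odd r) ∨
      ((∃ x y : ℤ, (p : ℤ) = 2 * x ^ 2 + x * y + 3 * y ^ 2) ∧ r % 3 = 2) ∨
        ((∃ x y : ℤ, (p : ℤ) = x ^ 2 + 23 * y ^ 2) ∧ r % 23 = 22)) := by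
  have hd : (23 : ℤ) ∣ tau (p ^ r) ↔ ((tau (p ^ r) : ℤ) : ZMod 23) = 0 :=
    (ZMod.intCast_zmod_eq_zero_iff_dvd _ 23).symm
  rw [hd]
  have c1 : (2 : ZMod 23) ≠ -1 := by decide
  have c2 : (0 : ZMod 23) ≠ 2 := by decide
  have c3 : (0 : ZMod 23) ≠ -1 := by decide
  rcases eq_or_ne p 23 with rfl | h23
  · rw [tau_pow_twenty_three]
    exact ⟨fun h => absurd h (by decide), fun h => absurd rfl h.1⟩
  obtain ⟨w1, w2, w3⟩ := wilton hp h23
  rcases wilton_cases hp h23 with h | h | h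
  · have n2 : ¬ ∃ x y : ℤ, (p : ℤ) = x ^ 2 + 23 * y ^ 2 := fun h' =>
      c2 ((w1.mpr h).symm.trans (w2.mpr h'))
    have n3 : ¬ ∃ x y : ℤ, (p : ℤ) = 2 * x ^ 2 + x * y + 3 * y ^ 2 := fun h' =>
      c3 ((w1.mpr h).symm.trans (w3.mpr h'))
    rw [tau_pow_nonsq hp h]
    constructor
    · intro h1
      refine ⟨h23, Or.inl ⟨h, ?_⟩⟩
      rw [← Nat.not_even_iff_odd]
      intro he
      rw [if_pos he] at h1
      exact absurd h1 (by decide)
    · rintro ⟨-, ⟨-, ho⟩ | ⟨h', -⟩ | ⟨h', -⟩⟩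
      · rw [if_neg (Nat.not_even_iff_odd.mpr ho)]
      · exact absurd h' n3
      · exact absurd h' n2
  · have n1 : ¬ ¬ IsSquare (p : ZMod 23) := fun h' => c2 ((w1.mpr h').symm.trans (w2.mpr h))
    have n3 : ¬ ∃ x y : ℤ, (p : ℤ) = 2 * x ^ 2 + x * y + 3 * y ^ 2 := fun h' =>
      c1 ((w2.mpr h).symm.trans (w3.mpr h'))
    rw [tau_pow_form_one hp h23 h, ZMod.natCast_eq_zero_iff]
    constructor
    · intro h1
      exact ⟨h23, Or.inr (Or.inr ⟨h, by omega⟩)⟩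
    · rintro ⟨-, ⟨h', -⟩ | ⟨h', -⟩ | ⟨-, h'⟩⟩
      · exact absurd h' n1
      · exact absurd h' n3
      · omega
  · have n1 : ¬ ¬ IsSquare (p : ZMod 23) := fun h' => c3 ((w1.mpr h').symm.trans (w3.mpr h))
    have n2 : ¬ ∃ x y : ℤ, (p : ℤ) = x ^ 2 + 23 * y ^ 2 := fun h' =>
      c1 ((w2.mpr h').symm.trans (w3.mpr h))
    rw [tau_pow_form_two hp h]
    constructor
    · intro h1
      refine ⟨h23, Or.inr (Or.inl ⟨h, ?_⟩)⟩
      by_contra hne
      rcases (by omega : r % 3 = 0 ∨ r % 3 = 1) with h3 | h3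
      · rw [h3] at h1; exact absurd h1 (by decide)
      · rw [h3] at h1; exact absurd h1 (by decide)
    · rintro ⟨-, ⟨h', -⟩ | ⟨-, h'⟩ | ⟨h', -⟩⟩
      · exact absurd h' n1
      · rw [h']; decide
      · exact absurd h' n2

/-- **The numbers `n` with `23 ∣ τ(n)`** (Ramanujan): there is a prime `p ≠ 23`, with exponent `r` in `n`,
such that `p` is not a square modulo 23 and `r` is odd, or `p = 2 x ^ 2 + x y + 3 y ^ 2` and `r ≡ 2 mod 3`,
or `p = x ^ 2 + 23 y ^ 2` and `r ≡ -1 mod 23`. -/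
theorem dvd_tau_iff {n : ℕ} (hn : n ≠ 0) : (23 : ℤ) ∣ tau n ↔ ∃ p : ℕ, p.Prime ∧ p ≠ 23 ∧
    ((¬ IsSquare (p : ZMod 23) ∧ Odd (n.factorization p)) ∨
      ((∃ x y : ℤ, (p : ℤ) = 2 * x ^ 2 + x * y + 3 * y ^ 2) ∧ n.factorization p % 3 = 2) ∨
        ((∃ x y : ℤ, (p : ℤ) = x ^ 2 + 23 * y ^ 2) ∧ n.factorization p % 23 = 22)) := by
  have hP : Prime (23 : ℤ) := Nat.prime_iff_prime_int.mp (by norm_num)
  rw [Nat.multiplicative_factorization tau (fun _ _ h => tau_mul_of_coprime h) tau_one hn,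
    Finsupp.prod, hP.dvd_finsetProd_iff]
  constructor
  · rintro ⟨p, hp, h⟩
    have hp' := Nat.prime_of_mem_primeFactors hp
    exact ⟨p, hp', (dvd_tau_pow_iff hp' _).mp h⟩
  · rintro ⟨p, hp, h⟩
    refine ⟨p, ?_, (dvd_tau_pow_iff hp _).mpr h⟩
    rw [Finsupp.mem_support_iff]
    intro h0
    rw [h0] at h
    obtain ⟨-, ⟨-, h1⟩ | ⟨-, h1⟩ | ⟨-, h1⟩⟩ := h
    · exact absurd h1 (by decide)
    · exact absurd h1 (by decide)
    · exact absurd h1 (by decide)

end Fermat.Agent.Cor.Tau
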